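import Fermat.Agent.TorsionHom.HeckeCompat
import Fermat.Agent.TorsionHom.Kernel
import Fermat.Agent.Lowering.P7.Geometry
import Fermat.Agent.EigenLattice.Galois

/-!
# Norms of functions whose characters have vanishing transfer

For `l` prime to `N` a function of level `N l` with divisor divisible by `n` has a character; when
its transfer to `Γ₀(N)` vanishes the norm along the forgetful map is an `n`-th power, and the norm
along the other map when the transfer of the character moved by an Atkin–Lehner matrix vanishes.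
-/

set_option autoImplicit false
set_option linter.style.haveILetI false
set_option linter.unusedSectionVars false
set_option synthInstance.maxHeartbeats 400000
set_option maxHeartbeats 1000000

noncomputable section

open UpperHalfPlane CongruenceSubgroup Function AlgebraicCurve
open scoped MatrixGroups Manifold

namespace FLTAgent.ModLift.Push

open FLTAgent.X0Fn FLTAgent.TorsionHom
open FLTAgent.CuspForms (mulHalfPlane coe_mulHalfPlane)
open FLTAgent.PeriodHecke (mat mat_mul HeckeIdx)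
open ModularCurve (heckeAlphaBar heckeBetaBar modularFunctionFieldBar coeffEmb qExpand JZero)
open FLTAgent.EigenLattice (pushPic)

local notation "Cx" => Additive ℂˣ
local notation "QA" => AlgebraicClosure ℚ

section Sums

variable {N : ℕ} [NeZero N] (l : ℕ) [Fact l.Prime] [NeZero (N * l)]
variable {K : Type*} [Field K] [Algebra ℚ K] [IsAlgClosed K] {κ : K →+* ℂ}

variable (N) in
/-- A translate by an element of the larger group. -/
def transRep (i : HeckeIdx N l) : Hol →ₐ[ℂ] Hol where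
  toFun f := ⟨fun τ => (f : ℍ → ℂ) ((repRight N l i : SL(2, ℤ)) • τ), comp_smul_mdiff f.2 _⟩
  map_one' := rfl
  map_mul' _ _ := rfl
  map_zero' := rfl
  map_add' _ _ := rfl
  commutes' _ := rfl

omit [NeZero N] [NeZero (N * l)] in
theorem transRep_injective (i : HeckeIdx N l) : Injective (transRep N l i) := by
  refine (injective_iff_map_eq_zero _).2 fun f hf => Subtype.ext (funext fun τ => ?_)
  have h := congrFun (congrArg Subtype.val hf) ((repRight N l i : SL(2, ℤ))⁻¹ • τ)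
  simpa [transRep] using h

variable (N) in
/-- The product of the translates. -/
def transProd : Hol →* Hol where
  toFun f := ∏ i, transRep N l i f
  map_one' := by simp
  map_mul' f g := by simp only [map_mul, Finset.prod_mul_distrib]

omit [NeZero N] [NeZero (N * l)] in
theorem transProd_ne_zero {f : Hol} (hf : f ≠ 0) : transProd N l f ≠ 0 :=
  Finset.prod_ne_zero_iff.2 fun i _ => (map_ne_zero_iff _ (transRep_injective l i)).2 hf

/-- The sums of a character over the fibre vanish. -/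
def SumZero (χ : Additive (Gamma0 (N * l)) →+ Cx) : Prop :=
  ∀ (γ : Gamma0 N) (π : HeckeIdx N l → HeckeIdx N l) (u : HeckeIdx N l → Gamma0 (N * l)),
    (∀ i, (repRight N l i : SL(2, ℤ)) * γ = (u i : SL(2, ℤ)) * repRight N l (π i)) →
      ∑ i, χ (Additive.ofMul (u i)) = 0

theorem exists_next (γ : Gamma0 N) : ∃ (π : Equiv.Perm (HeckeIdx N l))
    (u : HeckeIdx N l → Gamma0 (N * l)),
    ∀ i, (repRight N l i : SL(2, ℤ)) * γ = (u i : SL(2, ℤ)) * repRight N l (π i) := by
  let H := (Gamma0 (N * l)).subgroupOf (Gamma0 N)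
  have hj : ∀ i, ∃ j : HeckeIdx N l, (((repRight N l j)⁻¹ : Gamma0 N) : Gamma0 N ⧸ H) =
      (((repRight N l i * γ)⁻¹ : Gamma0 N) : Gamma0 N ⧸ H) := fun i => (fibre_bijective N l).2 _
  choose π hπ using hj
  have hu : ∀ i, ((repRight N l i * γ * (repRight N l (π i))⁻¹ : Gamma0 N) : SL(2, ℤ)) ∈
      Gamma0 (N * l) := fun i => by
    have h := (QuotientGroup.eq.1 (hπ i).symm)
    rw [inv_inv, Subgroup.mem_subgroupOf] at h
    exact h
  have hinj : Injective π := fun i j hij => by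
    refine (fibre_bijective N l).1 ?_
    show ((((repRight N l i)⁻¹ : Gamma0 N)) : Gamma0 N ⧸ H) = ((repRight N l j)⁻¹ : Gamma0 N)
    have h := (hπ i).symm.trans ((congrArg (fun x =>
      (((repRight N l x)⁻¹ : Gamma0 N) : Gamma0 N ⧸ H)) hij).trans (hπ j))
    rw [mul_inv_rev, mul_inv_rev] at h
    have h' := congrArg (fun x => γ • x) h
    simpa [MulAction.Quotient.smul_coe] using h'
  refine ⟨Equiv.ofBijective π (Finite.injective_iff_bijective.1 hinj), fun i => ⟨_, hu i⟩,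
    fun i => ?_⟩
  simp [mul_assoc]

theorem transProd_hasChar {R : Hol} {χ : Additive (Gamma0 (N * l)) →+ Cx}
    (h : HasChar (R : ℍ → ℂ) χ) (h0 : SumZero l χ) :
    HasChar (transProd N l R : ℍ → ℂ) (0 : Additive (Gamma0 N) →+ Cx) := by
  intro γ τ
  obtain ⟨π, u, hu⟩ := exists_next l γ
  rw [mult_zero, one_mul]
  show ((∏ i, transRep N l i R : Hol) : ℍ → ℂ) _ = ((∏ i, transRep N l i R : Hol) : ℍ → ℂ) τ
  simp only [SubmonoidClass.coe_finsetProd, Finset.prod_apply]
  show ∏ i, (R : ℍ → ℂ) ((repRight N l i : SL(2, ℤ)) • (γ : SL(2, ℤ)) • τ) =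
    ∏ i, (R : ℍ → ℂ) ((repRight N l i : SL(2, ℤ)) • τ)
  have e : ∀ i, (R : ℍ → ℂ) ((repRight N l i : SL(2, ℤ)) • (γ : SL(2, ℤ)) • τ) =
      mult χ (u i) * (R : ℍ → ℂ) ((repRight N l (π i) : SL(2, ℤ)) • τ) := fun i => by
    rw [← h (u i), ← mul_smul, ← mul_smul, hu i]
  have h1 : ∏ i, mult χ (u i) = 1 := by
    have := h0 γ π u hu
    rw [← show ((((∑ i, χ (Additive.ofMul (u i))).toMul : ℂˣ)) : ℂ) = ∏ i, mult χ (u i) by
      rw [toMul_sum, Units.coe_prod]; rfl, this]
    rfl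
  rw [Finset.prod_congr rfl fun i _ => e i, Finset.prod_mul_distrib, h1, one_mul]
  exact Equiv.prod_comp π fun i => (R : ℍ → ℂ) ((repRight N l i : SL(2, ℤ)) • τ)

/-- Two representations of the norm give the same functions. -/
theorem norm_relation {f : XF K (N * l)} {a b : XA K (N * l)} {c d : XA K N}
    (hfe : f * incA K (N * l) b = incA K (N * l) a)
    (hce : (letI := algebraAlong (heckeAlphaBar K N l); Algebra.norm (XF K N) f) * incA K N d =
      incA K N c) :
    toHol (toW κ c) * transProd N l (toHol (toW κ b)) =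
      toHol (toW κ d) * transProd N l (toHol (toW κ a)) := by
  have hmemC : ∀ e : XA K N, (toHol (toW κ e) : ℍ → ℂ) ∈ PerL ((N * l : ℕ) : ℝ) := fun e => by
    rw [coe_toHol, ← toW_alphaA l κ e]
    exact W0_le_PerL (toW κ (alphaA l e)).2
  have hlow : ∀ e : XA K N, lowEmb l κ (incA K N e) = expL _ ⟨_, hmemC e⟩ := fun e => by
    rw [lowEmb_incA]
    congr 1
    exact Subtype.ext (toW_alphaA l κ e)
  have hm : ∀ (i : HeckeIdx N l) (e : XA K (N * l)),
      (transRep N l i (toHol (toW κ e)) : ℍ → ℂ) = trans (repCoset N l i) (toW κ e) :=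
    fun i e => funext fun τ => (trans_repCoset l i _ τ).symm
  have hmem : ∀ (i : HeckeIdx N l) (e : XA K (N * l)),
      (transRep N l i (toHol (toW κ e)) : ℍ → ℂ) ∈ PerL ((N * l : ℕ) : ℝ) := fun i e =>
    (hm i e).symm ▸ trans_mem_PerL _ _
  have he : ∀ (i : HeckeIdx N l) (e : XA K (N * l)),
      cuspEmb κ (repCoset N l i) (incA K (N * l) e) = expL _ ⟨_, hmem i e⟩ := fun i e => by
    rw [cuspEmb_incA, cuspHom_apply]
    congr 1
    exact Subtype.ext (hm i e).symm
  have h1 := congrArg (lowEmb l κ) hce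
  rw [map_mul, lowEmb_norm, hlow, hlow] at h1
  have hb : ∀ i, cuspEmb κ (repCoset N l i) f * expL _ ⟨_, hmem i b⟩ = expL _ ⟨_, hmem i a⟩ :=
    fun i => by rw [← he, ← he, ← map_mul, hfe]
  have h3 : expL _ (⟨_, hmemC c⟩ * ∏ i, (⟨_, hmem i b⟩ : PerL ((N * l : ℕ) : ℝ))) =
      expL _ (⟨_, hmemC d⟩ * ∏ i, (⟨_, hmem i a⟩ : PerL ((N * l : ℕ) : ℝ))) := by
    rw [map_mul, map_mul, map_prod, map_prod, ← h1,
      ← Finset.prod_congr rfl fun i _ => hb i, Finset.prod_mul_distrib]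
    ring
  have h4 := congrArg Subtype.val (expL_injective h3)
  apply Subtype.ext
  simpa [transProd] using h4

/-- **The norm along the forgetful map is a power.** -/
theorem exists_norm_alpha_eq_pow {f : XF K (N * l)} (hf : f ≠ 0) {n : ℕ} (hn : n ≠ 0)
    (hdf : ∀ v : Place K (XF K (N * l)), (n : ℤ) ∣ v.ord f)
    {χ : Additive (Gamma0 (N * l)) →+ Cx} (h : IsCharFn κ n (f : LaurentSeries K) χ)
    (h0 : SumZero l χ) :
    ∃ g : XF K N, (letI := algebraAlong (heckeAlphaBar K N l); Algebra.norm (XF K N) f) = g ^ n := by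
  haveI := (isFunctionField_and_finrank (N := N) κ).1
  haveI := (isFunctionField_and_finrank (N := N * l) κ).1
  haveI : CharZero K := charZero_of_injective_algebraMap (algebraMap ℚ K).injective
  haveI : HasPrincipalDivisors K (XF K (N * l)) := Curves.hasPrincipalDivisors
  set z : XF K N := (letI := algebraAlong (heckeAlphaBar K N l); Algebra.norm (XF K N) f) with hz
  have hz0 : z ≠ 0 := norm_along_ne_zero (heckeAlphaBar K N l) (Kronecker.finiteAlong _) hf
  have hdz : ∀ v : Place K (XF K N), (n : ℤ) ∣ v.ord z := fun v => by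
    letI := algebraAlong (heckeAlphaBar K N l)
    haveI := isScalarTower_along (heckeAlphaBar K N l)
    haveI : Module.Finite (XF K N) (XF K (N * l)) := Kronecker.finiteAlong (heckeAlphaBar K N l)
    haveI := Algebra.IsIntegral.of_finite (XF K N) (XF K (N * l))
    rw [hz, Kronecker.ord_norm v hf]
    exact Finset.dvd_sum fun w _ => hdf w
  obtain ⟨a, b, hab⟩ := exists_incA_div f
  obtain ⟨c, d, hcd⟩ := exists_incA_div z
  have hb : b ≠ 0 := fun h1 => hf (by rw [hab, h1, map_zero, div_zero])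
  have hd : d ≠ 0 := fun h1 => hz0 (by rw [hcd, h1, map_zero, div_zero])
  have hfe : f * incA K (N * l) b = incA K (N * l) a := by
    rw [hab, div_mul_cancel₀ _ (incA_eq_zero_iff.not.2 hb)]
  have hze : z * incA K N d = incA K N c := by
    rw [hcd, div_mul_cancel₀ _ (incA_eq_zero_iff.not.2 hd)]
  have hB0 : toW κ b ≠ 0 := (map_ne_zero_iff _ (toW_injective κ)).2 hb
  have hD0 : toW κ d ≠ 0 := (map_ne_zero_iff _ (toW_injective κ)).2 hd
  obtain ⟨R0, hR0⟩ := exists_root_rep κ hf hn hdf hB0 (iota_mul_expW hfe)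
  obtain ⟨R1, hR1⟩ := exists_root_rep κ hz0 hn hdz hD0 (iota_mul_expW hze)
  have hroot0 : IsRoot (N := N * l) κ n (f : LaurentSeries K) R0 :=
    ⟨_, _, hB0, iota_mul_expW hfe, hR0⟩
  have hf' : (f : LaurentSeries K) ≠ 0 := fun e => hf (Subtype.ext e)
  obtain ⟨χ0, hc0, -⟩ := exists_hasChar hn (hroot0.ne_zero hn hf') hR0
  obtain rfl : χ = χ0 := h.unique hn hf' ⟨R0, hroot0, hc0⟩
  have hroot1 : IsRoot (N := N) κ n (z : LaurentSeries K) R1 :=
    ⟨_, _, hD0, iota_mul_expW hze, hR1⟩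
  have hz' : (z : LaurentSeries K) ≠ 0 := fun e => hz0 (Subtype.ext e)
  have hR1' := hroot1.ne_zero hn hz'
  obtain ⟨χ1, hc1, -⟩ := exists_hasChar hn hR1' hR1
  have hrel := norm_relation (κ := κ) l hfe hze
  set B' := transProd N l (toHol (toW κ b)) with hB'
  set P := transProd N l R0 with hP
  have hPn : P ^ n = transProd N l (toHol (toW κ a)) * B' ^ (n - 1) := by
    rw [hP, ← map_pow, hR0, map_mul, map_pow, map_mul, map_pow]
  have hpow : (R1 * B') ^ n = (P * toHol (toW κ d)) ^ n := by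
    obtain ⟨m, rfl⟩ := Nat.exists_eq_succ_of_ne_zero hn
    rw [mul_pow, mul_pow, hR1, hPn, map_mul, map_pow, Nat.succ_sub_one, pow_succ, pow_succ]
    linear_combination (toHol (toW κ d) ^ m * B' ^ m) * hrel
  obtain ⟨ζ, -, hζ⟩ := eq_smul_of_pow_eq hn hpow
  have hB'c : HasChar (B' : ℍ → ℂ) (0 : Additive (Gamma0 N) →+ Cx) :=
    transProd_hasChar l (hasChar_W0 (toW κ b)) fun _ _ _ _ => by simp
  have h2 : HasChar ((R1 * B' : Hol) : ℍ → ℂ) χ1 := by
    have h3 := hc1.mul hB'c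
    rwa [show χ1 + 0 = χ1 from mult_injective fun γ => by rw [mult_add, mult_zero, mul_one]] at h3
  have h3 : HasChar ((R1 * B' : Hol) : ℍ → ℂ) (0 : Additive (Gamma0 N) →+ Cx) := by
    rw [hζ]
    exact ((transProd_hasChar l hc0 h0).mul_W0 (toW κ d)).const_mul ζ
  have hne : R1 * B' ≠ 0 :=
    mul_ne_zero hR1' (transProd_ne_zero l (toHol_toW_ne_zero hb))
  obtain ⟨y, hy, hyz⟩ := TorsionHom.exists_pow_eq (κ := κ) hz' hn
    (⟨R1, hroot1, (h2.unique hne h3) ▸ hc1⟩)
  exact ⟨⟨y, hy⟩, Subtype.ext (by rw [IntermediateField.coe_pow]; exact hyz.symm)⟩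

end Sums

/-! ### The exchange -/

section Exchange

variable {N l : ℕ} [NeZero N] [Fact l.Prime] [NeZero l] [NeZero (N * l)] (hlN : ¬ l ∣ N)
  {κ : QA →+* ℂ}

/-- An Atkin–Lehner transformation of the half plane. -/
def swapPoint (g : SL(2, ℤ)) (τ : ℍ) : ℍ := g • mulHalfPlane l τ

/-- The square of the transformation up to the scalar. -/
theorem mul_swapPoint {x y z t : ℤ} (g h : SL(2, ℤ)) (hg : (g : Matrix (Fin 2) (Fin 2) ℤ) =
      !![x, y; (N : ℤ) * z, (l : ℤ) * t])
    (hh : (h : Matrix (Fin 2) (Fin 2) ℤ) = !![(l : ℤ) * x, y; (N : ℤ) * z, t]) (τ : ℍ) :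
    mulHalfPlane l (swapPoint (l := l) g τ) = h • τ := by
  apply UpperHalfPlane.ext
  rw [swapPoint, coe_mulHalfPlane, UpperHalfPlane.coe_specialLinearGroup_apply,
    UpperHalfPlane.coe_specialLinearGroup_apply, coe_mulHalfPlane]
  simp only [algebraMap_int_eq, eq_intCast, Complex.ofReal_intCast]
  rw [show g 0 0 = x from congrFun (congrFun hg 0) 0, show g 0 1 = y from congrFun (congrFun hg 0) 1,
    show g 1 0 = (N : ℤ) * z from congrFun (congrFun hg 1) 0,
    show g 1 1 = (l : ℤ) * t from congrFun (congrFun hg 1) 1,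
    show h 0 0 = (l : ℤ) * x from congrFun (congrFun hh 0) 0,
    show h 0 1 = y from congrFun (congrFun hh 0) 1,
    show h 1 0 = (N : ℤ) * z from congrFun (congrFun hh 1) 0,
    show h 1 1 = t from congrFun (congrFun hh 1) 1]
  push_cast
  rw [show (N : ℂ) * z * ((l : ℂ) * (τ : ℂ)) + (l : ℂ) * t = (l : ℂ) * ((N : ℂ) * z * τ + t) by ring,
    mul_div_assoc', mul_div_mul_left _ _ (Nat.cast_ne_zero.2 (NeZero.ne l))]
  ring

variable (κ) in
include hlN in
/-- The exchange on the algebra of functions. -/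
theorem exists_swap_incA {x y z t : ℤ} (g : Gamma0 N) (hg : mat g = !![x, y; (N : ℤ) * z, (l : ℤ) * t])
    (a : XA QA (N * l)) :
    ∃ a' : XA QA (N * l), BadRed.swapEnd hlN (incA QA (N * l) a) = incA QA (N * l) a' ∧
      ∀ τ, (toW κ a' : ℍ → ℂ) τ = (toW κ a : ℍ → ℂ) (swapPoint (l := l) (g : SL(2, ℤ)) τ) := by
  have hdet : (l : ℤ) * x * t - N * y * z = 1 := by
    have h := PeriodHecke.mat_det g
    rw [hg, Matrix.det_fin_two_of] at h
    linear_combination h
  let h : Gamma0 N := PeriodHecke.gamma0Mk N ((l : ℤ) * x) y ((N : ℤ) * z) t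
    (by linear_combination hdet) (dvd_mul_right _ _)
  obtain ⟨a, ha⟩ := a
  induction ha using Algebra.adjoin_induction with
  | mem w hw =>
    obtain ⟨_, ⟨d, hne, hd, rfl⟩, rfl⟩ := hw
    have hl : l.Prime := Fact.out
    by_cases hdN : d ∣ N
    · let e : XA QA N := ⟨coeffEmb QA (qExpand ℚ d ModularCurve.jq),
        Algebra.subset_adjoin ⟨_, ⟨d, hne, hdN, rfl⟩, rfl⟩⟩
      refine ⟨betaA l e, ?_, fun τ => ?_⟩
      · refine (congrArg (BadRed.swapEnd hlN) (?_ : _ = heckeAlphaBar QA N l (incA QA N e))).trans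
          ((BadRed.swapEnd_alpha hlN _).trans (heckeBetaBar_incA l e))
        exact Subtype.ext rfl
      · rw [toW_betaA, show (⟨_, _⟩ : XA QA (N * l)) = alphaA l e from Subtype.ext rfl, toW_alphaA]
        exact ((toW κ e).2.2.1 _ g.2 _).symm
    · obtain ⟨d', rfl⟩ : l ∣ d := by
        by_contra hld
        exact hdN ((Nat.Coprime.dvd_of_dvd_mul_right
          ((Nat.coprime_comm).1 (hl.coprime_iff_not_dvd.2 hld)) hd))
      haveI : NeZero d' := ⟨fun h0 => hne.out (by rw [h0, mul_zero])⟩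
      have hd' : d' ∣ N := Nat.dvd_of_mul_dvd_mul_left hl.pos (by rwa [mul_comm N l] at hd)
      let e : XA QA N := ⟨coeffEmb QA (qExpand ℚ d' ModularCurve.jq),
        Algebra.subset_adjoin ⟨_, ⟨d', inferInstance, hd', rfl⟩, rfl⟩⟩
      have he : (coeffEmb QA (qExpand ℚ (l * d') ModularCurve.jq) : LaurentSeries QA) =
          qExpand QA l (coeffEmb QA (qExpand ℚ d' ModularCurve.jq)) := by
        rw [coeffEmb, ← ModularCurve.coeffMap_qExpand, ModularCurve.qExpand_qExpand]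
      refine ⟨alphaA l e, ?_, fun τ => ?_⟩
      · refine (congrArg (BadRed.swapEnd hlN) (?_ : _ = heckeBetaBar QA N l (incA QA N e))).trans
          ((BadRed.swapEnd_beta hlN _).trans (heckeAlphaBar_incA l e))
        exact Subtype.ext he
      · rw [toW_alphaA, show (⟨_, _⟩ : XA QA (N * l)) = betaA l e from Subtype.ext he, toW_betaA,
          mul_swapPoint (g : SL(2, ℤ)) (h : SL(2, ℤ)) hg rfl τ]
        exact ((toW κ e).2.2.1 _ h.2 _).symm
  | algebraMap r =>
    refine ⟨algebraMap QA (XA QA (N * l)) r, ?_, fun τ => ?_⟩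
    · rw [show (⟨_, _⟩ : XA QA (N * l)) = algebraMap QA (XA QA (N * l)) r from rfl,
        AlgHom.commutes, AlgHom.commutes]
    · rw [show (⟨_, _⟩ : XA QA (N * l)) = algebraMap QA (XA QA (N * l)) r from rfl, toW_algebraMap]
      rfl
  | add u v hu hv iu iv =>
    obtain ⟨u', h1, h2⟩ := iu
    obtain ⟨v', h3, h4⟩ := iv
    refine ⟨u' + v', ?_, fun τ => ?_⟩
    · rw [show (⟨u + v, _⟩ : XA QA (N * l)) = ⟨u, hu⟩ + ⟨v, hv⟩ from rfl, map_add, map_add, h1, h3,
        map_add]
    · rw [show (⟨u + v, _⟩ : XA QA (N * l)) = ⟨u, hu⟩ + ⟨v, hv⟩ from rfl, map_add, map_add,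
        AddMemClass.coe_add, AddMemClass.coe_add, Pi.add_apply, Pi.add_apply, h2, h4]
  | mul u v hu hv iu iv =>
    obtain ⟨u', h1, h2⟩ := iu
    obtain ⟨v', h3, h4⟩ := iv
    refine ⟨u' * v', ?_, fun τ => ?_⟩
    · rw [show (⟨u * v, _⟩ : XA QA (N * l)) = ⟨u, hu⟩ * ⟨v, hv⟩ from rfl, map_mul, map_mul, h1, h3,
        map_mul]
    · rw [show (⟨u * v, _⟩ : XA QA (N * l)) = ⟨u, hu⟩ * ⟨v, hv⟩ from rfl, map_mul, map_mul,
        MulMemClass.coe_mul, MulMemClass.coe_mul, Pi.mul_apply, Pi.mul_apply, h2, h4]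

include hlN in
/-- The character of the exchanged function. -/
theorem isCharFn_swapEnd {x y z t : ℤ} (g : Gamma0 N)
    (hg : mat g = !![x, y; (N : ℤ) * z, (l : ℤ) * t])
    (c : Gamma0 (N * l) →* Gamma0 (N * l))
    (hc : ∀ γ, !![(l : ℤ) * x, y; (N : ℤ) * l * z, (l : ℤ) * t] * mat γ =
      mat (c γ) * !![(l : ℤ) * x, y; (N : ℤ) * l * z, (l : ℤ) * t])
    {f : XF QA (N * l)} (hf : f ≠ 0) {n : ℕ} (hn : n ≠ 0)
    (hdf : ∀ v : Place QA (XF QA (N * l)), (n : ℤ) ∣ v.ord f)
    {χ : Additive (Gamma0 (N * l)) →+ Cx} (hχ : IsCharFn κ n (f : LaurentSeries QA) χ) :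
    IsCharFn κ n ((BadRed.swapEnd hlN f : XF QA (N * l)) : LaurentSeries QA)
      (χ.comp c.toAdditive) := by
  haveI := (isFunctionField_and_finrank (N := N * l) κ).1
  have hW : diagMat l = !![(l : ℤ), 0; 0, 1] := rfl
  have hgW : mat g * diagMat l = !![(l : ℤ) * x, y; (N : ℤ) * l * z, (l : ℤ) * t] := by
    rw [hg, hW]
    ext i j
    fin_cases i <;> fin_cases j <;> simp [Matrix.mul_apply, Fin.sum_univ_two] <;> ring
  obtain ⟨a, b, hab⟩ := exists_incA_div f
  have hb : b ≠ 0 := fun h0 => hf (by rw [hab, h0, map_zero, div_zero])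
  have hfe : f * incA QA (N * l) b = incA QA (N * l) a := by
    rw [hab, div_mul_cancel₀ _ (incA_eq_zero_iff.not.2 hb)]
  obtain ⟨a', ha, haW⟩ := exists_swap_incA hlN κ g hg a
  obtain ⟨b', hb', hbW⟩ := exists_swap_incA hlN κ g hg b
  have hye : BadRed.swapEnd hlN f * incA QA (N * l) b' = incA QA (N * l) a' := by
    rw [← ha, ← hb', ← map_mul, hfe]
  have hb0 : b' ≠ 0 := fun h0 => hb (incA_eq_zero_iff.1 ((map_eq_zero _).1
    (hb'.trans (by rw [h0, map_zero]))))
  have hB : toW κ b ≠ 0 := (map_ne_zero_iff _ (toW_injective κ)).2 hb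
  obtain ⟨R, hR⟩ := exists_root_rep κ hf hn hdf hB (iota_mul_expW hfe)
  have hroot : IsRoot (N := N * l) κ n (f : LaurentSeries QA) R :=
    ⟨_, _, hB, iota_mul_expW hfe, hR⟩
  have hf0 : (f : LaurentSeries QA) ≠ 0 := fun e => hf (Subtype.ext e)
  obtain ⟨χ₀, hc₀, -⟩ := exists_hasChar hn (hroot.ne_zero hn hf0) hR
  obtain rfl : χ = χ₀ := hχ.unique hn hf0 ⟨R, hroot, hc₀⟩
  refine ⟨⟨fun τ => (R : ℍ → ℂ) (swapPoint (l := l) (g : SL(2, ℤ)) τ), (comp_smul_mdiff R.2 (g : SL(2, ℤ))).comp (mdiff_mulHalfPlane l)⟩, ⟨_, _,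
    (map_ne_zero_iff _ (toW_injective κ)).2 hb0, iota_mul_expW hye, Subtype.ext (funext fun τ => ?_)⟩,
    fun γ τ => ?_⟩
  · have e := congrFun (congrArg Subtype.val hR) (swapPoint (l := l) (g : SL(2, ℤ)) τ)
    simp only [SubmonoidClass.coe_pow, Pi.pow_apply, coe_toHol, MulMemClass.coe_mul,
      Pi.mul_apply] at e ⊢
    rw [haW, hbW, e]
  · have hX : diagMat l * ((γ : SL(2, ℤ)) : Matrix (Fin 2) (Fin 2) ℤ) =
        (((g : SL(2, ℤ))⁻¹ * (c γ : SL(2, ℤ)) * g : SL(2, ℤ)) : Matrix (Fin 2) (Fin 2) ℤ) *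
          diagMat l := by
      have h1 := hc γ
      rw [← hgW, mul_assoc] at h1
      have h2 := congrArg (fun Z => mat g⁻¹ * Z) h1
      simp only [← mul_assoc, ← mat_mul, inv_mul_cancel, PeriodHecke.mat_one, one_mul] at h2
      rw [Matrix.SpecialLinearGroup.coe_mul, Matrix.SpecialLinearGroup.coe_mul]
      exact h2
    show (R : ℍ → ℂ) (swapPoint (l := l) (g : SL(2, ℤ)) ((γ : SL(2, ℤ)) • τ)) = _
    rw [swapPoint, mulHalfPlane_smul l hX, ← mul_smul, show (g : SL(2, ℤ)) *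
      ((g : SL(2, ℤ))⁻¹ * (c γ : SL(2, ℤ)) * g) = (c γ : SL(2, ℤ)) * g by group, mul_smul, hc₀]
    rfl

include hlN in
/-- **The norm along the other map is a power.** -/
theorem exists_norm_beta_eq_pow {x y z t : ℤ} (g : Gamma0 N)
    (hg : mat g = !![x, y; (N : ℤ) * z, (l : ℤ) * t])
    (c : Gamma0 (N * l) →* Gamma0 (N * l))
    (hc : ∀ γ, !![(l : ℤ) * x, y; (N : ℤ) * l * z, (l : ℤ) * t] * mat γ =
      mat (c γ) * !![(l : ℤ) * x, y; (N : ℤ) * l * z, (l : ℤ) * t])
    {f : XF QA (N * l)} (hf : f ≠ 0) {n : ℕ} (hn : n ≠ 0)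
    (hdf : ∀ v : Place QA (XF QA (N * l)), (n : ℤ) ∣ v.ord f)
    {χ : Additive (Gamma0 (N * l)) →+ Cx} (hχ : IsCharFn κ n (f : LaurentSeries QA) χ)
    (h0 : SumZero l (χ.comp c.toAdditive)) :
    ∃ h : XF QA N, (letI := algebraAlong (heckeBetaBar QA N l); Algebra.norm (XF QA N) f) =
      h ^ n := by
  haveI := (isFunctionField_and_finrank (N := N) κ).1
  haveI := (isFunctionField_and_finrank (N := N * l) κ).1
  have hf' : BadRed.swapEnd hlN f ≠ 0 := (map_ne_zero _).2 hf
  have hdf' : ∀ v : Place QA (XF QA (N * l)), (n : ℤ) ∣ v.ord (BadRed.swapEnd hlN f) := fun v => by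
    rw [← Lowering.P7.swapAut_smul hlN]
    conv => rw [show v = Lowering.P7.swapAut hlN • ((Lowering.P7.swapAut hlN)⁻¹ • v) from
      (smul_inv_smul _ _).symm, SemilinearAut.ord_smul]
    exact hdf _
  obtain ⟨h, hh⟩ := exists_norm_alpha_eq_pow l hf' hn hdf'
    (isCharFn_swapEnd hlN g hg c hc hf hn hdf hχ) h0
  refine ⟨h, ?_⟩
  rw [← hh]
  let e : XF QA (N * l) ≃+* XF QA (N * l) :=
    RingEquiv.ofRingHom (BadRed.swapEnd hlN).toRingHom (BadRed.swapEnd hlN).toRingHom
      (RingHom.ext fun u => BadRed.swapEnd_swapEnd hlN u)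
      (RingHom.ext fun u => BadRed.swapEnd_swapEnd hlN u)
  exact (@Algebra.norm_eq_of_equiv_equiv (XF QA N) (XF QA (N * l)) (XF QA N) (XF QA (N * l))
    _ _ _ _ (algebraAlong (heckeBetaBar QA N l)) (algebraAlong (heckeAlphaBar QA N l))
    (RingEquiv.refl _) e (RingHom.ext fun u => (BadRed.swapEnd_beta hlN u).symm) f).trans rfl

omit [Fact l.Prime] in
/-- A class whose function has a norm which is a power pushes to zero. -/
theorem pushPic_eq_zero_of_norm
    (φ : modularFunctionFieldBar N →ₐ[QA] modularFunctionFieldBar (N * l)) {n : ℕ} (hn : n ≠ 0)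
    {D : Divisor.degZero (K := QA) (F := modularFunctionFieldBar (N * l))}
    {f : modularFunctionFieldBar (N * l)} (hf : f ≠ 0)
    (hD : ∀ v, (n : ℤ) * (D : Divisor QA (modularFunctionFieldBar (N * l))) v = v.ord f)
    {h : modularFunctionFieldBar N}
    (hh : (letI := algebraAlong φ; Algebra.norm (modularFunctionFieldBar N) f) = h ^ n) :
    pushPic N l φ (Pic0.mk D) = 0 := by
  haveI := (isFunctionField_and_finrank (N := N) Kronecker.complexEmb).1
  haveI := (isFunctionField_and_finrank (N := N * l) Kronecker.complexEmb).1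
  haveI : HasPrincipalDivisors QA (modularFunctionFieldBar (N * l)) := Curves.hasPrincipalDivisors
  obtain ⟨hm, hmk⟩ := EigenLattice.pushPic_mk N l φ D
  rw [hmk]
  have hz := norm_along_ne_zero φ (Kronecker.finiteAlong φ) hf
  rw [hh] at hz
  refine (QuotientAddGroup.eq_zero_iff _).2 (AddSubgroup.mem_addSubgroupOf.2
    ⟨h, fun h0 => hz (by rw [h0, zero_pow hn]), fun v => mul_left_cancel₀ (Int.natCast_ne_zero.2 hn) ?_⟩)
  have hnorm := Kronecker.normFormulaAlong φ (Kronecker.finiteAlong φ) f hf ((n : ℤ) • (D : Divisor _ _))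
    (fun w => by rw [Finsupp.smul_apply, smul_eq_mul, hD w]) v
  rw [map_zsmul, Finsupp.smul_apply, smul_eq_mul, hh, Curves.ord_pow] at hnorm
  exact hnorm

include hlN in
/-- **The two push forwards of a class of given character.** -/
theorem pushPic_eq_zero_of_sumZero {x y z t : ℤ} (g : Gamma0 N)
    (hg : mat g = !![x, y; (N : ℤ) * z, (l : ℤ) * t])
    (c : Gamma0 (N * l) →* Gamma0 (N * l))
    (hc : ∀ γ, !![(l : ℤ) * x, y; (N : ℤ) * l * z, (l : ℤ) * t] * mat γ =
      mat (c γ) * !![(l : ℤ) * x, y; (N : ℤ) * l * z, (l : ℤ) * t])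
    {n : ℕ} (hn : n ≠ 0) {P : Pic0 QA (XF QA (N * l))}
    {χ : Additive (Gamma0 (N * l)) →+ Cx} (hχ : IsKummer κ n P χ) :
    (SumZero l χ → pushPic N l (heckeAlphaBar QA N l) P = 0) ∧
      (SumZero l (χ.comp c.toAdditive) → pushPic N l (heckeBetaBar QA N l) P = 0) := by
  obtain ⟨D, f, rfl, hf, hD, hcf⟩ := hχ
  refine ⟨fun h0 => ?_, fun h0 => ?_⟩
  · obtain ⟨h, hh⟩ := exists_norm_alpha_eq_pow l hf hn (fun v => ⟨_, (hD v).symm⟩) hcf h0
    exact pushPic_eq_zero_of_norm _ hn hf hD hh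
  · obtain ⟨h, hh⟩ := exists_norm_beta_eq_pow hlN g hg c hc hf hn (fun v => ⟨_, (hD v).symm⟩) hcf h0
    exact pushPic_eq_zero_of_norm _ hn hf hD hh

end Exchange

end FLTAgent.ModLift.Push
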