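import Fermat.Agent.TorsionHom.HeckeEquiv
import Fermat.Agent.Kronecker.Specialization

/-!
# The torsion classes of the reductions of a homomorphism on `Γ₀(N)`
-/

set_option autoImplicit false
set_option linter.unusedSectionVars false
set_option linter.style.haveILetI false

noncomputable section

open CongruenceSubgroup AlgebraicCurve
open scoped MatrixGroups

namespace FLTAgent.ModLift.Push

open FLTAgent.PeriodHecke (Hpar mapHpar heckeFam actA)
open FLTAgent.TorsionHom (torsEquiv heckeTors)
open ModularCurve (JZero heckeOperatorBar)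

variable (N n : ℕ) [NeZero N] [NeZero n]

/-- The torsion class of a homomorphism modulo `n`. -/
def torsClass : Hpar (Gamma0 N) (ZMod n) →+ JZero N :=
  (AddSubgroup.subtype _).comp
    (torsEquiv (N := N) Kronecker.complexEmb n).symm.toAddMonoidHom

theorem torsClass_injective : Function.Injective (torsClass N n) :=
  Subtype.val_injective.comp (torsEquiv (N := N) Kronecker.complexEmb n).symm.injective

theorem nsmul_torsClass (φ : Hpar (Gamma0 N) (ZMod n)) : n • torsClass N n φ = 0 := by
  have h := Pic0.mem_torsion.1 ((torsEquiv (N := N) Kronecker.complexEmb n).symm φ).2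
  rwa [natCast_zsmul] at h

theorem torsClass_hecke (q : Nat.Primes) [Fact (q : ℕ).Prime] (φ : Hpar (Gamma0 N) (ZMod n)) :
    torsClass N n ((heckeFam N q).heckePar φ) = heckeOperatorBar N q (torsClass N n φ) := by
  set e := torsEquiv (N := N) Kronecker.complexEmb n
  have h := TorsionHom.torsEquiv_heckeTors (N := N) Kronecker.complexEmb n q (e.symm φ)
  rw [AddEquiv.apply_symm_apply, PeriodHecke.actA_heckeGen] at h
  show ((e.symm ((heckeFam N q).heckePar φ)) : JZero N) = _
  rw [← h, AddEquiv.symm_apply_apply]
  exact TorsionHom.coe_heckeTors _ _ _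

variable {A : Type*} [AddCommGroup A]

/-- The classes of the reductions, as a function of the functional. -/
def vec : Hpar (Gamma0 N) A →+ ((A →+ ZMod n) →+ JZero N) :=
  AddMonoidHom.mk'
    (fun φ => AddMonoidHom.mk' (fun f => torsClass N n (mapHpar f φ)) fun f g => by
      rw [← map_add]; rfl)
    fun φ ψ => AddMonoidHom.ext fun f => by
      show torsClass N n (mapHpar f (φ + ψ)) = _
      rw [map_add, map_add]; rfl

theorem vec_apply (φ : Hpar (Gamma0 N) A) (f : A →+ ZMod n) :
    vec N n φ f = torsClass N n (mapHpar f φ) := rfl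

theorem nsmul_vec (φ : Hpar (Gamma0 N) A) : n • vec N n φ = 0 :=
  AddMonoidHom.ext fun _ => nsmul_torsClass N n _

theorem vec_hecke (q : Nat.Primes) [Fact (q : ℕ).Prime] (φ : Hpar (Gamma0 N) A) (f : A →+ ZMod n) :
    vec N n ((heckeFam N q).heckePar φ) f = heckeOperatorBar N q (vec N n φ f) := by
  rw [vec_apply, vec_apply, ← torsClass_hecke, PeriodHecke.HeckeFamily.heckePar_mapHpar]

theorem vec_map (φ : Hpar (Gamma0 N) A) (g : A →+ A) (f : A →+ ZMod n) :
    vec N n (mapHpar g φ) f = vec N n φ (f.comp g) := rfl

end FLTAgent.ModLift.Push
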