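import Fermat.Agent.ModLift.Degen.Push.Descend
import Fermat.Agent.ModLift.Degen.Push.Norm
import Fermat.Agent.ModLift.Degen.Push.Vec

/-!
# The classes with vanishing coset sums are killed by both push forwards

A homomorphism on `Γ₀(N ℓ)` whose coset sums to `Γ₀(N)` vanish, also after the Atkin–Lehner
matrices, gives torsion classes in the kernels of both push forwards to level `N`. Restriction to a
larger level keeps the hypothesis and commutes with the good operators.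
-/

set_option autoImplicit false
set_option linter.unusedSectionVars false
set_option linter.style.haveILetI false
set_option synthInstance.maxHeartbeats 400000
set_option maxHeartbeats 1000000

noncomputable section

open CongruenceSubgroup AlgebraicCurve
open scoped MatrixGroups

namespace FLTAgent.ModLift.Push

open FLTAgent.PeriodHecke FLTAgent.TorsionHom
open ModularCurve (JZero heckeAlphaBar heckeBetaBar)
open FLTAgent.EigenLattice (pushPic)

local notation "SL2Z" => Matrix.SpecialLinearGroup (Fin 2) ℤ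
local notation "M2" => Matrix (Fin 2) (Fin 2) ℤ
local notation "QA" => AlgebraicClosure ℚ

/-! ### Restriction -/

theorem gamma0_le {L L' : ℕ} (h : L ∣ L') : Gamma0 L' ≤ Gamma0 L := fun g hg => by
  rw [Gamma0_mem, ZMod.intCast_zmod_eq_zero_iff_dvd] at hg ⊢
  exact (Int.natCast_dvd_natCast.2 h).trans hg

variable {A : Type*} [AddCommGroup A]

/-- Restriction to a larger level. -/
def resLow {L L' : ℕ} (h : L ∣ L') : Hpar (Gamma0 L) A →+ Hpar (Gamma0 L') A where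
  toFun φ := ⟨φ.1.comp (Subgroup.inclusion (gamma0_le h)).toAdditive, fun γ hγ =>
    φ.2 ⟨γ, gamma0_le h γ.2⟩ hγ⟩
  map_zero' := rfl
  map_add' _ _ := rfl

theorem resLow_apply {L L' : ℕ} (h : L ∣ L') (φ : Hpar (Gamma0 L) A) (γ : Gamma0 L') :
    (resLow h φ).1 (Additive.ofMul γ) = φ.1 (Additive.ofMul ⟨γ, gamma0_le h γ.2⟩) := rfl

theorem resLow_mapHpar {B : Type*} [AddCommGroup B] {L L' : ℕ} (h : L ∣ L') (g : A →+ B)
    (φ : Hpar (Gamma0 L) A) : resLow h (mapHpar g φ) = mapHpar g (resLow h φ) := rfl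

theorem resLow_injective {L L' : ℕ} [NeZero L'] (h : L ∣ L')
    (htf : ∀ (m : ℕ) (v : A), m ≠ 0 → m • v = 0 → v = 0) :
    Function.Injective (resLow (A := A) h) := by
  refine (injective_iff_map_eq_zero _).mpr fun Φ hΦ => Subtype.ext (AddMonoidHom.ext fun x => ?_)
  obtain ⟨γ, rfl⟩ := Additive.ofMul.surjective x
  obtain ⟨k, hk0, -, hk⟩ := Subgroup.exists_pow_mem_of_index_ne_zero
    (H := Gamma0 L') Subgroup.FiniteIndex.index_ne_zero ((γ : SL(2, ℤ)))
  refine htf k _ hk0.ne' ?_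
  rw [← map_nsmul, ← ofMul_pow,
    show γ ^ k = ⟨((γ : SL(2, ℤ)) ^ k), gamma0_le h hk⟩ from Subtype.ext (by simp),
    ← resLow_apply h Φ ⟨_, hk⟩, hΦ]
  rfl

/-- Restriction commutes with the operators prime to the larger level. -/
theorem resLow_hecke {L L' : ℕ} (h : L ∣ L') {r : ℕ} [Fact r.Prime] (hr : ¬ r ∣ L')
    (φ : Hpar (Gamma0 L) A) :
    resLow h ((heckeFam L r).heckePar φ) = (heckeFam L' r).heckePar (resLow h φ) := by
  refine Subtype.ext (AddMonoidHom.ext fun x => ?_)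
  obtain ⟨g, rfl⟩ := Additive.ofMul.surjective x
  show (heckeFam L r).hecke φ.1 (Additive.ofMul (⟨g, gamma0_le h g.2⟩ : Gamma0 L)) =
    (heckeFam L' r).hecke (resLow h φ).1 (Additive.ofMul g)
  rw [HeckeFamily.hecke_apply, HeckeFamily.hecke_apply]
  let e : HeckeIdx L' r ≃ HeckeIdx L r :=
    { toFun := fun i => ⟨i.1, fun _ hd => hr (hd.trans h)⟩
      invFun := fun i => ⟨i.1, fun _ => hr⟩
      left_inv := fun _ => Subtype.ext rfl
      right_inv := fun _ => Subtype.ext rfl }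
  have hα : ∀ i, (heckeFam L r).α (e i) = (heckeFam L' r).α i := fun i => by
    rcases HeckeIdx.cases L' r i with ⟨_, rfl⟩ | ⟨j, rfl⟩ <;> rfl
  refine ((Equiv.sum_comp e _).symm).trans (Finset.sum_congr rfl fun i _ => ?_)
  have hrel : (heckeFam L r).α (e i) * mat (⟨g, gamma0_le h g.2⟩ : Gamma0 L) =
      mat (⟨(heckeFam L' r).coc g i, gamma0_le h ((heckeFam L' r).coc g i).2⟩ : Gamma0 L) *
        (heckeFam L r).α (e ((heckeFam L' r).next g i)) := by
    rw [hα, hα]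
    exact (heckeFam L' r).rel g i
  exact congrArg (fun δ => φ.1 (Additive.ofMul δ)) ((heckeFam L r).eq_of_rel hrel).2

/-! ### The hypothesis -/

/-- Vanishing of the coset sums of a homomorphism and of its Atkin–Lehner transforms. -/
def Vanish {L : ℕ} (N ℓ : ℕ) [NeZero ℓ] (φ : Hpar (Gamma0 L) A) : Prop :=
  ∀ x b z t : ℤ, (ℓ : ℤ) * x * t - (N : ℤ) * b * z = 1 →
    Tr0 ℓ (Gamma0 N) (extFun φ.1) ∧
      Tr0 ℓ (Gamma0 N) (extFun φ.1 ∘ conjMx (wMx ℓ (N : ℤ) x b z t))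

variable {ℓ : ℕ} [Fact ℓ.Prime] {N : ℕ} [NeZero N] (hℓN : ¬ ℓ ∣ N)
include hℓN

omit hℓN in
theorem low_le {g : SL2Z} (hg : g ∈ low ℓ (Gamma0 N)) (hℓN : ¬ ℓ ∣ N) : g ∈ Gamma0 (N * ℓ) := by
  obtain ⟨h1, h2⟩ := Subgroup.mem_inf.1 hg
  rw [Gamma0_mem, ZMod.intCast_zmod_eq_zero_iff_dvd] at h1 h2 ⊢
  rw [Nat.cast_mul]
  exact IsCoprime.mul_dvd (Int.isCoprime_iff_nat_coprime.mpr
    (by simpa using (((Fact.out : ℓ.Prime).coprime_iff_not_dvd).mpr hℓN).symm)) h1 h2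

theorem full_gamma0 : Full ℓ (Gamma0 N) :=
  (full_gamma1 hℓN).mono fun _ hg => Gamma1_in_Gamma0 N hg

theorem vanish_resLow {N₀ L : ℕ} (hN : N₀ ∣ N) (hL : L = N₀ * ℓ) {φ : Hpar (Gamma0 L) A}
    (hφ : Vanish N₀ ℓ φ) : Vanish N ℓ (resLow (hL ▸ Nat.mul_dvd_mul_right hN ℓ : L ∣ N * ℓ) φ) := by
  intro x b z t hdet
  obtain ⟨m, hm⟩ := hN
  have hW : wMx ℓ (N : ℤ) x b z t = wMx ℓ (N₀ : ℤ) x b ((m : ℤ) * z) t := by
    rw [wMx, wMx, hm]
    push_cast
    ring_nf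
  have hdet' : (ℓ : ℤ) * x * t - (N₀ : ℤ) * b * ((m : ℤ) * z) = 1 := by
    rw [← hdet, hm]
    push_cast
    ring
  obtain ⟨h1, h2⟩ := hφ x b _ t hdet'
  have hle : Gamma0 N ≤ Gamma0 N₀ := gamma0_le ⟨m, hm⟩
  have hd : L ∣ N * ℓ := hL ▸ Nat.mul_dvd_mul_right ⟨m, hm⟩ ℓ
  have he : ∀ g : SL2Z, g ∈ low ℓ (Gamma0 N) →
      extFun (resLow hd φ).1 g = extFun φ.1 g := fun g hg => by
    have hg' := low_le hg hℓN
    rw [extFun_coe _ ⟨g, hg'⟩, extFun_coe _ ⟨g, gamma0_le hd hg'⟩]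
    rfl
  refine ⟨((h1.comap (full_gamma0 hℓN) id (fun a ha => hle ha) (fun _ _ _ _ => rfl)
    fun _ _ => Iff.rfl).congr he), ?_⟩
  rw [hW]
  refine (h2.comap (full_gamma0 hℓN) id (fun a ha => hle ha) (fun _ _ _ _ => rfl)
    fun _ _ => Iff.rfl).congr fun g hg => ?_
  obtain ⟨δ, hδ, hδ', -⟩ := exists_conj_w (dvd_refl N) hdet hg
  have hT : (wMx ℓ (N₀ : ℤ) x b ((m : ℤ) * z) t).det ≠ 0 := by
    rw [det_wMx hdet']
    exact Int.natCast_ne_zero.2 (Fact.out : ℓ.Prime).ne_zero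
  rw [hW] at hδ
  show extFun (resLow hd φ).1 (conjMx _ g) = extFun φ.1 (conjMx _ g)
  rw [conjMx_eq hT hδ]
  exact he δ hδ'

/-! ### The characters -/

/-- An element of `Γ₀(N)` with upper left entry divisible by `ℓ`. -/
def flipElt (x s r t : ℤ) (h : (ℓ : ℤ) * x * t - (N : ℤ) * s * r = 1) : Gamma0 N :=
  gamma0Mk N ((ℓ : ℤ) * x) s ((N : ℤ) * r) t (by linear_combination h) (dvd_mul_right _ _)

omit hℓN in
open scoped Classical in
/-- Conjugation by the Fricke matrix of level `N` after an element of `Γ₀(N)`. -/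
def flipConj (δ : Gamma0 N) (g : SL2Z) : SL2Z :=
  if h : g ∈ Gamma0 N then ((fricke N (δ * ⟨g, h⟩ * δ⁻¹) : Gamma0 N) : SL2Z) else 1

omit hℓN in
theorem flipConj_coe (δ g : Gamma0 N) :
    flipConj δ (g : SL2Z) = ((fricke N (δ * g * δ⁻¹) : Gamma0 N) : SL2Z) := by
  rw [flipConj, dif_pos g.2]

theorem tr0_flipConj {f : SL2Z → A} (h : Tr0 ℓ (Gamma0 N) f) {x s r t : ℤ}
    (hd : (ℓ : ℤ) * x * t - (N : ℤ) * s * r = 1) :
    Tr0 ℓ (Gamma0 N) (f ∘ flipConj (flipElt x s r t hd)) := by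
  set δ := flipElt x s r t hd
  refine h.comap (full_gamma0 hℓN) _ (fun a ha => ?_) (fun a ha b hb => ?_) fun a ha => ?_
  · rw [show a = ((⟨a, ha⟩ : Gamma0 N) : SL2Z) from rfl, flipConj_coe]
    exact SetLike.coe_mem _
  · obtain ⟨a', rfl⟩ : ∃ a' : Gamma0 N, (a' : SL2Z) = a := ⟨⟨a, ha⟩, rfl⟩
    obtain ⟨b', rfl⟩ : ∃ b' : Gamma0 N, (b' : SL2Z) = b := ⟨⟨b, hb⟩, rfl⟩
    rw [← Subgroup.coe_mul, flipConj_coe, flipConj_coe, flipConj_coe, ← Subgroup.coe_mul,
      ← map_mul]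
    congr 2
    group
  · rw [show a = ((⟨a, ha⟩ : Gamma0 N) : SL2Z) from rfl, flipConj_coe, Gamma0_mem, Gamma0_mem]
    set g : Gamma0 N := ⟨a, ha⟩
    show ((mat (fricke N (δ * g * δ⁻¹)) 1 0 : ℤ) : ZMod ℓ) = 0 ↔ ((mat g 1 0 : ℤ) : ZMod ℓ) = 0
    have e1 : mat (fricke N (δ * g * δ⁻¹)) 1 0 = -((N : ℤ) * mat (δ * g * δ⁻¹) 0 1) := rfl
    have e2 : mat δ⁻¹ = !![t, -s; -((N : ℤ) * r), (ℓ : ℤ) * x] := by
      show ((((δ : Gamma0 N)⁻¹ : Gamma0 N) : SL2Z) : M2) = _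
      rw [Subgroup.coe_inv, Matrix.SpecialLinearGroup.coe_inv]
      exact Matrix.adjugate_fin_two_of _ _ _ _
    have hδ : mat δ = !![(ℓ : ℤ) * x, s; (N : ℤ) * r, t] := rfl
    rw [e1, mat_mul, mat_mul, e2, hδ, Matrix.eta_fin_two (mat g)]
    simp [Matrix.mul_apply, Fin.sum_univ_two]
    have hNsr : (N : ZMod ℓ) * s * r = -1 := by
      have e := congrArg (fun z : ℤ => (z : ZMod ℓ)) hd
      simp at e
      linear_combination -e
    have hN0 : (N : ZMod ℓ) ≠ 0 := fun h0 => one_ne_zero (α := ZMod ℓ) (by linear_combination hNsr - (s : ZMod ℓ) * r * h0)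
    have hs0 : (s : ZMod ℓ) ≠ 0 := fun h0 => one_ne_zero (α := ZMod ℓ) (by
      linear_combination hNsr - (N : ZMod ℓ) * r * h0)
    simp [hN0, hs0]

variable [NeZero (N * ℓ)] (n : ℕ) [NeZero n]

omit hℓN in
theorem mem_low_of_mem {g : SL2Z} (hg : g ∈ Gamma0 (N * ℓ)) : g ∈ low ℓ (Gamma0 N) :=
  Subgroup.mem_inf.2 ⟨gamma0_le (dvd_mul_right N ℓ) hg, gamma0_le (dvd_mul_left ℓ N) hg⟩

theorem sumZero_of_tr0 {χ : Additive (Gamma0 (N * ℓ)) →+ Additive ℂˣ}
    {g : SL2Z → Additive ℂˣ} (h : Tr0 ℓ (Gamma0 N) g)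
    (he : ∀ u : Gamma0 (N * ℓ), χ (Additive.ofMul u) = g u) : SumZero ℓ χ := by
  intro γ π u hu
  obtain ⟨R⟩ := (full_gamma0 hℓN).nonempty_sys
  rw [Finset.sum_congr rfl fun i _ => he (u i), ← h.zero R (γ : SL2Z) γ.2]
  refine R.sum_eq h.addOn γ.2 (fun i => (repRight N ℓ i : SL2Z)) (fun i => SetLike.coe_mem _) ?_
    π (fun i => (u i : SL2Z)) (fun i => mem_low_of_mem (u i).2) hu
  refine ⟨fun i j hij => (fibre_bijective N ℓ).1 ?_, fun y => ?_⟩
  · refine QuotientGroup.eq.2 (Subgroup.mem_subgroupOf.2 ?_)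
    rw [inv_inv]
    exact low_le (Subgroup.mem_inf.2 ⟨SetLike.coe_mem _, by
      simpa using mk_inv_eq.1 hij⟩) hℓN
  · obtain ⟨i, hi⟩ := (fibre_bijective N ℓ).2
      (((⟨R.r y, R.mem y⟩ : Gamma0 N)⁻¹ : Gamma0 N) : Gamma0 N ⧸ (Gamma0 (N * ℓ)).subgroupOf _)
    refine ⟨i, ?_⟩
    have h1 := Subgroup.mem_subgroupOf.1 (QuotientGroup.eq.1 hi)
    rw [inv_inv] at h1
    exact (mk_inv_eq.2 ((gamma0_le (dvd_mul_left ℓ N)) h1)).trans (R.spec y)

/-- **The classes are killed by both push forwards.** -/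
theorem pushPic_vec_eq_zero {φ : Hpar (Gamma0 (N * ℓ)) A} (hφ : Vanish N ℓ φ) (f : A →+ ZMod n) :
    pushPic N ℓ (heckeAlphaBar QA N ℓ) (vec (N * ℓ) n φ f) = 0 ∧
      pushPic N ℓ (heckeBetaBar QA N ℓ) (vec (N * ℓ) n φ f) = 0 := by
  haveI : NeZero ℓ := ⟨(Fact.out : ℓ.Prime).ne_zero⟩
  obtain ⟨u, v, huv⟩ : IsCoprime (ℓ : ℤ) (N : ℤ) :=
    Int.isCoprime_iff_nat_coprime.mpr (by simpa using ((Fact.out : ℓ.Prime).coprime_iff_not_dvd).mpr hℓN)
  set x : ℤ := u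
  set y : ℤ := -1
  set z : ℤ := v
  set t : ℤ := 1
  have hdet : (ℓ : ℤ) * x * t - (N : ℤ) * y * z = 1 := by simp [x, y, z, t]; linear_combination huv
  set g : Gamma0 N := gamma0Mk N x y ((N : ℤ) * z) ((ℓ : ℤ) * t)
    (by linear_combination hdet) (dvd_mul_right _ _) with hg
  set W : M2 := wMx ℓ (N : ℤ) x y z t
  have hW0 : W.det ≠ 0 := by
    rw [det_wMx hdet]
    exact Int.natCast_ne_zero.2 (Fact.out : ℓ.Prime).ne_zero
  have hex : ∀ γ : Gamma0 (N * ℓ), ∃ δ : Gamma0 (N * ℓ), W * mat γ = mat δ * W := fun γ => by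
    obtain ⟨δ, hδ, hδ', -⟩ := exists_conj_w (dvd_refl N) hdet (mem_low_of_mem γ.2)
    exact ⟨⟨δ, low_le hδ' hℓN⟩, hδ⟩
  choose cf hcf using hex
  let c : Gamma0 (N * ℓ) →* Gamma0 (N * ℓ) := MonoidHom.mk' cf fun a b => mat_injective
    (LevelRaise.mul_right_cancel_det hW0 (by
      rw [← hcf, mat_mul, mat_mul, ← mul_assoc, hcf, mul_assoc, hcf, mul_assoc]))
  obtain ⟨h1, h2⟩ := hφ x y z t hdet
  let F : A →+ Additive ℂˣ := (rootHom n).comp f
  set cl := (torsEquiv (N := N * ℓ) Kronecker.complexEmb n).symm (mapHpar f φ) with hcl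
  have hk : ∀ γ : Gamma0 (N * ℓ), (kummer Kronecker.complexEmb n cl).1 (Additive.ofMul γ) =
      F (extFun φ.1 ((fricke (N * ℓ) γ : Gamma0 (N * ℓ)) : SL2Z)) := fun γ => by
    have e := torsEquiv_spec Kronecker.complexEmb n cl
    rw [hcl, AddEquiv.apply_symm_apply] at e
    have e2 := congrArg (frickeHom (N := N * ℓ)) e
    rw [frickeHom_frickeHom] at e2
    rw [← e2, extFun_coe]
    rfl
  have hcast : ((N * ℓ : ℕ) : ℤ) = (N : ℤ) * ℓ := Nat.cast_mul _ _
  have hFN : (frickeMat N).det ≠ 0 := by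
    rw [frickeMat_det]
    exact_mod_cast NeZero.ne N
  have hδ1 : (ℓ : ℤ) * x * t - (N : ℤ) * z * y = 1 := by linear_combination hdet
  have hA : SumZero ℓ (kummer Kronecker.complexEmb n cl).1 := by
    refine sumZero_of_tr0 hℓN ((tr0_flipConj hℓN h2 hδ1).map F) fun γ => ?_
    rw [hk]
    refine congrArg (fun u => F (extFun φ.1 u)) ?_
    set δ := flipElt x z y t hδ1
    let γ0 : Gamma0 N := ⟨γ, gamma0_le (dvd_mul_right N ℓ) γ.2⟩
    rw [show (γ : SL2Z) = (γ0 : SL2Z) from rfl, flipConj_coe]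
    refine (conjMx_eq hW0 ?_).symm
    refine LevelRaise.mul_right_cancel_det (W := frickeMat N * mat δ) ?_ ?_
    · rw [Matrix.det_mul, mat_det, mul_one]; exact hFN
    have hF : W * (frickeMat N * mat δ) = frickeMat (N * ℓ) := by
      ext i j
      fin_cases i <;> fin_cases j <;>
        simp [W, wMx, frickeMat, δ, flipElt, Matrix.mul_apply, Fin.sum_univ_two, hcast] <;>
        first | ring1 | linear_combination -(1 : ℤ) * hdet | linear_combination ((N : ℤ) * ℓ) * hdet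
    calc W * mat (fricke N (δ * γ0 * δ⁻¹)) * (frickeMat N * mat δ)
        = W * (frickeMat N * mat δ) * mat γ0 := by
          have e : frickeMat N * mat (δ * γ0 * δ⁻¹) * mat δ = frickeMat N * mat δ * mat γ0 := by
            rw [mul_assoc, ← mat_mul, inv_mul_cancel_right, mat_mul, mul_assoc]
          rw [fricke_rel] at e
          simp only [mul_assoc] at e ⊢
          rw [e]
      _ = mat (fricke (N * ℓ) γ) * (W * (frickeMat N * mat δ)) := by
          rw [hF]; exact fricke_rel (N * ℓ) γ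
      _ = _ := by rw [← mul_assoc]; rfl
  have hB : SumZero ℓ ((kummer Kronecker.complexEmb n cl).1.comp c.toAdditive) := by
    refine sumZero_of_tr0 hℓN ((tr0_flipConj hℓN h1 hdet).map F) fun γ => ?_
    show (kummer Kronecker.complexEmb n cl).1 (Additive.ofMul (c γ)) = _
    rw [hk]
    refine congrArg (fun u => F (extFun φ.1 u)) ?_
    set δ := flipElt x y z t hdet
    let γ0 : Gamma0 N := ⟨γ, gamma0_le (dvd_mul_right N ℓ) γ.2⟩
    rw [show (γ : SL2Z) = (γ0 : SL2Z) from rfl, flipConj_coe]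
    refine Subtype.ext (LevelRaise.mul_right_cancel_det (W := (ℓ : ℤ) • (frickeMat N * mat δ)) ?_ ?_)
    · rw [Matrix.det_smul, Matrix.det_mul, mat_det, mul_one]
      exact mul_ne_zero (pow_ne_zero _ (Int.natCast_ne_zero.2 (Fact.out : ℓ.Prime).ne_zero)) hFN
    show mat (fricke (N * ℓ) (c γ)) * _ = mat (fricke N (δ * γ0 * δ⁻¹)) * _
    have hF : frickeMat (N * ℓ) * W = (ℓ : ℤ) • (frickeMat N * mat δ) := by
      ext i j
      fin_cases i <;> fin_cases j <;>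
        simp [W, wMx, frickeMat, δ, flipElt, Matrix.mul_apply, Fin.sum_univ_two, hcast] <;> ring
    calc mat (fricke (N * ℓ) (c γ)) * ((ℓ : ℤ) • (frickeMat N * mat δ))
        = frickeMat (N * ℓ) * (mat (c γ) * W) := by
          rw [← hF, ← mul_assoc, ← fricke_rel, mul_assoc]
      _ = frickeMat (N * ℓ) * W * mat γ := by
          rw [show mat (c γ) * W = W * mat γ from (hcf γ).symm, mul_assoc]
      _ = _ := by
          rw [hF, Matrix.smul_mul, Matrix.mul_smul]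
          congr 1
          have e : frickeMat N * mat (δ * γ0 * δ⁻¹) * mat δ = frickeMat N * mat δ * mat γ0 := by
            rw [mul_assoc, ← mat_mul, inv_mul_cancel_right, mat_mul, mul_assoc]
          rw [fricke_rel] at e
          rw [← mul_assoc, e]
          rfl
  have key := pushPic_eq_zero_of_sumZero hℓN g (x := x) (y := y) (z := z) (t := t)
    (by rw [hg, mat_gamma0Mk]) c (fun γ => hcf γ) (NeZero.ne n)
    (kummer_spec Kronecker.complexEmb n cl)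
  exact ⟨key.1 hA, key.2 hB⟩

end FLTAgent.ModLift.Push
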