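import Mathlib

/-!
# Separation by homomorphisms to the integers modulo powers of `p`
-/

set_option autoImplicit false
set_option linter.style.haveILetI false

noncomputable section

namespace FLTAgent.ModLift.Push

/-- A finite torsion-free module over the `p`-adic integers is separated by its homomorphisms to
the integers modulo powers of `p`. -/
theorem eq_zero_of_forall_zmod {p : ℕ} [Fact p.Prime] {A : Type*} [AddCommGroup A]
    [Module ℤ_[p] A] [Module.Finite ℤ_[p] A]
    (htf : ∀ (m : ℕ) (v : A), m ≠ 0 → m • v = 0 → v = 0) (a : A)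
    (h : ∀ (n : ℕ) (f : A →+ ZMod (p ^ n)), f a = 0) : a = 0 := by
  haveI : Module.IsTorsionFree ℤ_[p] A := by
    refine Module.isTorsionFree_iff_smul_eq_zero.2 fun c v hv => ?_
    by_contra hne
    rw [not_or] at hne
    obtain ⟨hc, hv0⟩ := hne
    rw [PadicInt.unitCoeff_spec hc, mul_smul] at hv
    have h1 : ((p : ℤ_[p]) ^ c.valuation) • v = 0 := (PadicInt.unitCoeff hc).isUnit.smul_eq_zero.1 hv
    rw [← Nat.cast_pow, Nat.cast_smul_eq_nsmul] at h1
    exact hv0 (htf _ _ (pow_ne_zero _ (Fact.out : p.Prime).ne_zero) h1)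
  haveI : Module.Free ℤ_[p] A := Module.free_of_finite_type_torsion_free'
  set b := Module.Free.chooseBasis ℤ_[p] A
  refine b.repr.injective (Finsupp.ext fun i => ?_)
  rw [map_zero, Finsupp.zero_apply]
  exact PadicInt.ext_of_toZModPow.1 fun k => (h k ((PadicInt.toZModPow k).toAddMonoidHom.comp
    ((Finsupp.applyAddHom i).comp b.repr.toLinearMap.toAddMonoidHom))).trans (map_zero _).symm

end FLTAgent.ModLift.Push
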