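import Mathlib

/-!
# Sums over the cosets of `Γ₀(ℓ)` in a subgroup of `SL₂(ℤ)` surjecting modulo `ℓ`

A function additive on `G ∩ Γ₀(ℓ)` has a transfer to `G`. Its vanishing is independent of the
representatives and is inherited by the composite with a homomorphism between two such groups
preserving `Γ₀(ℓ)`.
-/

set_option autoImplicit false
set_option linter.style.haveILetI false

noncomputable section

open CongruenceSubgroup Finset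
open scoped MatrixGroups

namespace FLTAgent.ModLift.Push

local notation "SL2Z" => Matrix.SpecialLinearGroup (Fin 2) ℤ

/-- The cosets of `Γ₀(ℓ)`. -/
abbrev Cs (ℓ : ℕ) : Type := SL2Z ⧸ Gamma0 ℓ

instance fintypeCs (ℓ : ℕ) [NeZero ℓ] : Fintype (Cs ℓ) := Fintype.ofFinite _

/-- The intersection with `Γ₀(ℓ)`. -/
def low (ℓ : ℕ) (G : Subgroup SL2Z) : Subgroup SL2Z := G ⊓ Gamma0 ℓ

/-- Additivity on a subgroup. -/
def AddOn {V : Type*} [AddCommGroup V] (H : Subgroup SL2Z) (f : SL2Z → V) : Prop :=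
  ∀ a ∈ H, ∀ b ∈ H, f (a * b) = f a + f b

theorem AddOn.one {V : Type*} [AddCommGroup V] {H : Subgroup SL2Z} {f : SL2Z → V}
    (hf : AddOn H f) : f 1 = 0 := by
  have h := hf 1 (one_mem H) 1 (one_mem H)
  rw [mul_one] at h
  simpa using h

theorem AddOn.inv {V : Type*} [AddCommGroup V] {H : Subgroup SL2Z} {f : SL2Z → V}
    (hf : AddOn H f) {a : SL2Z} (ha : a ∈ H) : f a⁻¹ = -f a := by
  have h := hf a ha a⁻¹ (inv_mem ha)
  rw [mul_inv_cancel, hf.one] at h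
  exact eq_neg_of_add_eq_zero_right h.symm

theorem AddOn.conj {V : Type*} [AddCommGroup V] {H : Subgroup SL2Z} {f : SL2Z → V}
    (hf : AddOn H f) {k a : SL2Z} (hk : k ∈ H) (ha : a ∈ H) : f (k * a * k⁻¹) = f a := by
  rw [hf _ (mul_mem hk ha) _ (inv_mem hk), hf k hk a ha, hf.inv hk]
  abel

/-- Every class modulo `Γ₀(ℓ)` meets `G`. -/
def Full (ℓ : ℕ) (G : Subgroup SL2Z) : Prop := ∀ g : SL2Z, ∃ g' ∈ G, g * g'⁻¹ ∈ Gamma0 ℓ

theorem Full.mono {ℓ : ℕ} {G G' : Subgroup SL2Z} (h : Full ℓ G) (hle : G ≤ G') : Full ℓ G' :=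
  fun g => let ⟨g', hg', h'⟩ := h g; ⟨g', hle hg', h'⟩

/-- Representatives in `G` of the classes modulo `Γ₀(ℓ)`. -/
structure Sys (ℓ : ℕ) (G : Subgroup SL2Z) where
  r : Cs ℓ → SL2Z
  mem : ∀ x, r x ∈ G
  spec : ∀ x, ((r x)⁻¹ : SL2Z) = (x : Cs ℓ)

variable {ℓ : ℕ} {G G₁ : Subgroup SL2Z} {V : Type*} [AddCommGroup V]

theorem Full.nonempty_sys (h : Full ℓ G) : Nonempty (Sys ℓ G) := by
  choose g hg hgm using fun x : Cs ℓ => h x.out⁻¹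
  refine ⟨⟨g, hg, fun x => ?_⟩⟩
  conv_rhs => rw [← QuotientGroup.out_eq' x]
  refine QuotientGroup.eq.2 ?_
  have h1 := inv_mem (hgm x)
  rw [inv_inv]
  rwa [mul_inv_rev, inv_inv, inv_inv] at h1

theorem mk_inv_eq {a b : SL2Z} : ((a⁻¹ : SL2Z) : Cs ℓ) = (b⁻¹ : SL2Z) ↔ a * b⁻¹ ∈ Gamma0 ℓ := by
  rw [QuotientGroup.eq, inv_inv]

/-- The transfer. -/
def Sys.sum [NeZero ℓ] (R : Sys ℓ G) (f : SL2Z → V) (γ : SL2Z) : V :=
  ∑ x : Cs ℓ, f (R.r x * γ * (R.r (γ⁻¹ • x))⁻¹)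

theorem Sys.step_mem (R : Sys ℓ G) {γ : SL2Z} (hγ : γ ∈ G) (x : Cs ℓ) :
    R.r x * γ * (R.r (γ⁻¹ • x))⁻¹ ∈ low ℓ G := by
  refine Subgroup.mem_inf.2 ⟨mul_mem (mul_mem (R.mem x) hγ) (inv_mem (R.mem _)), ?_⟩
  rw [← mk_inv_eq, R.spec, mul_inv_rev, ← R.spec x, MulAction.Quotient.smul_coe, smul_eq_mul,
    R.spec x]

variable [NeZero ℓ]

theorem Sys.sum_mul (R : Sys ℓ G) {f : SL2Z → V} (hf : AddOn (low ℓ G) f) {γ δ : SL2Z}
    (hγ : γ ∈ G) (hδ : δ ∈ G) : R.sum f (γ * δ) = R.sum f γ + R.sum f δ := by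
  have e : ∀ x, f (R.r x * (γ * δ) * (R.r ((γ * δ)⁻¹ • x))⁻¹) =
      f (R.r x * γ * (R.r (γ⁻¹ • x))⁻¹) +
        f (R.r (γ⁻¹ • x) * δ * (R.r (δ⁻¹ • γ⁻¹ • x))⁻¹) := fun x => by
    rw [← hf _ (R.step_mem hγ x) _ (R.step_mem hδ _), mul_inv_rev, mul_smul]
    congr 1
    group
  rw [Sys.sum, sum_congr rfl fun x _ => e x, sum_add_distrib]
  congr 1
  exact Equiv.sum_comp (MulAction.toPerm γ⁻¹) fun x => f (R.r x * δ * (R.r (δ⁻¹ • x))⁻¹)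

/-- Any family of representatives computes the transfer. -/
theorem Sys.sum_eq (R : Sys ℓ G) {f : SL2Z → V} (hf : AddOn (low ℓ G) f) {γ : SL2Z} (hγ : γ ∈ G)
    {ι : Type*} [Fintype ι] (r : ι → SL2Z) (hr : ∀ i, r i ∈ G)
    (hbij : Function.Bijective fun i => (((r i)⁻¹ : SL2Z) : Cs ℓ)) (π : ι → ι) (u : ι → SL2Z)
    (hu : ∀ i, u i ∈ low ℓ G) (hrel : ∀ i, r i * γ = u i * r (π i)) :
    ∑ i, f (u i) = R.sum f γ := by
  let e : ι ≃ Cs ℓ := Equiv.ofBijective _ hbij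
  let h : ι → SL2Z := fun i => r i * (R.r (e i))⁻¹
  have hh : ∀ i, h i ∈ low ℓ G := fun i => Subgroup.mem_inf.2 ⟨mul_mem (hr i) (inv_mem (R.mem _)),
    mk_inv_eq.1 (R.spec _).symm⟩
  have heπ : ∀ i, e (π i) = γ⁻¹ • e i := fun i => by
    show (((r (π i))⁻¹ : SL2Z) : Cs ℓ) = γ⁻¹ • (((r i)⁻¹ : SL2Z) : Cs ℓ)
    rw [MulAction.Quotient.smul_coe, smul_eq_mul, ← mul_inv_rev, hrel i, mk_inv_eq, mul_inv_rev,
      mul_inv_cancel_left]
    exact inv_mem (Subgroup.mem_inf.1 (hu i)).2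
  have key : ∀ i, f (u i) =
      f (R.r (e i) * γ * (R.r (γ⁻¹ • e i))⁻¹) + (f (h i) - f (h (π i))) := by
    intro i
    have e1 : u i = h i * (R.r (e i) * γ * (R.r (γ⁻¹ • e i))⁻¹) * (h (π i))⁻¹ := by
      have h1 : u i = r i * γ * (r (π i))⁻¹ := by rw [hrel i, mul_inv_cancel_right]
      rw [h1, ← heπ]
      simp only [h]
      group
    rw [e1, hf _ (mul_mem (hh i) (R.step_mem hγ _)) _ (inv_mem (hh _)),
      hf _ (hh i) _ (R.step_mem hγ _), hf.inv (hh _)]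
    abel
  have hπ : Function.Bijective π := by
    have : π = e.symm ∘ (fun x => γ⁻¹ • x) ∘ e := funext fun i => by
      rw [Function.comp_apply, Function.comp_apply, ← heπ, Equiv.symm_apply_apply]
    rw [this]
    exact e.symm.bijective.comp ((MulAction.bijective γ⁻¹).comp e.bijective)
  rw [sum_congr rfl fun i _ => key i, sum_add_distrib, sum_sub_distrib,
    hπ.sum_comp fun i => f (h i), sub_self, add_zero]
  exact e.sum_comp fun x => f (R.r x * γ * (R.r (γ⁻¹ • x))⁻¹)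

theorem Sys.sum_indep (R R' : Sys ℓ G) {f : SL2Z → V} (hf : AddOn (low ℓ G) f) {γ : SL2Z}
    (hγ : γ ∈ G) : R'.sum f γ = R.sum f γ := by
  refine R.sum_eq hf hγ R'.r R'.mem ?_ (fun x => γ⁻¹ • x)
    (fun x => R'.r x * γ * (R'.r (γ⁻¹ • x))⁻¹) (R'.step_mem hγ) fun x => by group
  rw [show (fun x => (((R'.r x)⁻¹ : SL2Z) : Cs ℓ)) = id from funext R'.spec]
  exact Function.bijective_id

/-- The transfer vanishes. -/
structure Tr0 (ℓ : ℕ) [NeZero ℓ] (G : Subgroup SL2Z) (f : SL2Z → V) : Prop where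
  addOn : AddOn (low ℓ G) f
  zero : ∀ R : Sys ℓ G, ∀ γ ∈ G, R.sum f γ = 0

theorem Tr0.of_sys {f : SL2Z → V} (hf : AddOn (low ℓ G) f) (R : Sys ℓ G)
    (h : ∀ γ ∈ G, R.sum f γ = 0) : Tr0 ℓ G f :=
  ⟨hf, fun R' γ hγ => by rw [R.sum_indep R' hf hγ, h γ hγ]⟩

theorem Tr0.congr {f f' : SL2Z → V} (h : Tr0 ℓ G f) (e : ∀ a ∈ low ℓ G, f' a = f a) :
    Tr0 ℓ G f' := by
  refine ⟨fun a ha b hb => ?_, fun R γ hγ => ?_⟩
  · rw [e _ (mul_mem ha hb), e a ha, e b hb, h.addOn a ha b hb]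
  · rw [← h.zero R γ hγ]
    exact sum_congr rfl fun x _ => e _ (R.step_mem hγ x)

theorem Tr0.smul_sum {ι : Type*} {A : Type*} [Ring A] [Module A V] (s : Finset ι) (w : ι → A)
    {f : ι → SL2Z → V} (h : ∀ i ∈ s, Tr0 ℓ G (f i)) :
    Tr0 ℓ G fun a => ∑ i ∈ s, w i • f i a := by
  refine ⟨fun a ha b hb => ?_, fun R γ hγ => ?_⟩
  · show ∑ i ∈ s, _ = ∑ i ∈ s, _ + ∑ i ∈ s, _
    rw [← sum_add_distrib]
    exact sum_congr rfl fun i hi => by rw [(h i hi).addOn a ha b hb, smul_add]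
  · show ∑ x : Cs ℓ, ∑ i ∈ s, _ = (0 : V)
    rw [sum_comm]
    refine sum_eq_zero fun i hi => ?_
    rw [← Finset.smul_sum, show (∑ x : Cs ℓ, f i (R.r x * γ * (R.r (γ⁻¹ • x))⁻¹)) = R.sum (f i) γ
      from rfl, (h i hi).zero R γ hγ, smul_zero]

theorem Tr0.map {W : Type*} [AddCommGroup W] {f : SL2Z → V} (h : Tr0 ℓ G f) (g : V →+ W) :
    Tr0 ℓ G (g ∘ f) := by
  refine ⟨fun a ha b hb => ?_, fun R γ hγ => ?_⟩
  · rw [Function.comp_apply, h.addOn a ha b hb, map_add]; rfl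
  · show ∑ x : Cs ℓ, g _ = 0
    rw [← map_sum, show (∑ x : Cs ℓ, f (R.r x * γ * (R.r (γ⁻¹ • x))⁻¹)) = R.sum f γ from rfl,
      h.zero R γ hγ, map_zero]

/-- The transfer of a composite with a homomorphism preserving `Γ₀(ℓ)`. -/
theorem Tr0.comap {f : SL2Z → V} (h : Tr0 ℓ G f) (hG₁ : Full ℓ G₁) (c : SL2Z → SL2Z)
    (hc : ∀ a ∈ G₁, c a ∈ G) (hmul : ∀ a ∈ G₁, ∀ b ∈ G₁, c (a * b) = c a * c b)
    (hlow : ∀ a ∈ G₁, c a ∈ Gamma0 ℓ ↔ a ∈ Gamma0 ℓ) : Tr0 ℓ G₁ (f ∘ c) := by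
  have hlow' : ∀ a ∈ low ℓ G₁, c a ∈ low ℓ G := fun a ha => ⟨hc a ha.1, (hlow a ha.1).2 ha.2⟩
  have hf : AddOn (low ℓ G₁) (f ∘ c) := fun a ha b hb => by
    rw [Function.comp_apply, hmul a ha.1 b hb.1]
    exact h.addOn _ (hlow' a ha) _ (hlow' b hb)
  have hdiv : ∀ a ∈ G₁, ∀ b ∈ G₁, c a * (c b)⁻¹ = c (a * b⁻¹) := fun a ha b hb => by
    rw [eq_comm, eq_mul_inv_iff_mul_eq, ← hmul _ (mul_mem ha (inv_mem hb)) b hb,
      inv_mul_cancel_right]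
  obtain ⟨R₁⟩ := hG₁.nonempty_sys
  let σ : Cs ℓ → Cs ℓ := fun x => (((c (R₁.r x))⁻¹ : SL2Z) : Cs ℓ)
  have hσ : Function.Bijective σ := Finite.injective_iff_bijective.1 fun x y hxy => by
    have h1 := mk_inv_eq.1 hxy
    rw [hdiv _ (R₁.mem x) _ (R₁.mem y),
      hlow _ (mul_mem (R₁.mem x) (inv_mem (R₁.mem y))), ← mk_inv_eq, R₁.spec, R₁.spec] at h1
    exact h1
  let e := Equiv.ofBijective σ hσ
  let R : Sys ℓ G := ⟨fun y => c (R₁.r (e.symm y)), fun y => hc _ (R₁.mem _),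
    fun y => e.apply_symm_apply y⟩
  refine .of_sys hf R₁ fun γ hγ => ?_
  rw [← h.zero R (c γ) (hc γ hγ)]
  refine R.sum_eq h.addOn (hc γ hγ) (fun x => c (R₁.r x)) (fun x => hc _ (R₁.mem x)) hσ
    (fun x => γ⁻¹ • x) (fun x => c (R₁.r x * γ * (R₁.r (γ⁻¹ • x))⁻¹))
    (fun x => hlow' _ (R₁.step_mem hγ x)) fun x => ?_
  rw [← hmul _ (R₁.mem x) _ hγ, ← hmul _ (R₁.step_mem hγ x).1 _ (R₁.mem _), inv_mul_cancel_right]

/-- A transfer vanishing on a subgroup of finite index vanishes, for values without torsion. -/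
theorem Tr0.of_finite_index {f : SL2Z → V} (hf : AddOn (low ℓ G) f)
    (htf : ∀ (m : ℕ) (v : V), m ≠ 0 → m • v = 0 → v = 0) (R : Sys ℓ G)
    (K : Subgroup SL2Z) (hpow : ∀ γ ∈ G, ∃ m : ℕ, m ≠ 0 ∧ γ ^ m ∈ K)
    (h : ∀ γ ∈ G, γ ∈ K → R.sum f γ = 0) : Tr0 ℓ G f := by
  refine .of_sys hf R fun γ hγ => ?_
  obtain ⟨m, hm, hK⟩ := hpow γ hγ
  refine htf m _ hm ?_
  have e : ∀ k : ℕ, R.sum f (γ ^ k) = k • R.sum f γ := by
    intro k
    induction k with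
    | zero =>
      have h1 := R.sum_mul hf (one_mem G) (one_mem G)
      rw [mul_one] at h1
      rw [pow_zero, zero_smul]
      simpa using h1
    | succ k ih => rw [pow_succ, R.sum_mul hf (pow_mem hγ k) hγ, ih, succ_nsmul]
  rw [← e, h _ (pow_mem hγ m) hK]

end FLTAgent.ModLift.Push
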