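import Fermat.Agent.ModLift.Degen.Ops
import Fermat.Agent.ModLift.Degen.Push.Coset

/-!
# Twisted classes killed by the transfer

A cocycle on `Γ₀(M ℓ)` whose class is killed by the transfer to `Γ₀(M)` has, on `Γ₁(M) ∩ Γ₀(ℓ)`,
vanishing sums over the cosets. The same holds after conjugation by an Atkin–Lehner matrix when the
image of the class under the involution is killed.
-/

set_option autoImplicit false
set_option linter.unusedSectionVars false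
set_option linter.style.haveILetI false

noncomputable section

open CongruenceSubgroup
open scoped MatrixGroups

namespace FLTAgent.ModLift

open FLTAgent.PeriodHecke FLTAgent.Lowering.Cocycle FLTAgent.LevelRaise

local notation "SL2Z" => Matrix.SpecialLinearGroup (Fin 2) ℤ
local notation "M2" => Matrix (Fin 2) (Fin 2) ℤ

namespace Push

variable {M ℓ : ℕ} [Fact ℓ.Prime] [NeZero M]

theorem coprime_level (hℓ : ¬ ℓ ∣ M) : M.Coprime ℓ :=
  ((Fact.out : ℓ.Prime).coprime_iff_not_dvd.2 hℓ).symm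

theorem mem_low_gamma1 (hℓ : ¬ ℓ ∣ M) {g : SL2Z} (hg : g ∈ low ℓ (Gamma1 M)) :
    g ∈ Gamma0 (M * ℓ) := by
  obtain ⟨h1, h2⟩ := Subgroup.mem_inf.1 hg
  rw [Gamma0_mem, ZMod.intCast_zmod_eq_zero_iff_dvd] at h2 ⊢
  have h3 := Gamma0_mem.1 (Gamma1_in_Gamma0 M h1)
  rw [ZMod.intCast_zmod_eq_zero_iff_dvd] at h3
  push_cast
  exact IsCoprime.mul_dvd (Nat.isCoprime_iff_coprime.2 (coprime_level hℓ)) h3 h2

theorem mem_gamma0_of_mem {g : SL2Z} (hg : g ∈ Gamma0 (M * ℓ)) :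
    g ∈ Gamma0 M ∧ g ∈ Gamma0 ℓ := by
  rw [Gamma0_mem, ZMod.intCast_zmod_eq_zero_iff_dvd] at hg ⊢
  push_cast at hg
  exact ⟨dvd_trans (dvd_mul_right _ _) hg,
    Gamma0_mem.2 ((ZMod.intCast_zmod_eq_zero_iff_dvd _ _).2 (dvd_trans (dvd_mul_left _ _) hg))⟩

/-- The lower unipotents and one more element represent all classes in a principal subgroup. -/
theorem full_gamma {Q : ℕ} (hQ : ¬ ℓ ∣ Q) : Full ℓ (Gamma Q) := by
  intro g
  have hℓ : Prime (ℓ : ℤ) := Nat.prime_iff_prime_int.1 Fact.out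
  have hQl : (Q : ZMod ℓ) ≠ 0 := fun h => hQ ((ZMod.natCast_eq_zero_iff _ _).1 h)
  by_cases hd : ((g 1 1 : ℤ) : ZMod ℓ) = 0
  · obtain ⟨s, hs⟩ := ZMod.intCast_surjective (n := ℓ) (-(1 / ((Q : ZMod ℓ) * Q)))
    refine ⟨(⟨!![1, (Q : ℤ) * s; (Q : ℤ), 1 + (Q : ℤ) * Q * s], by
      rw [Matrix.det_fin_two_of]; ring⟩ : SL2Z), Gamma_mem.2 ⟨?_, ?_, ?_, ?_⟩, ?_⟩ <;>
      try (simp; done)
    rw [Gamma0_mem]
    show ((((g : M2) * Matrix.adjugate !![1, (Q : ℤ) * s; (Q : ℤ), 1 + (Q : ℤ) * Q * s]) 1 0 : ℤ) : ZMod ℓ) = 0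
    rw [Matrix.adjugate_fin_two_of]
    simp [Matrix.mul_apply, Fin.sum_univ_two, hd, hs]
    field_simp
    simp
  · obtain ⟨j, hj⟩ := ZMod.intCast_surjective (n := ℓ)
      (((g 1 0 : ℤ) : ZMod ℓ) / ((Q : ZMod ℓ) * ((g 1 1 : ℤ) : ZMod ℓ)))
    refine ⟨(⟨!![1, 0; (Q : ℤ) * j, 1], by
      rw [Matrix.det_fin_two_of]; ring⟩ : SL2Z), Gamma_mem.2 ⟨?_, ?_, ?_, ?_⟩, ?_⟩ <;>
      try (simp; done)
    rw [Gamma0_mem]
    show ((((g : M2) * Matrix.adjugate !![1, 0; (Q : ℤ) * j, 1]) 1 0 : ℤ) : ZMod ℓ) = 0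
    rw [Matrix.adjugate_fin_two_of]
    simp [Matrix.mul_apply, Fin.sum_univ_two, hj]
    field_simp
    ring

theorem gamma_le_gamma1 (M : ℕ) : Gamma M ≤ Gamma1 M := fun g hg => by
  obtain ⟨h00, -, h10, h11⟩ := Gamma_mem.1 hg
  exact (Gamma1_mem M g).2 ⟨h00, h11, h10⟩

theorem full_gamma1 (hℓ : ¬ ℓ ∣ M) : Full ℓ (Gamma1 M) :=
  (full_gamma hℓ).mono (gamma_le_gamma1 M)

variable [NeZero (M * ℓ)] {A : Type*} [CommRing A] (χ : ZMod M →* A) {χ' : ZMod (M * ℓ) →* A}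
  (hχ : ∀ d : ZMod (M * ℓ), IsUnit d → χ' d = χ (ZMod.castHom (dvd_level M ℓ) (ZMod M) d))
  {N : Type*} [AddCommGroup N] [Module A N]

include hχ in
theorem psi_eq_one (g : Gamma0 (M * ℓ)) (hg : (g : SL2Z) ∈ Gamma1 M) : psi χ' g = 1 := by
  rw [(isPsi_psi (dvd_level M ℓ) hχ).val g,
    show ((mat g 1 1 : ℤ) : ZMod M) = 1 from ((Gamma1_mem M _).1 hg).2.1, map_one]

include hχ in
theorem addOn_of_cocycle (hℓ : ¬ ℓ ∣ M) (c : Z1 (psi χ') N) {f : SL2Z → N}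
    (hf : ∀ g : Gamma0 (M * ℓ), f g = (c : Gamma0 (M * ℓ) → N) g) :
    AddOn (low ℓ (Gamma1 M)) f := by
  intro a ha b hb
  have h := Z1_mul c ⟨a, mem_low_gamma1 hℓ ha⟩ ⟨b, mem_low_gamma1 hℓ hb⟩
  rw [psi_eq_one χ hχ _ (Subgroup.mem_inf.1 ha).1, one_smul] at h
  rw [show f a = _ from hf ⟨a, mem_low_gamma1 hℓ ha⟩, show f b = _ from hf ⟨b, mem_low_gamma1 hℓ hb⟩,
    show f (a * b) = _ from hf (⟨a, mem_low_gamma1 hℓ ha⟩ * ⟨b, mem_low_gamma1 hℓ hb⟩)]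
  exact h

include hχ in
/-- **Sums of a cocycle killed by the transfer.** -/
theorem tr0_of_tau (hℓ : ¬ ℓ ∣ M) (c : Z1 (psi χ') N) (hτ : Corr.mapTau χ N hχ (cls c) = 0)
    {f : SL2Z → N} (hf : ∀ g : Gamma0 (M * ℓ), f g = (c : Gamma0 (M * ℓ) → N) g) :
    Tr0 ℓ (Gamma1 M) f := by
  classical
  have hadd := addOn_of_cocycle χ hχ hℓ c hf
  obtain ⟨R⟩ := (full_gamma1 (M := M) hℓ).nonempty_sys
  refine .of_sys hadd R fun γ hγ => ?_
  set F := Corr.dtau M ℓ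
  have hψ' := isPsi_psi (dvd_level M ℓ) hχ
  -- representatives in `Γ₁(M)`
  choose r hr hrℓ using fun x : fib M ℓ => full_gamma1 (M := M) hℓ (Corr.fibRep x : SL2Z)
  have hh : ∀ x, (Corr.fibRep x : SL2Z) * (r x)⁻¹ ∈ Gamma0 (M * ℓ) := fun x => by
    have h0 : (Corr.fibRep x : SL2Z) * (r x)⁻¹ ∈ Gamma0 M :=
      mul_mem (Corr.fibRep x).2 (inv_mem (Gamma1_in_Gamma0 M (hr x)))
    have h1 := hrℓ x
    rw [Gamma0_mem, ZMod.intCast_zmod_eq_zero_iff_dvd] at h0 h1 ⊢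
    push_cast
    exact IsCoprime.mul_dvd (Nat.isCoprime_iff_coprime.2 (coprime_level hℓ)) h0 h1
  let hx : fib M ℓ → Gamma0 (M * ℓ) := fun x => ⟨_, hh x⟩
  have hfr : ∀ x, (hx x : SL2Z) * r x = (Corr.fibRep x : SL2Z) := fun x => inv_mul_cancel_right _ _
  have hcls : ∀ x : fib M ℓ, (((r x)⁻¹ : SL2Z) : Cs ℓ) = (x.1.out : SL2Z) := fun x => by
    rw [show (x.1.out : SL2Z) = (Corr.fibRep x : SL2Z)⁻¹ from (inv_inv _).symm, eq_comm, mk_inv_eq]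
    exact hrℓ x
  have hbij : Function.Bijective fun x : fib M ℓ => (((r x)⁻¹ : SL2Z) : Cs ℓ) := by
    refine ⟨fun x y hxy => ?_, fun z => ?_⟩
    · simp only [hcls, QuotientGroup.eq] at hxy
      refine Subtype.ext ?_
      rw [← QuotientGroup.out_eq' x.1, ← QuotientGroup.out_eq' y.1, QuotientGroup.eq]
      have h0 : (x.1.out : SL2Z)⁻¹ * y.1.out ∈ Gamma0 M :=
        mul_mem (inv_mem (mem_fib.mp x.2)) (mem_fib.mp y.2)
      rw [Gamma0_mem, ZMod.intCast_zmod_eq_zero_iff_dvd] at h0 hxy ⊢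
      push_cast
      exact IsCoprime.mul_dvd (Nat.isCoprime_iff_coprime.2 (coprime_level hℓ)) h0 hxy
    · obtain ⟨g, hg, hgz⟩ := full_gamma1 (M := M) hℓ (z.out⁻¹ : SL2Z)
      let q : Cos (M * ℓ) := ((g⁻¹ : SL2Z) : Cos (M * ℓ))
      obtain ⟨η, hη⟩ := QuotientGroup.mk_out_eq_mul (Gamma0 (M * ℓ)) (g⁻¹ : SL2Z)
      have hq : q.out ∈ Gamma0 M := by
        rw [show q.out = g⁻¹ * (η : SL2Z) from hη]
        exact mul_mem (inv_mem (Gamma1_in_Gamma0 M hg)) (mem_gamma0_of_mem η.2).1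
      refine ⟨⟨q, mem_fib.mpr hq⟩, ?_⟩
      show (((r _)⁻¹ : SL2Z) : Cs ℓ) = z
      rw [hcls, show q.out = g⁻¹ * (η : SL2Z) from hη, ← QuotientGroup.out_eq' z, QuotientGroup.eq,
        mul_inv_rev, inv_inv, mul_assoc]
      refine mul_mem (inv_mem (mem_gamma0_of_mem η.2).2) ?_
      have h1 := inv_mem hgz
      rwa [mul_inv_rev, inv_inv, inv_inv] at h1
  let γ₀ : Gamma0 M := ⟨γ, Gamma1_in_Gamma0 M hγ⟩
  let π : fib M ℓ → fib M ℓ := F.next γ₀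
  let u : fib M ℓ → Gamma0 (M * ℓ) := fun x => (hx x)⁻¹ * F.coc γ₀ x * hx (π x)
  have hrel : ∀ x, r x * γ = (u x : SL2Z) * r (π x) := fun x => by
    have h1 : (Corr.fibRep x : SL2Z) * γ = (F.coc γ₀ x : SL2Z) * (Corr.fibRep (π x) : SL2Z) :=
      Subtype.ext (F.rel γ₀ x)
    simp only [u, Subgroup.coe_mul, Subgroup.coe_inv, mul_assoc, hfr, ← h1]
    rw [← hfr x]
    group
  have hu : ∀ x, (u x : SL2Z) ∈ low ℓ (Gamma1 M) := fun x => by
    refine Subgroup.mem_inf.2 ⟨?_, (mem_gamma0_of_mem (u x).2).2⟩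
    rw [show (u x : SL2Z) = r x * γ * (r (π x))⁻¹ by rw [hrel, mul_inv_cancel_right]]
    exact mul_mem (mul_mem (hr x) hγ) (inv_mem (hr _))
  have hu1 : ∀ x, (psi χ') (u x) = 1 := fun x =>
    psi_eq_one χ hχ _ (Subgroup.mem_inf.1 (hu x)).1
  have hw : ∀ x, F.w χ x * (psi χ') (hx x) = 1 := fun x => by
    rw [Corr.w, hψ'.val, ← map_mul]
    refine (congrArg χ ?_).trans (map_one χ)
    obtain ⟨h00, -, h10⟩ := (Gamma1_mem M _).1 (hr x)
    obtain ⟨g0, gu⟩ := hψ'.upper (hx x)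
    have h := congrArg (fun g : SL2Z => ((g 0 0 : ℤ) : ZMod M)) (hfr x)
    simp [Matrix.SpecialLinearGroup.coe_mul, Matrix.mul_apply, Fin.sum_univ_two, h00, h10] at h
    show ((mat (Corr.fibRep x) 0 0 : ℤ) : ZMod M) * _ = 1
    rw [show ((mat (Corr.fibRep x) 0 0 : ℤ) : ZMod M) = ((mat (hx x) 0 0 : ℤ) : ZMod M) from h.symm]
    exact gu
  rw [← R.sum_eq hadd hγ r hr hbij π (fun x => (u x : SL2Z)) hu hrel,
    Finset.sum_congr rfl fun x _ => hf (u x)]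
  have key : ∀ x, F.w χ x • (c : Gamma0 (M * ℓ) → N) (F.coc γ₀ x) =
      F.w χ x • c.1 (hx x) - F.w χ (π x) • c.1 (hx (π x)) + c.1 (u x) := by
    intro x
    have he : F.coc γ₀ x = hx x * u x * (hx (π x))⁻¹ := by simp only [u]; group
    have hinv : c.1 ((hx (π x))⁻¹) = -((psi χ') (hx (π x))⁻¹ • c.1 (hx (π x))) := by
      have h := Z1_mul c (hx (π x))⁻¹ (hx (π x))
      rw [inv_mul_cancel, Z1_one] at h
      exact eq_neg_of_add_eq_zero_left h.symm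
    have hwi : (psi χ') (hx (π x))⁻¹ = F.w χ (π x) := by
      calc (psi χ') (hx (π x))⁻¹ = (F.w χ (π x) * (psi χ') (hx (π x))) * (psi χ') (hx (π x))⁻¹ := by
            rw [hw, one_mul]
        _ = _ := by rw [mul_assoc, ← map_mul, mul_inv_cancel, map_one, mul_one]
    rw [he, Z1_mul, Z1_mul, map_mul, hu1, mul_one, smul_add, smul_add, smul_smul, smul_smul, hw,
      one_smul, one_smul, hinv, hwi]
    abel
  obtain ⟨v, hv⟩ := cls_eq_zero.1 ((Corr.op_cls _ _ _ c).symm.trans hτ)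
  have h0 := congrFun (congrArg Subtype.val hv) γ₀
  rw [Corr.opZ1_apply, cobdry_apply, (isPsi_self χ).val,
    show ((mat γ₀ 1 1 : ℤ) : ZMod M) = 1 from ((Gamma1_mem M _).1 hγ).2.1, map_one, one_smul,
    sub_self, Finset.sum_congr rfl fun x _ => key x, Finset.sum_add_distrib,
    Finset.sum_sub_distrib,
    show ∑ x, F.w χ (π x) • c.1 (hx (π x)) = ∑ x, F.w χ x • c.1 (hx x) from
      Equiv.sum_comp (F.perm γ₀) fun x => F.w χ x • c.1 (hx x), sub_self, zero_add] at h0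
  exact h0.symm

include hχ in
/-- **The same after an Atkin–Lehner matrix.** -/
theorem tr0_of_tau_W (hℓ : ¬ ℓ ∣ M) (B : Bez M ℓ) (c : Z1 (psi χ') N)
    (hτ : Corr.mapTau χ N hχ (Corr.mapW χ N B hχ (cls c)) = 0) {x y z t : ℤ}
    (hdet : (ℓ : ℤ) * x * t - (M : ℤ) * y * z = 1) {f : SL2Z → N}
    (hf : ∀ g : Gamma0 (M * ℓ), f g = (c : Gamma0 (M * ℓ) → N) g) (g' : SL2Z → SL2Z)
    (hg' : ∀ g ∈ low ℓ (Gamma1 M), !![(ℓ : ℤ) * x, y; (M : ℤ) * ℓ * z, (ℓ : ℤ) * t] * (g : M2) =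
      (g' g : M2) * !![(ℓ : ℤ) * x, y; (M : ℤ) * ℓ * z, (ℓ : ℤ) * t]) :
    Tr0 ℓ (Gamma1 M) (f ∘ g') := by
  classical
  set F := Corr.datk B
  have hψ' := isPsi_psi (dvd_level M ℓ) hχ
  set c' : Z1 (psi χ') N := F.opZ1 hψ' hψ' c
  let f' : SL2Z → N := fun g =>
    if h : g ∈ Gamma0 (M * ℓ) then (c' : Gamma0 (M * ℓ) → N) ⟨g, h⟩ else 0
  have hτ' : Corr.mapTau χ N hχ (cls c') = 0 := by
    rw [← Corr.op_cls]; exact hτ
  have hT := tr0_of_tau χ hχ hℓ c' hτ' (f := f') fun g => dif_pos g.2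
  have hδ : ((ℓ : ℤ) * x - y * M) * ((ℓ : ℤ) * t * B.a - (M : ℤ) * z * B.b) -
      (-(x * B.b) + y * B.a) * ((M : ℤ) * ℓ * (z - t)) = 1 := by
    linear_combination ((ℓ : ℤ) * B.a - M * B.b) * hdet + B.eq
  set δ : Gamma0 (M * ℓ) := gamma0Mk (M * ℓ) ((ℓ : ℤ) * x - y * M) (-(x * B.b) + y * B.a)
    ((M : ℤ) * ℓ * (z - t)) ((ℓ : ℤ) * t * B.a - (M : ℤ) * z * B.b) hδ
    (by push_cast; exact dvd_mul_right _ _)
  have hWm : !![(ℓ : ℤ) * x, y; (M : ℤ) * ℓ * z, (ℓ : ℤ) * t] = mat δ * B.W := by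
    rw [show mat δ = _ from mat_gamma0Mk _ _ _ _ _ _ _]
    ext i j
    fin_cases i <;> fin_cases j <;> simp [Bez.W, Matrix.mul_apply, Fin.sum_univ_two]
    · linear_combination (-(ℓ : ℤ) * x) * B.eq
    · linear_combination (-y) * B.eq
    · linear_combination (-(M : ℤ) * ℓ * z) * B.eq
    · linear_combination (-(ℓ : ℤ) * t) * B.eq
  have hlu : IsUnit (((ℓ : ℤ) * B.a : ℤ) : ZMod M) := by
    refine IsUnit.of_mul_eq_one 1 ?_
    have h := congrArg (fun z : ℤ => (z : ZMod M)) B.eq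
    push_cast at h ⊢
    simpa using h
  have hw : IsUnit (F.w χ ()) := by
    show IsUnit (χ _)
    exact hlu.map χ
  obtain ⟨v, hv⟩ := hw
  refine (Tr0.smul_sum (A := A) {()} (fun _ => (psi χ') δ * (v⁻¹ : Aˣ)) fun _ _ => hT).congr fun g hg => ?_
  rw [Finset.sum_singleton]
  let g₀ : Gamma0 (M * ℓ) := ⟨g, mem_low_gamma1 hℓ hg⟩
  have hg2 : g' g = ((δ * B.c g₀ * δ⁻¹ : Gamma0 (M * ℓ)) : SL2Z) := by
    have h := hg' g hg
    rw [hWm, mul_assoc, show B.W * (g : M2) = mat (B.c g₀) * B.W from B.c_rel g₀] at h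
    refine Subtype.ext (mul_right_cancel_det (B.det_W_ne (N := M)) ?_)
    have h2 : (g' g : M2) * mat δ * B.W = mat δ * mat (B.c g₀) * B.W := by
      rw [mul_assoc, ← h, mul_assoc]
    have h3 := mul_right_cancel_det (B.det_W_ne (N := M)) h2
    have h4 := congrArg (· * mat δ⁻¹) h3
    simp only [mul_assoc, ← mat_mul, mul_inv_cancel, mat_one, mul_one] at h4
    rw [h4, mul_assoc]
    simp [mat, Matrix.mul_assoc]
  have hc1 : (psi χ') (B.c g₀) = 1 := by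
    have h := F.w_rel hψ' hψ' g₀ ()
    rw [psi_eq_one χ hχ g₀ (Subgroup.mem_inf.1 hg).1, one_mul, ← hv] at h
    exact (Units.isUnit v).mul_left_cancel (h.trans (mul_one _).symm)
  have hinv : c.1 δ⁻¹ = -((psi χ') δ⁻¹ • c.1 δ) := by
    have h := Z1_mul c δ⁻¹ δ
    rw [inv_mul_cancel, Z1_one] at h
    exact eq_neg_of_add_eq_zero_left h.symm
  have hd : (psi χ') δ * (psi χ') δ⁻¹ = 1 := by rw [← map_mul, mul_inv_cancel, map_one]
  show f (g' g) = ((psi χ') δ * (v⁻¹ : Aˣ)) • f' g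
  rw [hg2, hf, Z1_mul, Z1_mul, map_mul, hc1, mul_one, hinv, smul_neg, smul_smul, hd, one_smul,
    show f' g = c'.1 g₀ from dif_pos g₀.2, Corr.opZ1_apply, Finset.univ_unique, Finset.sum_singleton]
  show _ = ((psi χ') δ * (v⁻¹ : Aˣ)) • (F.w χ () • c.1 (B.c g₀))
  rw [← hv, smul_smul, mul_assoc, Units.inv_mul, mul_one]
  abel

end Push

end FLTAgent.ModLift
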