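import Fermat.Agent.Ordinary.Modular
import Fermat.Agent.Lowering.P7.Geometry

/-!
# Frobenius and the exchange on classes killed by both pushforwards, modulo deep classes

For a class killed by both pushforwards the reductions on the two sheets are tied by powers, so
Frobenius is minus the exchange modulo classes with powers as reductions.
-/

set_option autoImplicit false
set_option linter.style.haveILetI false
set_option linter.unusedSectionVars false
set_option synthInstance.maxHeartbeats 400000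
set_option maxHeartbeats 1000000

noncomputable section

namespace FLTAgent.ModLift.Push

open AlgebraicCurve FLTAgent.Curves FLTAgent.Specialization FLTAgent.BadRed FLTAgent.Ordinary
open FLTAgent.Lowering.P7 (Exchange swapAut swapAut_smul_galois exchangeAt frobSym frobSym_V)
open AlgebraicCurve.SemilinearAut (baseAut)

section Sheets

variable {L k : Type*} [Field L] [Field k] {A : ValuationSubring L} {π : A →+* k}
  {FC Fb F : Type*} [Field FC] [Field Fb] [Field F] [Algebra L FC]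
  [Algebra k Fb] [Algebra L F] [IsAlgClosed L] [IsFunctionField L FC] [IsFunctionField L F]
  [IsAlgClosed k] [IsFunctionField k Fb] {q : ℕ} {S : Sheet π FC Fb F q}

/-- A symmetry preserves deep classes. -/
theorem sym_smul_mem_deep (P : S.Sym) {n : ℕ} {x : Pic0 L F} (hx : x ∈ deep S n) :
    P.σ • x ∈ deep S n := by
  obtain ⟨D, f, c₁, c₂, g₁, g₂, rfl, hf, hD, h1, h2, r1, r2⟩ := hx
  refine ⟨SemilinearAut.degZeroSMulHom P.σ D, P.σ • f, baseAut P.σ c₁, baseAut P.σ c₂, P.σb g₁,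
    P.σb g₂, (SemilinearAut.pic0_smul_mk P.σ D).symm, (smul_ne_zero_iff_ne P.σ).2 hf, fun v => ?_,
    (map_ne_zero P.σb).2 h1, (map_ne_zero P.σb).2 h2, ?_, ?_⟩
  · rw [BadRed.ord_smul', hD, SemilinearAut.coe_degZeroSMulHom,
      SemilinearAut.divisor_smul_apply]
  · rw [← map_pow]
    exact P.smul_res₁ r1
  · rw [← map_pow]
    exact P.smul_res₂ r2

/-- The exchange preserves deep classes. -/
theorem exchange_smul_mem_deep (E : Exchange S) {n : ℕ} {x : Pic0 L F} (hx : x ∈ deep S n) :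
    E.W • x ∈ deep S n := by
  obtain ⟨D, f, c₁, c₂, g₁, g₂, rfl, hf, hD, h1, h2, r1, r2⟩ := hx
  refine ⟨SemilinearAut.degZeroSMulHom E.W D, E.W • f, c₂, c₁, g₂, g₁,
    (SemilinearAut.pic0_smul_mk E.W D).symm, (smul_ne_zero_iff_ne E.W).2 hf, fun v => ?_, h2, h1,
    ?_, ?_⟩
  · rw [BadRed.ord_smul', hD, SemilinearAut.coe_degZeroSMulHom,
      SemilinearAut.divisor_smul_apply]
  · rw [← E.smul_const]
    exact E.res₁ _ _ r2
  · rw [← E.smul_const]
    exact E.res₂ _ _ r1

/-- The reductions of a function whose norm is a power, for exponents vanishing in the residue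
field. -/
theorem exists_norm_pow {S : Sheet π FC Fb F q} (hinj : ∀ x y : Fb, x ^ q = y ^ q → x = y)
    {σb : Fb →+* Fb} (hV : ∀ g, S.V (σb g) = g ^ q) {n : ℕ} (hn : n ≠ 0) {f : F}
    {c : L} {h : FC} (hh : h ≠ 0)
    (he : @Algebra.norm FC F _ _ (algebraAlong S.α) f = c • h ^ n)
    {c₁ c₂ : L} {a₁ a₂ : Fb} (ha₁ : a₁ ≠ 0) (ha₂ : a₂ ≠ 0) (r₁ : S.R₁.Res (c₁ • f) a₁)
    (r₂ : S.R₂.Res (c₂ • f) a₂) : ∃ g : Fb, g ≠ 0 ∧ a₁ * σb a₂ = g ^ n := by
  have hr := S.exists_norm_res hinj ha₁ ha₂ r₁ r₂ (hV a₂)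
  rw [he, smul_smul] at hr
  obtain ⟨e, g, hg, heg⟩ := S.MC.scaled h hh
  have he0 : e ≠ 0 := by
    rintro rfl
    rw [zero_smul] at heg
    exact hg (heg.unique S.MC.res_zero)
  set s := c₁ * c₂ ^ q * c / e ^ n
  have hs : s • (e • h) ^ n = (c₁ * c₂ ^ q * c) • h ^ n := by
    rw [_root_.smul_pow, smul_smul, div_mul_cancel₀ _ (pow_ne_zero _ he0)]
  rw [← hs] at hr
  have hb : a₁ * σb a₂ ≠ 0 := mul_ne_zero ha₁ ((map_ne_zero σb).2 ha₂)
  have hgn := pow_ne_zero n hg
  have h1 := hr.div (heg.pow n) hgn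
  have hne' : (e • h) ^ n ≠ 0 := (heg.pow n).ne_zero hgn
  rw [Algebra.smul_def, mul_div_assoc, div_self hne', mul_one] at h1
  have hsA : s ∈ A := by
    by_contra hsn
    have hinv : s⁻¹ ∈ A := (A.mem_or_inv_mem s).resolve_left hsn
    have hs0 : s ≠ 0 := fun h0 => hsn (h0 ▸ A.zero_mem)
    have hπ : π ⟨s⁻¹, hinv⟩ = 0 := Reduction.map_eq_zero_of_inv_notMem S.MC.surj (by simpa)
    have h2 := (S.MC.res_algebraMap ⟨s⁻¹, hinv⟩).mul h1
    rw [← map_mul, inv_mul_cancel₀ hs0, map_one, hπ, map_zero, zero_mul] at h2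
    exact one_ne_zero (S.MC.res_one.unique h2)
  have h3 := h1.unique (S.MC.res_algebraMap ⟨s, hsA⟩)
  obtain ⟨r, hr'⟩ := IsAlgClosed.exists_pow_nat_eq (π ⟨s, hsA⟩) (Nat.pos_of_ne_zero hn)
  have e3 : a₁ * σb a₂ = (algebraMap k Fb r * g) ^ n := by
    rw [mul_pow, ← map_pow, hr', ← h3, div_mul_cancel₀ _ hgn]
  exact ⟨_, fun h0 => hb (by rw [e3, h0, zero_pow hn]), e3⟩

/-- The sum of the images of a class under Frobenius and the exchange. -/
theorem sym_add_exchange_mem_deep (P : S.Sym) (hV : ∀ g, S.V (P.σb g) = g ^ q) (E : Exchange S)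
    (hinj : ∀ x y : Fb, x ^ q = y ^ q → x = y) (hβdeg : finrankAlong L S.β = q + 1)
    (hαi : S.α.toRingHom.IsIntegral) (hαf : FiniteAlong L S.α) (hαN : NormFormulaAlong L S.α hαf)
    (hβi : S.β.toRingHom.IsIntegral) (hβf : FiniteAlong L S.β) (hβN : NormFormulaAlong L S.β hβf)
    {n : ℕ} (hn : n ≠ 0) {x : Pic0 L F} (hx : x ∈ Pic0.torsion L F n)
    (hpushα : ∀ D : Divisor.degZero (K := L) (F := F), Pic0.mk D = x →
      (Divisor.pushforwardAlong S.α hαi (D : Divisor L F)).IsPrincipal)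
    (hpushβ : ∀ D : Divisor.degZero (K := L) (F := F), Pic0.mk D = x →
      (Divisor.pushforwardAlong S.β hβi (D : Divisor L F)).IsPrincipal) :
    P.σ • x + E.W • x ∈ deep S n := by
  obtain ⟨D, f, rfl, hf, hD⟩ := exists_torsion_rep hx
  obtain ⟨cα, Hα, -, hHα, eα⟩ := Sheet.exists_norm_eq hαi hαf hαN hf hD (hpushα D rfl)
  obtain ⟨cβ, Hβ, -, hHβ, eβ⟩ := Sheet.exists_norm_eq hβi hβf hβN hf hD (hpushβ D rfl)
  obtain ⟨c₁, a₁, ha₁, r₁⟩ := S.scaled₁ f hf
  obtain ⟨c₂, a₂, ha₂, r₂⟩ := S.scaled₂ f hf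
  obtain ⟨g, hg, hgα⟩ := exists_norm_pow hinj hV hn hHα eα ha₁ ha₂ r₁ r₂
  obtain ⟨g', hg', hgβ⟩ :=
    exists_norm_pow (S := S.swap hβdeg) hinj hV hn hHβ eβ ha₂ ha₁ r₂ r₁
  have hσf : P.σ • f ≠ 0 := (smul_ne_zero_iff_ne P.σ).2 hf
  have hWf : E.W • f ≠ 0 := (smul_ne_zero_iff_ne E.W).2 hf
  refine ⟨SemilinearAut.degZeroSMulHom P.σ D + SemilinearAut.degZeroSMulHom E.W D,
    P.σ • f * E.W • f, baseAut P.σ c₁ * c₂, baseAut P.σ c₂ * c₁, g', g, ?_, mul_ne_zero hσf hWf,
    fun v => ?_, hg', hg, ?_, ?_⟩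
  · rw [SemilinearAut.pic0_smul_mk, SemilinearAut.pic0_smul_mk]
    exact QuotientAddGroup.mk_add _ _ _
  · rw [v.ord_mul hσf hWf, BadRed.ord_smul', BadRed.ord_smul', hD, hD, AddSubgroup.coe_add,
      SemilinearAut.coe_degZeroSMulHom, SemilinearAut.coe_degZeroSMulHom, Finsupp.add_apply,
      SemilinearAut.divisor_smul_apply, SemilinearAut.divisor_smul_apply, mul_add]
  · rw [← hgβ, ← smul_mul_smul_comm, mul_comm a₂]
    refine (P.smul_res₁ r₁).mul ?_
    rw [← E.smul_const]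
    exact E.res₁ _ _ r₂
  · rw [← hgα, ← smul_mul_smul_comm, mul_comm a₁]
    refine (P.smul_res₂ r₂).mul ?_
    rw [← E.smul_const]
    exact E.res₂ _ _ r₁

end Sheets

open ModularCurve IsLocalRing
open FLTAgent.EigenLattice (pushPic isPrincipal_of_pushPic_eq_zero)

local notation "QA" => AlgebraicClosure ℚ
local notation "GG" => (AlgebraicClosure ℚ ≃ₐ[ℚ] AlgebraicClosure ℚ)

variable {A : ValuationSubring QA} {p : ℕ} [Fact p.Prime] {M : ℕ} [NeZero M] [NeZero p]
  [NeZero (M * p)] (hA : A.LiesOverPrime p) (hpM : ¬ p ∣ M)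
  [IsAlgClosed (ResidueField A)] [CharP (ResidueField A) p]
  [Curves.IsFunctionField (ResidueField A) (modularFunctionFieldFullC (ResidueField A) M)]

/-- Deep classes are stable under the decomposition group. -/
theorem smul_mem_deepAt {σ : GG} (hσ : σ ∈ A.decompositionSubgroup ℚ) {n : ℕ}
    {x : JZero (M * p)} (hx : x ∈ deepAt hA hpM n) : σ • x ∈ deepAt hA hpM n :=
  sym_smul_mem_deep (symAt hpM hA ⟨σ, hσ⟩) hx

/-- Deep classes are stable under the exchange. -/
theorem swap_mem_deepAt {n : ℕ} {x : JZero (M * p)} (hx : x ∈ deepAt hA hpM n) :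
    swapAut hpM • x ∈ deepAt hA hpM n :=
  exchange_smul_mem_deep (exchangeAt hpM hA) hx

variable {σ : GG} (hσ : A.IsFrobeniusAt σ p) {a : ℕ} {x : JZero (M * p)} (hx : p ^ a • x = 0)
  (hα : pushPic M p (heckeAlphaBar QA M p) x = 0) (hβ : pushPic M p (heckeBetaBar QA M p) x = 0)

include hσ hx hα hβ

/-- Frobenius is minus the exchange modulo deep classes. -/
theorem frobenius_add_swap_mem_deep : σ • x + swapAut hpM • x ∈ deepAt hA hpM (p ^ a) :=
  sym_add_exchange_mem_deep (S := sheetAt hpM hA) (frobSym hpM hA hσ) (frobSym_V hpM hA hσ)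
    (exchangeAt hpM hA) (pow_injective_fullC M p) (finrankAlong_beta hpM)
    (Kronecker.isIntegralAlong _) (Kronecker.finiteAlong _)
    (Kronecker.normFormulaAlong _ (Kronecker.finiteAlong _))
    (Kronecker.isIntegralAlong _) (Kronecker.finiteAlong _)
    (Kronecker.normFormulaAlong _ (Kronecker.finiteAlong _))
    (pow_ne_zero _ (Fact.out : p.Prime).ne_zero) (Pic0.mem_torsion.2 (by rw [natCast_zsmul]; exact hx))
    (fun D hD => isPrincipal_of_pushPic_eq_zero M p _ D (by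
      rw [show (Pic0.mk D : JZero (M * p)) = x from hD]; exact hα))
    (fun D hD => isPrincipal_of_pushPic_eq_zero M p _ D (by
      rw [show (Pic0.mk D : JZero (M * p)) = x from hD]; exact hβ))

/-- The square of Frobenius is the identity modulo deep classes. -/
theorem frobenius_sq_sub_mem_deep : σ • σ • x - x ∈ deepAt hA hpM (p ^ a) := by
  have h := frobenius_add_swap_mem_deep hA hpM hσ hx hα hβ
  have h1 := smul_mem_deepAt hA hpM hσ.mem_decompositionSubgroup h
  have h2 := swap_mem_deepAt hA hpM h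
  have hW : swapAut hpM • swapAut hpM • x = x := by
    rw [← mul_smul, show swapAut hpM * swapAut hpM = (1 : SemilinearAut QA (X0Bar (M * p))) from
      Subtype.ext (Prod.ext (RingEquiv.ext fun z => swapEnd_swapEnd hpM z)
        (RingEquiv.ext fun c => rfl)), one_smul]
  have h3 := sub_mem h1 h2
  rw [smul_add, smul_add, swapAut_smul_galois, hW] at h3
  convert h3 using 1
  abel

end FLTAgent.ModLift.Push
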