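import Mathlib

/-!
# Groups of torsion functionals acted upon by all matrices

When a Galois stable group of functionals is a module over the matrices compatibly with a
representation, classes killed by both push forwards are killed by the square of the root of
Frobenius minus one, and a stable part reducing to zero vanishes.
-/

set_option autoImplicit false
set_option linter.unusedSectionVars false
set_option linter.style.haveILetI false
set_option synthInstance.maxHeartbeats 400000
set_option maxHeartbeats 1000000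

noncomputable section

open IsLocalRing

namespace FLTAgent.ModLift.Push

local notation "M2" => Matrix (Fin 2) (Fin 2)

variable {R : Type} [CommRing R]

/-- The two sided ideal of a matrix with a unit entry is everything. -/
theorem two_sided_induction (B : M2 R) {i j : Fin 2} (hu : IsUnit (B i j)) {C : M2 R → Prop}
    (hadd : ∀ a b, C a → C b → C (a + b)) (h : ∀ a b, C (a * B * b)) : C 1 := by
  obtain ⟨u, hu⟩ := hu
  have e : (1 : M2 R) =
      Matrix.single 0 i (↑u⁻¹ : R) * B * Matrix.single j 0 1 +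
        Matrix.single 1 i (↑u⁻¹ : R) * B * Matrix.single j 1 1 := by
    ext a b
    fin_cases i <;> fin_cases j <;> fin_cases a <;> fin_cases b <;>
      simp [Matrix.mul_apply, Fin.sum_univ_two, Matrix.single] at hu ⊢ <;> simp [← hu]
  rw [e]
  exact hadd _ _ (h _ _) (h _ _)

/-- A matrix killed on the left by `T - d` is in the image of `T - 1` for a unit `d - 1`. -/
theorem exists_sub_one_mul {T X : M2 R} {d : R} (hd : IsUnit (d - 1)) (h : (T - d • 1) * X = 0) :
    ∃ Z, X = (T - 1) * Z := by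
  obtain ⟨u, hu⟩ := hd
  refine ⟨(↑u⁻¹ : R) • X, ?_⟩
  have hT : T * X = d • X := by
    rw [sub_mul, sub_eq_zero, Matrix.smul_mul, one_mul] at h
    exact h
  rw [Matrix.mul_smul, sub_mul, one_mul, hT,
    show d • X - X = (d - 1) • X by rw [sub_smul, one_smul], ← hu, smul_smul, Units.inv_mul,
    one_smul]

section Piece

variable {G : Type*} [Group G] {J : Type*} [AddCommGroup J] [DistribMulAction G J] {F : Type*}
  [AddCommGroup F] {P : AddSubgroup (F →+ J)} (Θ : M2 R →+* AddMonoid.End P) (r : G →* GL (Fin 2) R)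

/-- Compatibility with the Galois action. -/
def Equivariant : Prop :=
  ∀ (σ : G) (x : P) (f : F), (Θ (r σ : M2 R) x).1 f = σ • x.1 f

theorem piece_mul (a b : M2 R) (x : P) : Θ (a * b) x = Θ a (Θ b x) := by
  rw [map_mul]
  rfl

theorem piece_add (a b : M2 R) (x : P) : Θ (a + b) x = Θ a x + Θ b x := by
  rw [map_add]
  rfl

theorem piece_sub (a b : M2 R) (x : P) : Θ (a - b) x = Θ a x - Θ b x := by
  rw [eq_sub_iff_add_eq, ← piece_add, sub_add_cancel]

theorem piece_one (x : P) : Θ 1 x = x := by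
  rw [map_one]
  rfl

theorem piece_zero (x : P) : Θ 0 x = 0 := by
  rw [map_zero]
  rfl

theorem piece_nsmul (m : ℕ) (a : M2 R) (x : P) : Θ (m • a) x = m • Θ a x := by
  induction m with
  | zero => rw [zero_smul, zero_smul, piece_zero]
  | succ m ih => rw [succ_nsmul, succ_nsmul, piece_add, ih]

theorem piece_natCast (c : ℕ) (a : M2 R) (x : P) : Θ ((c : R) • a) x = c • Θ a x := by
  rw [Nat.cast_smul_eq_nsmul, piece_nsmul]

variable {Θ r}

theorem Equivariant.sub_one (hΘ : Equivariant Θ r) (σ : G) (a : M2 R) (x : P) (f : F) :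
    (Θ (((r σ : M2 R) - 1) * a) x).1 f = σ • (Θ a x).1 f - (Θ a x).1 f := by
  rw [piece_mul, piece_sub, piece_one, AddSubgroup.coe_sub, AddMonoidHom.sub_apply, hΘ]

theorem Equivariant.sub_natCast (hΘ : Equivariant Θ r) (σ : G) (c : ℕ) (a : M2 R) (x : P) (f : F) :
    (Θ (((r σ : M2 R) - (c : R) • 1) * a) x).1 f = σ • (Θ a x).1 f - c • (Θ a x).1 f := by
  rw [piece_mul, piece_sub, piece_natCast, piece_one, AddSubgroup.coe_sub, AddMonoidHom.sub_apply,
    hΘ, AddSubgroup.coe_nsmul, AddMonoidHom.smul_apply]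

/-! ### The part killed by the reduction -/

/-- All entries in an ideal. -/
def EntriesIn (I : Ideal R) (g : M2 R) : Prop := ∀ i j, g i j ∈ I

theorem EntriesIn.add {I : Ideal R} {g h : M2 R} (hg : EntriesIn I g) (hh : EntriesIn I h) :
    EntriesIn I (g + h) := fun i j => add_mem (hg i j) (hh i j)

theorem EntriesIn.smul {I : Ideal R} {g : M2 R} (hg : EntriesIn I g) (t : R) :
    EntriesIn I (t • g) := fun i j => Ideal.mul_mem_left I t (hg i j)

theorem EntriesIn.mul_left {I : Ideal R} {g : M2 R} (hg : EntriesIn I g) (a : M2 R) :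
    EntriesIn I (a * g) := fun i j => by
  rw [Matrix.mul_apply]
  exact sum_mem fun k _ => Ideal.mul_mem_left I _ (hg k j)

theorem EntriesIn.mul {I J : Ideal R} {g h : M2 R} (hg : EntriesIn I g) (hh : EntriesIn J h) :
    EntriesIn (I * J) (g * h) := fun i j => by
  rw [Matrix.mul_apply]
  exact sum_mem fun k _ => Ideal.mul_mem_mul (hg i k) (hh k j)

variable (Θ) in
/-- The values of the translates by matrices with entries in an ideal. -/
def valsIn (Q : AddSubgroup P) (I : Ideal R) : AddSubgroup (J) :=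
  AddSubgroup.closure {v | ∃ g, EntriesIn I g ∧ ∃ x ∈ Q, ∃ f, v = (Θ g x).1 f}

theorem smul_mem_valsIn (hΘ : Equivariant Θ r) {Q : AddSubgroup P} {I : Ideal R} (σ : G)
    {v : J} (hv : v ∈ valsIn Θ Q I) : σ • v ∈ valsIn Θ Q I := by
  induction hv using AddSubgroup.closure_induction with
  | mem v hv =>
    obtain ⟨g, hg, x, hx, f, rfl⟩ := hv
    refine AddSubgroup.subset_closure ⟨(r σ : M2 R) * g, hg.mul_left _, x, hx, f, ?_⟩
    rw [piece_mul, hΘ]
  | zero => rw [smul_zero]; exact zero_mem _
  | add a b _ _ iha ihb => rw [smul_add]; exact add_mem iha ihb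
  | neg a _ iha => rw [smul_neg]; exact neg_mem iha

variable [IsLocalRing R] {p : ℕ} [Fact p.Prime]

/-- **A stable part which reduces to zero vanishes.** -/
theorem eq_zero_of_reduction (hΘ : Equivariant Θ r)
    (hspan : Submodule.span R (Set.range fun σ => (r σ : M2 R)) = ⊤)
    {I₀ : Subgroup G} {J' : Type*} [AddCommGroup J'] (red : J →+ J') {m : ℕ}
    (hkill : ∀ f : F, (p ^ m) • f = 0)
    (hconn : ∀ K L : AddSubgroup J, (∀ x ∈ K, p ^ m • x = 0) → (∀ σ : G, ∀ x ∈ K, σ • x ∈ K) →
      (∀ x ∈ K, red x = 0) → L ≤ K → (∀ σ ∈ I₀, ∀ x ∈ L, σ • x ∈ L) →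
      (∀ σ ∈ I₀, ∀ x ∈ K, σ • x - x ∈ L) → K ≤ L)
    (hnil : ∃ k : ℕ, maximalIdeal R ^ k ≤ Ideal.span {(p : R) ^ m})
    (σ₀ : G) (c : ℕ)
    (hB : ∀ σ ∈ I₀,
      EntriesIn (maximalIdeal R) (((r σ₀ : M2 R) - (c : R) • 1) * ((r σ : M2 R) - 1)))
    (hunit : ∃ i j, IsUnit (((r σ₀ : M2 R) - (c : R) • 1) i j))
    {Q : AddSubgroup P} (hQ : ∀ g, ∀ x ∈ Q, Θ g x ∈ Q)
    (hred : ∀ x ∈ Q, ∀ f, red (x.1 f) = 0)
    {x : P} (hx : x ∈ Q) : x = 0 := by
  set B : M2 R := (r σ₀ : M2 R) - (c : R) • 1
  have hval : ∀ (x : P) (f : F), (p ^ m) • x.1 f = 0 := fun x f => by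
    rw [← map_nsmul, hkill, map_zero]
  have step : ∀ I : Ideal R, valsIn Θ Q I ≤ valsIn Θ Q (maximalIdeal R * I) := by
    intro I
    let L : AddSubgroup (J) := AddSubgroup.closure
      {v | ∃ σ ∈ I₀, ∃ g, EntriesIn I g ∧ ∃ x ∈ Q, ∃ f,
        v = (Θ (((r σ : M2 R) - 1) * g) x).1 f}
    have hL1 : L ≤ valsIn Θ Q I := (AddSubgroup.closure_le _).2 fun v hv => by
      obtain ⟨σ, -, g, hg, x, hx, f, rfl⟩ := hv
      exact AddSubgroup.subset_closure ⟨_, hg.mul_left _, x, hx, f, rfl⟩
    have hK : valsIn Θ Q I ≤ L := by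
      refine hconn _ _ ?_
        (fun σ v hv => smul_mem_valsIn hΘ σ hv) ?_ hL1 ?_ ?_
      · intro v hv
        induction hv using AddSubgroup.closure_induction with
        | mem v hv => obtain ⟨g, -, x, -, f, rfl⟩ := hv; exact hval _ f
        | zero => exact smul_zero _
        | add a b _ _ iha ihb => rw [smul_add, iha, ihb, add_zero]
        | neg a _ iha => rw [smul_neg, iha, neg_zero]
      · intro v hv
        induction hv using AddSubgroup.closure_induction with
        | mem v hv => obtain ⟨g, -, x, hx, f, rfl⟩ := hv; exact hred _ (hQ g x hx) f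
        | zero => exact map_zero _
        | add a b _ _ iha ihb => rw [map_add, iha, ihb, add_zero]
        | neg a _ iha => rw [map_neg, iha, neg_zero]
      · intro τ hτ v hv
        induction hv using AddSubgroup.closure_induction with
        | mem v hv =>
          obtain ⟨σ, hσ, g, hg, x, hx, f, rfl⟩ := hv
          have e : τ • (Θ (((r σ : M2 R) - 1) * g) x).1 f =
              (Θ (((r (τ * σ) : M2 R) - 1) * g) x).1 f -
                (Θ (((r τ : M2 R) - 1) * g) x).1 f := by
            rw [hΘ.sub_one, hΘ.sub_one, hΘ.sub_one, smul_sub, mul_smul]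
            abel
          rw [e]
          exact sub_mem (AddSubgroup.subset_closure ⟨_, mul_mem hτ hσ, g, hg, x, hx, f, rfl⟩)
            (AddSubgroup.subset_closure ⟨τ, hτ, g, hg, x, hx, f, rfl⟩)
        | zero => rw [smul_zero]; exact zero_mem _
        | add a b _ _ iha ihb => rw [smul_add]; exact add_mem iha ihb
        | neg a _ iha => rw [smul_neg]; exact neg_mem iha
      · intro τ hτ v hv
        induction hv using AddSubgroup.closure_induction with
        | mem v hv =>
          obtain ⟨g, hg, x, hx, f, rfl⟩ := hv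
          rw [← hΘ.sub_one]
          exact AddSubgroup.subset_closure ⟨τ, hτ, g, hg, x, hx, f, rfl⟩
        | zero => rw [smul_zero, sub_zero]; exact zero_mem _
        | add a b _ _ iha ihb => rw [smul_add, add_sub_add_comm]; exact add_mem iha ihb
        | neg a _ iha => rw [smul_neg, neg_sub_neg, ← neg_sub]; exact neg_mem iha
    have hB' : ∀ v ∈ valsIn Θ Q I, σ₀ • v - c • v ∈ valsIn Θ Q (maximalIdeal R * I) := by
      intro v hv
      have hv' := hK hv
      clear hv
      induction hv' using AddSubgroup.closure_induction with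
      | mem v hv =>
        obtain ⟨σ, hσ, g, hg, x, hx, f, rfl⟩ := hv
        rw [← hΘ.sub_natCast]
        exact AddSubgroup.subset_closure
          ⟨_, (mul_assoc B _ g) ▸ (hB σ hσ).mul hg, x, hx, f, rfl⟩
      | zero => rw [smul_zero, smul_zero, sub_zero]; exact zero_mem _
      | add a b _ _ iha ihb => rw [smul_add, smul_add, add_sub_add_comm]; exact add_mem iha ihb
      | neg a _ iha => rw [smul_neg, smul_neg, neg_sub_neg, ← neg_sub]; exact neg_mem iha
    refine (AddSubgroup.closure_le _).2 fun v hv => ?_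
    obtain ⟨g, hg, x, hx, f, rfl⟩ := hv
    obtain ⟨i, j, hu⟩ := hunit
    have h1 := two_sided_induction B hu
      (C := fun a => ∀ g, EntriesIn I g → ∀ x ∈ Q, ∀ f,
        (Θ (a * g) x).1 f ∈ valsIn Θ Q (maximalIdeal R * I))
      (fun a b ha hb g hg x hx f => by
        rw [add_mul, piece_add, AddSubgroup.coe_add, AddMonoidHom.add_apply]
        exact add_mem (ha g hg x hx f) (hb g hg x hx f))
      (fun a b => by
        have ha : a ∈ Submodule.span R (Set.range fun σ => (r σ : M2 R)) := hspan ▸ trivial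
        induction ha using Submodule.span_induction with
        | mem a ha =>
          obtain ⟨σ, rfl⟩ := ha
          intro g hg x hx f
          rw [mul_assoc, mul_assoc, piece_mul, hΘ]
          refine smul_mem_valsIn hΘ σ ?_
          rw [hΘ.sub_natCast]
          exact hB' _ (AddSubgroup.subset_closure ⟨_, hg.mul_left b, x, hx, f, rfl⟩)
        | zero =>
          intro g _ x _ f
          rw [zero_mul, zero_mul, zero_mul, piece_zero]
          exact zero_mem _
        | add a a' _ _ iha iha' =>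
          intro g hg x hx f
          rw [add_mul, add_mul, add_mul, piece_add, AddSubgroup.coe_add, AddMonoidHom.add_apply]
          exact add_mem (iha g hg x hx f) (iha' g hg x hx f)
        | smul t a _ iha =>
          intro g hg x hx f
          rw [show t • a * B * b * g = a * B * b * (t • g) by
            rw [Matrix.smul_mul, Matrix.smul_mul, Matrix.smul_mul, Matrix.mul_smul]]
          exact iha _ (hg.smul t) x hx f)
      g hg x hx f
    rwa [one_mul] at h1
  have hpow : ∀ k, valsIn Θ Q ⊤ ≤ valsIn Θ Q (maximalIdeal R ^ k) := by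
    intro k
    induction k with
    | zero => rw [pow_zero, Ideal.one_eq_top]
    | succ k ih => rw [pow_succ']; exact ih.trans (step _)
  obtain ⟨k, hk⟩ := hnil
  refine Subtype.ext (AddMonoidHom.ext fun f => ?_)
  have hzero : ∀ v ∈ valsIn Θ Q (maximalIdeal R ^ k), v = 0 := by
    intro v hv
    induction hv using AddSubgroup.closure_induction with
    | mem v hv =>
      obtain ⟨g, hg, y, -, f', rfl⟩ := hv
      choose g' hg' using fun i j => Ideal.mem_span_singleton'.1 (hk (hg i j))
      have e : g = (p ^ m) • Matrix.of g' := by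
        ext i j
        rw [Matrix.smul_apply, Matrix.of_apply, nsmul_eq_mul, ← hg' i j, Nat.cast_pow, mul_comm]
      rw [e, piece_nsmul, AddSubgroup.coe_nsmul, AddMonoidHom.smul_apply, hval]
    | zero => rfl
    | add a b _ _ iha ihb => rw [iha, ihb, add_zero]
    | neg a _ iha => rw [iha, neg_zero]
  exact hzero _ (hpow k (AddSubgroup.subset_closure
    ⟨1, fun _ _ => trivial, x, hx, f, by rw [piece_one]⟩))

end Piece

/-! ### The part killed by both push forwards -/

section Deep

variable {p : ℕ} [Fact p.Prime] {G : Type*} [Group G] {J : Type*} [AddCommGroup J]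
  [DistribMulAction G J] {F : Type*} [AddCommGroup F] {P : AddSubgroup (F →+ J)}
  {Θ : M2 R →+* AddMonoid.End P} {r : G →* GL (Fin 2) R} {J₁ J₂ : Type*} [AddCommGroup J₁]
  [AddCommGroup J₂] {π₁ : J →+ J₁} {π₂ : J →+ J₂}

/-- Both push forwards of all values of all translates vanish. -/
def PushKilled (π₁ : J →+ J₁) (π₂ : J →+ J₂) (Θ : M2 R →+* AddMonoid.End P) (x : P) : Prop :=
  ∀ g f, π₁ ((Θ g x).1 f) = 0 ∧ π₂ ((Θ g x).1 f) = 0

theorem PushKilled.act {x : P} (hx : PushKilled π₁ π₂ Θ x) (a : M2 R) :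
    PushKilled π₁ π₂ Θ (Θ a x) := fun g f => by
  rw [← piece_mul]
  exact hx _ f

/-- **The square of the root is one.** -/
theorem root_sq_eq_one (hΘ : Equivariant Θ r) {a : ℕ} (hkill : ∀ f : F, (p ^ (a + 1)) • f = 0)
    (deep : ℕ → AddSubgroup J) {I₀ : Subgroup G}
    (hinertia : ∀ σ ∈ I₀, ∀ v : J, (p ^ (a + 1)) • v = 0 → σ • v - v ∈ deep (p ^ (a + 1)))
    (hprime : ∀ v ∈ deep (p ^ (a + 1)), p • v = 0 → v ∈ deep p)
    {σ₀ : G} (hσ₀ : σ₀ ∈ I₀) {c : ℕ}
    (hscalar : ∀ v ∈ deep p, π₁ v = 0 → π₂ v = 0 → σ₀ • v = c • v)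
    (hunit : ∃ i j, IsUnit (((r σ₀ : M2 R) - (c : R) • 1) i j))
    {φ : G} (hfrob : ∀ v : J, (p ^ (a + 1)) • v = 0 → π₁ v = 0 → π₂ v = 0 →
      φ • φ • v - v ∈ deep (p ^ (a + 1)))
    {z d : R} (hd : IsUnit (d - 1))
    (hz : ((r σ₀ : M2 R) - d • 1) * ((r φ : M2 R) - z • 1) = 0)
    {x : P} (hx : PushKilled π₁ π₂ Θ x) : Θ ((z ^ 2 - 1) • 1) x = 0 := by
  have hval : ∀ (x : P) (f : F), (p ^ (a + 1)) • x.1 f = 0 := fun x f => by
    rw [← map_nsmul, hkill, map_zero]
  obtain ⟨Z, hZ⟩ := exists_sub_one_mul hd hz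
  set w : M2 R := (z ^ 2 - 1) • 1 with hw
  have hdeep : ∀ x, PushKilled π₁ π₂ Θ x → ∀ f,
      (Θ w x).1 f ∈ deep (p ^ (a + 1)) := by
    intro x hx f
    have e : w = ((r φ : M2 R) * (r φ : M2 R) - 1) -
        ((r σ₀ : M2 R) - 1) * (Z * ((r φ : M2 R) + z • 1)) := by
      rw [← mul_assoc, ← hZ, hw]
      simp only [sub_mul, mul_add, Matrix.smul_mul, Matrix.mul_smul, one_mul, mul_one, smul_smul,
        sub_smul, one_smul]
      rw [sq]
      abel
    rw [e, piece_sub, piece_sub, piece_mul, piece_one, AddSubgroup.coe_sub, AddSubgroup.coe_sub,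
      AddMonoidHom.sub_apply, AddMonoidHom.sub_apply, hΘ, hΘ, hΘ.sub_one]
    have h1 := hx 1 f
    rw [piece_one] at h1
    exact sub_mem (hfrob _ (hval x f) h1.1 h1.2)
      (hinertia σ₀ hσ₀ _ (hval _ f))
  have hone : ∀ x, PushKilled π₁ π₂ Θ x → p • Θ w x = 0 → Θ w x = 0 := by
    intro x hx hpx
    obtain ⟨i, j, hu⟩ := hunit
    have hcomm : ∀ g : M2 R, g * w = w * g := fun g => by
      rw [hw, Matrix.smul_mul, Matrix.mul_smul, one_mul, mul_one]
    have hval0 : ∀ g f, (Θ (((r σ₀ : M2 R) - (c : R) • 1) * g) (Θ w x)).1 f = 0 := by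
      intro g f
      rw [hΘ.sub_natCast, sub_eq_zero]
      have hy : Θ g (Θ w x) = Θ w (Θ g x) := by rw [← piece_mul, ← piece_mul, hcomm]
      have hpy : p • (Θ g (Θ w x)).1 f = 0 := by
        rw [← AddMonoidHom.smul_apply, ← AddSubgroup.coe_nsmul, ← map_nsmul, hpx, map_zero]
        rfl
      have hdp : (Θ g (Θ w x)).1 f ∈ deep p :=
        hprime _ (hy ▸ hdeep _ (hx.act g) f) hpy
      exact hscalar _ hdp ((hx.act w) g f).1 ((hx.act w) g f).2
    have h1 := two_sided_induction ((r σ₀ : M2 R) - (c : R) • 1) hu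
      (C := fun g => Θ g (Θ w x) = 0)
      (fun a b ha hb => by rw [piece_add, ha, hb, add_zero])
      (fun a b => by
        rw [mul_assoc, piece_mul]
        refine (congrArg (Θ a) ?_).trans (map_zero _)
        exact Subtype.ext (AddMonoidHom.ext fun f => hval0 b f))
    rwa [piece_one] at h1
  have hall : ∀ k, ∀ x, PushKilled π₁ π₂ Θ x → (p ^ k) • Θ w x = 0 → Θ w x = 0 := by
    intro k
    induction k with
    | zero => exact fun x _ h => by rwa [pow_zero, one_smul] at h
    | succ k ih =>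
      intro x hx h
      refine ih x hx ?_
      have hx' : PushKilled π₁ π₂ Θ ((p ^ k) • x) := fun g f => by
        rw [map_nsmul, AddSubgroup.coe_nsmul, AddMonoidHom.smul_apply, map_nsmul, map_nsmul,
          (hx g f).1, (hx g f).2, smul_zero, smul_zero]
        exact ⟨rfl, rfl⟩
      rw [← map_nsmul]
      refine hone _ hx' ?_
      rw [map_nsmul, smul_smul, ← pow_succ', h]
  exact hall (a + 1) x hx (Subtype.ext (AddMonoidHom.ext fun f => by
    rw [AddSubgroup.coe_nsmul, AddMonoidHom.smul_apply, hval]; rfl))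

end Deep

end FLTAgent.ModLift.Push
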