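import Fermat.Agent.ModLift.Degen.Push.Piece
import Fermat.Agent.ModLift.Degen.Push.Algebra
import Fermat.Agent.Ordinary.Main

/-!
# Inertia at `p` in the representation of the twisted traces

When residual inertia moves vectors only along a line an element of inertia moving the roots of
unity gives the matrices needed on the pieces, and the root of Frobenius passes down along maps of
traces.
-/

set_option autoImplicit false
set_option linter.unusedSectionVars false
set_option linter.style.haveILetI false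

noncomputable section

set_option synthInstance.maxHeartbeats 400000
set_option maxHeartbeats 1000000

open IsLocalRing

namespace FLTAgent.ModLift

open FLTAgent.Lowering

local notation "LL" => AlgebraicClosure ℚ
local notation "GG" => (AlgebraicClosure ℚ ≃ₐ[ℚ] AlgebraicClosure ℚ)
local notation "M2" => Matrix (Fin 2) (Fin 2)

namespace Push

/-- A matrix of determinant not one moving vectors only along a line kills it after subtracting its
determinant, and is not the scalar of that determinant. -/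
theorem sub_det_mulVec {k : Type} [Field k] (M : M2 k) (v : Fin 2 → k)
    (hM : ∀ w, ∃ a : k, M.mulVec w = w + a • v) (h1 : M.det ≠ 1) (h0 : M.det ≠ 0) :
    (M - M.det • 1).mulVec v = 0 ∧ M - M.det • 1 ≠ 0 := by
  have hN : ∀ w, ∃ a : k, (M - 1).mulVec w = a • v := fun w => by
    obtain ⟨a, ha⟩ := hM w
    exact ⟨a, by rw [Matrix.sub_mulVec, Matrix.one_mulVec, ha, add_sub_cancel_left]⟩
  have hd : (M - 1).det = 0 := by
    obtain ⟨a, ha⟩ := hN ![1, 0]
    obtain ⟨b, hb⟩ := hN ![0, 1]
    have e0 := congrFun ha 0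
    have e1 := congrFun ha 1
    have e2 := congrFun hb 0
    have e3 := congrFun hb 1
    simp [Matrix.mulVec, dotProduct, Fin.sum_univ_two] at e0 e1 e2 e3
    rw [Matrix.det_fin_two]
    simp [e0, e1, e2, e3]
    ring
  have htr : M 0 0 + M 1 1 = 1 + M.det := by
    rw [Matrix.det_fin_two] at hd ⊢
    simp at hd
    linear_combination -hd
  have hCH : (M - M.det • 1) * (M - 1) = 0 := by
    have hdet : M.det = M 0 0 * M 1 1 - M 0 1 * M 1 0 := Matrix.det_fin_two M
    ext i j
    fin_cases i <;> fin_cases j <;> simp [Matrix.mul_apply, Fin.sum_univ_two]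
    · linear_combination M 0 0 * htr + hdet
    · linear_combination M 0 1 * htr
    · linear_combination M 1 0 * htr
    · linear_combination M 1 1 * htr + hdet
  refine ⟨?_, fun h => h1 ?_⟩
  · have hne : M - 1 ≠ 0 := fun h => h1 (by rw [sub_eq_zero.1 h, Matrix.det_one])
    obtain ⟨w, hw⟩ : ∃ w, (M - 1).mulVec w ≠ 0 := by
      by_contra hcon
      push Not at hcon
      exact hne (Matrix.ext_of_mulVec_single fun i => by rw [hcon, Matrix.zero_mulVec])
    obtain ⟨a, ha⟩ := hN w
    have ha0 : a ≠ 0 := fun h => hw (by rw [ha, h, zero_smul])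
    have h2 := congrArg (fun N => N.mulVec w) hCH
    simp only [← Matrix.mulVec_mulVec, ha, Matrix.mulVec_smul, Matrix.zero_mulVec] at h2
    exact (smul_eq_zero.1 h2).resolve_left ha0
  · have e := congrArg Matrix.det (sub_eq_zero.1 h)
    rw [Matrix.det_smul, Matrix.det_one, mul_one, Fintype.card_fin, sq] at e
    exact (mul_right_eq_self₀.1 e.symm).resolve_right h0

/-- A matrix with all traces against a spanning family zero vanishes. -/
theorem eq_zero_of_trace {R : Type} [CommRing R] {ι : Type*} (r : ι → M2 R)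
    (hspan : Submodule.span R (Set.range r) = ⊤) (N : M2 R)
    (h : ∀ i, (N * r i).trace = 0) : N = 0 := by
  ext i j
  have hb : Matrix.single j i (1 : R) ∈ Submodule.span R (Set.range r) := hspan ▸ trivial
  have key : ∀ b ∈ Submodule.span R (Set.range r), (N * b).trace = 0 := by
    intro b hb
    induction hb using Submodule.span_induction with
    | mem b hb => obtain ⟨i, rfl⟩ := hb; exact h i
    | zero => rw [mul_zero, Matrix.trace_zero]
    | add a b _ _ iha ihb => rw [mul_add, Matrix.trace_add, iha, ihb, add_zero]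
    | smul t a _ iha => rw [Matrix.mul_smul, Matrix.trace_smul, iha, smul_zero]
  have := key _ hb
  rw [Matrix.trace_fin_two] at this
  fin_cases i <;> fin_cases j <;>
    simpa [Matrix.mul_apply, Fin.sum_univ_two, Matrix.single] using this

/-- The equation of the root passes along maps carrying traces and determinants. -/
theorem root_map {R R' : Type} [CommRing R] [CommRing R'] {G : Type} [Group G]
    (r : G →* GL (Fin 2) R) (r' : G →* GL (Fin 2) R') (f : R →+* R')
    (htr : ∀ g, f (trGL (r g)) = trGL (r' g))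
    (hspan : Submodule.span R' (Set.range fun g => (r' g : M2 R')) = ⊤) {σ φ : G} {d z : R}
    (h : ((r σ : M2 R) - d • 1) * ((r φ : M2 R) - z • 1) = 0) :
    ((r' σ : M2 R') - f d • 1) * ((r' φ : M2 R') - f z • 1) = 0 := by
  refine eq_zero_of_trace _ hspan _ fun g => ?_
  have e : ∀ {A : Type} [CommRing A] (q : G →* GL (Fin 2) A) (d z : A),
      ((((q σ : M2 A) - d • 1) * ((q φ : M2 A) - z • 1)) * (q g : M2 A)).trace =
        trGL (q (σ * φ * g)) - z * trGL (q (σ * g)) - d * trGL (q (φ * g)) +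
          d * z * trGL (q g) := by
    intro A _ q d z
    simp only [trGL, map_mul, Units.val_mul, sub_mul, mul_sub, Matrix.smul_mul, Matrix.mul_smul,
      one_mul, mul_one, Matrix.trace_sub, Matrix.trace_smul, smul_eq_mul, smul_smul]
    ring
  rw [e r' (f d) (f z), ← htr, ← htr, ← htr, ← htr, ← map_mul, ← map_mul, ← map_mul, ← map_mul,
    ← map_sub, ← map_sub, ← map_add, ← e r d z, h, zero_mul, Matrix.trace_zero, map_zero]

end Push

namespace Aux

variable {p : ℕ} [Fact p.Prime] {O : Type} [CommRing O] [IsDomain O] [IsDiscreteValuationRing O]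
  [Algebra ℤ_[p] O] [Module.Finite ℤ_[p] O] [CharZero O] {S : Setup p O} (Y : Aux S)

/-- The representation of a level. -/
def repY : GG →* GL (Fin 2) Y.TR := (Y.pseudo_spec Y.geometry).rep

theorem repY_span : Submodule.span Y.TR (Set.range fun σ => (Y.repY σ : M2 Y.TR)) = ⊤ := by
  haveI := Y.isLocalRing_TR
  have hP := Y.pseudo_spec Y.geometry
  exact Deformation.span_range_eq_top (exists_residual_conj Y.redTR
    ((Units.coeHom _).comp S.rb) (span_of_commutator S.rb S.rb_big)
    ((Units.coeHom (M2 Y.TR)).comp hP.rep)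
    fun σ => show Y.redTR (trGL (hP.rep σ)) = _ by rw [hP.tr_rep, hP.residual]; rfl).1

/-- A power of the maximal ideal of the traces lies in a given power of `p`. -/
theorem exists_maximal_pow_le [IsLocalRing Y.TR] (n : ℕ) :
    ∃ k : ℕ, maximalIdeal Y.TR ^ k ≤ Ideal.span {(p : Y.TR) ^ n} := by
  haveI := Y.finite_TR
  haveI : Module.Finite ℤ_[p] Y.TR := Module.Finite.trans O Y.TR
  set I : Ideal Y.TR := Ideal.span {(p : Y.TR) ^ n}
  haveI : Finite (Y.TR ⧸ I) := by
    obtain ⟨s, hs⟩ := (inferInstance : Module.Finite ℤ_[p] Y.TR).fg_top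
    haveI : NeZero (p ^ n) := ⟨pow_ne_zero _ (Fact.out : p.Prime).ne_zero⟩
    let f : (↥s → ZMod (p ^ n)) → Y.TR ⧸ I := fun c =>
      ∑ i, Ideal.Quotient.mk I (((c i).val : ℕ) * (i : Y.TR))
    refine Finite.of_surjective f fun x => ?_
    obtain ⟨y, rfl⟩ := Ideal.Quotient.mk_surjective x
    obtain ⟨c, hc⟩ := Submodule.mem_span_finset'.1 (hs ▸ Submodule.mem_top (x := y))
    refine ⟨fun i => PadicInt.toZModPow n (c i), ?_⟩
    rw [← hc, map_sum]
    refine Finset.sum_congr rfl fun i _ => (Ideal.Quotient.mk_eq_mk_iff_sub_mem _ _).2 ?_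
    obtain ⟨u, hu⟩ : (p : ℤ_[p]) ^ n ∣
        c i - ((PadicInt.toZModPow n (c i)).val : ℕ) := by
      rw [← Ideal.mem_span_singleton, ← PadicInt.ker_toZModPow, RingHom.mem_ker, map_sub,
        map_natCast, ZMod.natCast_zmod_val, sub_self]
    rw [Ideal.mem_span_singleton, Algebra.smul_def, ← sub_mul]
    refine Dvd.dvd.mul_right ?_ _
    have h5 := map_dvd (algebraMap ℤ_[p] Y.TR) (Dvd.intro u hu.symm)
    rw [map_pow, map_natCast, map_sub, map_natCast] at h5
    first | exact h5 | exact dvd_sub_comm.1 h5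
  haveI : IsArtinianRing (Y.TR ⧸ I) := inferInstance
  obtain ⟨k, hk⟩ := IsArtinianRing.isNilpotent_jacobson_bot (R := Y.TR ⧸ I)
  refine ⟨k, fun x hx => ?_⟩
  rw [← Ideal.Quotient.eq_zero_iff_mem]
  have hle : (maximalIdeal Y.TR).map (Ideal.Quotient.mk I) ≤
      (⊥ : Ideal (Y.TR ⧸ I)).jacobson := by
    refine le_sInf fun J ⟨_, hJ⟩ => ?_
    haveI := hJ
    haveI := Ideal.comap_isMaximal_of_surjective (Ideal.Quotient.mk I) Ideal.Quotient.mk_surjective
      (K := J)
    rw [Ideal.map_le_iff_le_comap,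
      IsLocalRing.eq_maximalIdeal (I := J.comap (Ideal.Quotient.mk I)) inferInstance]
  have hpow : ∀ j : ℕ, maximalIdeal Y.TR ^ j ≤
      ((⊥ : Ideal (Y.TR ⧸ I)).jacobson ^ j).comap (Ideal.Quotient.mk I) := by
    intro j
    induction j with
    | zero => intro y _; rw [Submodule.pow_zero, Ideal.one_eq_top]; trivial
    | succ j ih =>
      rw [Submodule.pow_succ, Submodule.pow_succ, Ideal.mul_le]
      intro a ha b hb
      rw [Ideal.mem_comap, map_mul]
      exact Ideal.mul_mem_mul (ih ha) (hle (Ideal.mem_map_of_mem _ hb))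
  have h3 : Ideal.Quotient.mk I x ∈ (⊥ : Ideal (Y.TR ⧸ I)).jacobson ^ k := hpow k hx
  rwa [hk, Ideal.zero_eq_bot, Ideal.mem_bot] at h3

/-- An element of inertia with the matrices needed on the pieces. -/
theorem exists_inertia_data [IsLocalRing Y.TR] {V : ValuationSubring LL} (hV : V.LiesOverPrime p)
    {v : Fin 2 → ResidueField O}
    (hv : ∀ σ ∈ V.inertiaSubgroupIn ℚ, ∀ w, ∃ a : ResidueField O,
      (S.rb σ : M2 (ResidueField O)).mulVec w = w + a • v) :
    ∃ σ₀ ∈ V.inertiaSubgroupIn ℚ, ∃ c : ℕ, c < p ∧ DetCyclo.CycloExponent p 1 σ₀ c ∧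
      IsUnit ((Y.repY σ₀ : M2 Y.TR).det - 1) ∧
      (∃ i j, IsUnit (((Y.repY σ₀ : M2 Y.TR) - (c : Y.TR) • 1) i j)) ∧
      ∀ σ ∈ V.inertiaSubgroupIn ℚ, Push.EntriesIn (maximalIdeal Y.TR)
        (((Y.repY σ₀ : M2 Y.TR) - (c : Y.TR) • 1) * ((Y.repY σ : M2 Y.TR) - 1)) := by
  have hp : p.Prime := Fact.out
  have hp3 : 3 ≤ p := by
    have := hp.two_le
    have := S.p_ne
    omega
  obtain ⟨ζ, hζ⟩ := DetCyclo.exists_primitive_root_pow p 1
  rw [pow_one] at hζ
  obtain ⟨σ₀, hσ₀, hmove⟩ := Ordinary.exists_inertia_move_odd hp3 hV hζ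
  obtain ⟨c₀, hc₀⟩ := DetCyclo.exists_cycloExponent (p := p) 1 σ₀
  set c := c₀ % p
  have hc : DetCyclo.CycloExponent p 1 σ₀ c := fun η hη => by
    rw [hc₀ η hη]
    rw [pow_one] at hη
    exact pow_eq_pow_mod _ hη
  have hc1 : c ≠ 1 := fun h => hmove (by rw [hc ζ (by rw [pow_one]; exact hζ.pow_eq_one), h, pow_one])
  haveI : CharP (ResidueField O) p := charP_residue
  have hk1 : (c : ResidueField O) ≠ 1 := fun h => hc1 (by
    have := (CharP.natCast_eq_natCast (ResidueField O) p).1 (h.trans Nat.cast_one.symm)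
    exact this.eq_of_lt_of_lt (Nat.mod_lt _ hp.pos) hp.one_lt)
  have hP := Y.pseudo_spec Y.geometry
  set M : M2 (ResidueField O) := (S.rb σ₀ : M2 (ResidueField O))
  have hdetM : M.det = (c : ResidueField O) := S.rb_det σ₀ c hc
  have hk0 : (c : ResidueField O) ≠ 0 := by
    rw [← hdetM]
    exact ((Matrix.isUnit_iff_isUnit_det _).1 (S.rb σ₀).isUnit).ne_zero
  obtain ⟨hkill, hne⟩ := Push.sub_det_mulVec M v (hv σ₀ hσ₀) (hdetM ▸ hk1) (hdetM ▸ hk0)
  rw [hdetM] at hkill hne
  obtain ⟨-, P, hP1, hP2⟩ := exists_residual_conj Y.redTR ((Units.coeHom _).comp S.rb)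
    (span_of_commutator S.rb S.rb_big) ((Units.coeHom (M2 Y.TR)).comp hP.rep)
    fun σ => show Y.redTR (trGL (hP.rep σ)) = _ by rw [hP.tr_rep, hP.residual]; rfl
  let q : M2 Y.TR →+* M2 (ResidueField O) := Y.redTR.toRingHom.mapMatrix
  have hq : ∀ σ, q (Y.repY σ : M2 Y.TR) * P = P * (S.rb σ : M2 (ResidueField O)) := fun σ =>
    (hP2 σ).symm
  have hqc : q ((c : Y.TR) • 1) = (c : ResidueField O) • 1 := by
    rw [Nat.cast_smul_eq_nsmul, Nat.cast_smul_eq_nsmul, map_nsmul, map_one]
  have hqB : q ((Y.repY σ₀ : M2 Y.TR) - (c : Y.TR) • 1) * P =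
      P * (M - (c : ResidueField O) • 1) := by
    rw [map_sub, sub_mul, mul_sub, hq, hqc, Matrix.smul_mul, one_mul, Matrix.mul_smul, mul_one]
  refine ⟨σ₀, hσ₀, c, Nat.mod_lt _ hp.pos, hc, Y.isUnit_of_redTR ?_, ?_, fun σ hσ i j => ?_⟩
  · rw [map_sub, map_one, sub_ne_zero]
    have : Y.redTR (Y.repY σ₀ : M2 Y.TR).det = (c : ResidueField O) := by
      show Y.redTR (detGL (hP.rep σ₀)) = _
      rw [hP.det_rep, hP.det_eq, Y.redTR_cycT, S.rb_det σ₀ c hc]
    rwa [this]
  · by_contra hall
    push Not at hall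
    refine hne (hP1.mul_right_eq_zero.1 ?_)
    rw [← hqB, show q ((Y.repY σ₀ : M2 Y.TR) - (c : Y.TR) • 1) = 0 from Matrix.ext fun i j =>
      (red_eq_zero Y.redTR _).2 ((IsLocalRing.mem_maximalIdeal _).2 (hall i j)), zero_mul]
  · refine (red_eq_zero Y.redTR _).1 ?_
    have hz : (M - (c : ResidueField O) • 1) * ((S.rb σ : M2 (ResidueField O)) - 1) = 0 :=
      Matrix.ext_of_mulVec_single fun l => by
        obtain ⟨a, ha⟩ := hv σ hσ (Pi.single l 1)
        rw [← Matrix.mulVec_mulVec, Matrix.sub_mulVec (S.rb σ : M2 (ResidueField O)), Matrix.one_mulVec,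
          ha, add_sub_cancel_left, Matrix.mulVec_smul, hkill, smul_zero, Matrix.zero_mulVec]
    have h0 : q (((Y.repY σ₀ : M2 Y.TR) - (c : Y.TR) • 1) * ((Y.repY σ : M2 Y.TR) - 1)) * P = 0 := by
      rw [map_mul, mul_assoc, map_sub q (Y.repY σ : M2 Y.TR), map_one, sub_mul, one_mul, hq,
        ← mul_sub_one, ← mul_assoc, hqB, mul_assoc, hz, mul_zero]
    exact congrFun (congrFun (hP1.mul_left_eq_zero.1 h0) i) j

end Aux

end FLTAgent.ModLift
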