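import Fermat.Agent.ModLift.Degen.Push.Vec
import Fermat.Agent.ModLift.Degen.Push.Residual
import Fermat.Agent.ModLift.Degen.Push.Separate

/-!
# The pieces of descended classes

A descended module gives functionals valued in the torsion of the Jacobian, with the action of all
matrices on the group spanned by their translates; an element all of whose functionals vanish is
zero.
-/

set_option autoImplicit false
set_option linter.unusedSectionVars false
set_option linter.style.haveILetI false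

noncomputable section

set_option synthInstance.maxHeartbeats 400000
set_option maxHeartbeats 1000000

open IsLocalRing CongruenceSubgroup FLTAgent.PeriodHecke
open scoped MatrixGroups

namespace FLTAgent.ModLift.Aux

open FLTAgent.Lowering
open ModularCurve (JZero heckeOperatorBar)

local notation "GG" => (AlgebraicClosure ℚ ≃ₐ[ℚ] AlgebraicClosure ℚ)
local notation "M2" => Matrix (Fin 2) (Fin 2)

variable {p : ℕ} [Fact p.Prime] {O : Type} [CommRing O] [IsDomain O] [IsDiscreteValuationRing O]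
  [Algebra ℤ_[p] O] [Module.Finite ℤ_[p] O] [CharZero O] {S : Setup p O} (Y : Aux S) {e : Bool}
  {N : ℕ} [NeZero N]

/-- The functionals of descended classes. -/
def funOf (Φ : Y.Mod e →+ Hpar (Gamma0 N) Y.Coef) (n : ℕ) : Y.Mod e →+ Y.FunJ N n :=
  haveI : NeZero (p ^ n) := ⟨pow_ne_zero _ (Fact.out : p.Prime).ne_zero⟩
  (Push.vec N (p ^ n)).comp Φ

/-- The generators of the piece. -/
def pieceAt (Φ : Y.Mod e →+ Hpar (Gamma0 N) Y.Coef) (n : ℕ) (y : Y.Mod e) :
    Y.pieceOf (Y.funOf Φ n) :=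
  ⟨Y.funOf Φ n y, AddSubgroup.subset_closure
    ⟨(1, y), AddMonoidHom.ext fun f => one_smul GG (Y.funOf Φ n y f)⟩⟩

/-- An element with vanishing functionals is zero. -/
theorem eq_zero_of_funOf {Φ : Y.Mod e →+ Hpar (Gamma0 N) Y.Coef} (hinj : Function.Injective Φ)
    (y : Y.Mod e) (h : ∀ n, Y.funOf Φ n y = 0) : y = 0 := by
  haveI := Y.finite_coef
  refine (map_eq_zero_iff Φ hinj).1 (Subtype.ext (AddMonoidHom.ext fun γ =>
    Push.eq_zero_of_forall_zmod (p := p) Y.coef_eq_zero_of_nsmul _ fun n f => ?_))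
  haveI : NeZero (p ^ n) := ⟨pow_ne_zero _ (Fact.out : p.Prime).ne_zero⟩
  have h1 : mapHpar f (Φ y) = 0 := Push.torsClass_injective N (p ^ n)
    ((DFunLike.congr_fun (h n) f).trans (map_zero _).symm)
  exact DFunLike.congr_fun (congrArg Subtype.val h1) γ

/-- **The matrix action on the piece of descended classes.** -/
theorem exists_funOf_matrix (hN : ∀ r : Y.TrPrime, ¬ r.1.1 ∣ N)
    (Φ : Y.Mod e →+ Hpar (Gamma0 N) Y.Coef)
    (hsmul : ∀ (a : Y.Coef) y, Φ (a • y) = mapHpar (DistribSMul.toAddMonoidHom Y.Coef a) (Φ y))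
    (hhecke : ∀ (r : Y.TrPrime) [Fact r.1.1.Prime], ∀ y,
      (heckeFam N r.1.1).heckePar (Φ y) = Φ (Y.actTR e (Y.trace r) y)) (n : ℕ) :
    ∃ Θ : M2 Y.TR →+* AddMonoid.End (Y.pieceOf (Y.funOf Φ n)), Push.Equivariant Θ Y.repY ∧
      ∀ (t : Y.TR) y, Θ (t • 1) (Y.pieceAt Φ n y) = Y.pieceAt Φ n (Y.actTR e t y) := by
  haveI : NeZero (p ^ n) := ⟨pow_ne_zero _ (Fact.out : p.Prime).ne_zero⟩
  obtain ⟨Θ, hΘ, ht⟩ := Y.exists_piece_matrix N n (Y.funOf Φ n) hN
    (fun a y f => by
      show Push.vec N (p ^ n) (Φ (a • y)) f = _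
      rw [hsmul, Push.vec_map]
      rfl)
    (fun r q hq y f => by
      haveI : Fact r.1.1.Prime := ⟨r.1.2.1⟩
      obtain rfl : q = ⟨r.1.1, r.1.2.1⟩ := Subtype.ext hq
      haveI : Fact ((⟨r.1.1, r.1.2.1⟩ : Nat.Primes) : ℕ).Prime := ⟨r.1.2.1⟩
      show heckeOperatorBar N _ (Push.vec N (p ^ n) (Φ y) f) = Push.vec N (p ^ n) (Φ _) f
      rw [← hhecke r y]
      exact (Push.vec_hecke N (p ^ n) ⟨r.1.1, r.1.2.1⟩ _ f).symm)
  exact ⟨Θ, hΘ, fun t y => Subtype.ext (ht t y _)⟩

/-- The values of the translates of a generator lie in any stable subgroup containing those of the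
element moved by the traces. -/
theorem translate_mem {Φ : Y.Mod e →+ Hpar (Gamma0 N) Y.Coef} {n : ℕ}
    {Θ : M2 Y.TR →+* AddMonoid.End (Y.pieceOf (Y.funOf Φ n))} (hΘ : Push.Equivariant Θ Y.repY)
    (ht : ∀ (t : Y.TR) y, Θ (t • 1) (Y.pieceAt Φ n y) = Y.pieceAt Φ n (Y.actTR e t y))
    (K : AddSubgroup (JZero N)) (hK : ∀ σ : GG, ∀ x ∈ K, σ • x ∈ K) {y : Y.Mod e}
    (hy : ∀ t f, Y.funOf Φ n (Y.actTR e t y) f ∈ K) (g : M2 Y.TR)
    (f : Y.Coef →+ ZMod (p ^ n)) : (Θ g (Y.pieceAt Φ n y)).1 f ∈ K := by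
  have hg : g ∈ Submodule.span Y.TR (Set.range fun σ => (Y.repY σ : M2 Y.TR)) :=
    Y.repY_span ▸ trivial
  suffices ∀ t : Y.TR, (Θ (t • g) (Y.pieceAt Φ n y)).1 f ∈ K by
    simpa only [one_smul] using this 1
  induction hg using Submodule.span_induction with
  | mem g hg =>
    obtain ⟨σ, rfl⟩ := hg
    intro t
    rw [show t • (Y.repY σ : M2 Y.TR) = (Y.repY σ : M2 Y.TR) * (t • 1) by
      rw [Matrix.mul_smul, mul_one], Push.piece_mul, hΘ, ht]
    exact hK σ _ (hy t f)
  | zero =>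
    intro t
    rw [smul_zero, Push.piece_zero]
    exact zero_mem _
  | add a b _ _ iha ihb =>
    intro t
    rw [smul_add, Push.piece_add, AddSubgroup.coe_add, AddMonoidHom.add_apply]
    exact add_mem (iha t) (ihb t)
  | smul u a _ iha =>
    intro t
    rw [smul_smul]
    exact iha (t * u)

end FLTAgent.ModLift.Aux
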