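import Fermat.Agent.ModLift.Degen.Away
import Fermat.Agent.ModLift.Degen.Push.Glue
import Fermat.Agent.ModLift.Degen.Push.AtPGeom
import Fermat.Agent.Ordinary.Core

/-!
# The root is a sign on the new part at `p`

The classes of elements killed by the lower degeneracy map are killed by both push forwards, so
Frobenius squares to the identity modulo deep classes and inertia acts on deep classes of exponent
`p` by a scalar, which is incompatible with the residual representation unless the root squares to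
one.
-/

set_option autoImplicit false
set_option linter.unusedSectionVars false
set_option linter.style.haveILetI false

noncomputable section

set_option synthInstance.maxHeartbeats 400000
set_option maxHeartbeats 1000000

open IsLocalRing CongruenceSubgroup FLTAgent.PeriodHecke
open scoped MatrixGroups

namespace FLTAgent.ModLift

open FLTAgent.Lowering FLTAgent.EigenLattice
open ModularCurve (JZero modularFunctionFieldFullC heckeAlphaBar heckeBetaBar)

local notation "QA" => AlgebraicClosure ℚ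
local notation "GG" => (AlgebraicClosure ℚ ≃ₐ[ℚ] AlgebraicClosure ℚ)
local notation "M2" => Matrix (Fin 2) (Fin 2)

variable {p : ℕ} [Fact p.Prime] {O : Type} [CommRing O] [IsDomain O] [IsDiscreteValuationRing O]
  [Algebra ℤ_[p] O] [Module.Finite ℤ_[p] O] [CharZero O] {S S' : Setup p O} {ℓ : ℕ}
  [Fact ℓ.Prime]

namespace Raise

variable (h : Raise S S' ℓ) (X : Aux S)

theorem inRange_twice (N : ℕ) (S : Setup p O) : MazurPrinciple.InRange p (N * 2) := by
  have h2 := (Fact.out : p.Prime).two_le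
  have := S.p_ne
  rcases Nat.lt_or_ge p 5 with h5 | h5
  · refine Or.inr ⟨?_, dvd_mul_left 2 N⟩
    by_contra h3
    exact absurd (show p = 4 by omega) fun h4 => absurd (Fact.out : p.Prime) (h4 ▸ by norm_num)
  · exact Or.inl h5

include h in
/-- **The root squares to one on the kernel of the lower map.** -/
theorem root_sq_ker (hℓp : ℓ = p) {V : ValuationSubring QA} (hV : V.LiesOverPrime p)
    {v : Fin 2 → ResidueField O}
    (hv : ∀ σ ∈ V.inertiaSubgroupIn ℚ, ∀ w, ∃ a : ResidueField O,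
      (S.rb σ : M2 (ResidueField O)).mulVec w = w + a • v)
    {φ : GG} (hφ : V.IsFrobeniusAt φ p) {z z' : (h.up X).TR}
    (hz : IsQuotientRoot ((h.up X).levelData (h.up X).geometry).ρ V φ z z') (e : Bool)
    (y : (h.up X).Mod e) (hy : h.modDown X e y = 0) :
    (h.up X).actTR e (z ^ 2 - 1) y = 0 := by
  classical
  subst hℓp
  haveI := (h.up X).isLocalRing_TR
  haveI := FrobTrace.charP_residueField hV
  haveI : IsAlgClosed (ResidueField V) := FrobTrace.isAlgClosed_residueField V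
  set N₀ := X.level * twProd X with hN₀
  set M := N₀ * 2 with hM
  haveI : NeZero M := ⟨Nat.mul_ne_zero (Nat.mul_ne_zero X.level_pos.ne' (twProd_ne_zero X)) two_ne_zero⟩
  haveI : NeZero ℓ := ⟨(Fact.out : ℓ.Prime).ne_zero⟩
  haveI : NeZero (M * ℓ) := ⟨Nat.mul_ne_zero (NeZero.ne M) (NeZero.ne ℓ)⟩
  have hpM : ¬ ℓ ∣ M := fun hd => ((Fact.out : ℓ.Prime).dvd_mul.1 hd).elim (h.not_dvd_bigLevel X)
    fun h2 => S.p_ne ((Nat.prime_dvd_prime_iff_eq Fact.out Nat.prime_two).1 h2)
  haveI : Curves.IsFunctionField (ResidueField V) (modularFunctionFieldFullC (ResidueField V) M) :=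
    Specialization.isFunctionField_full (ResidueField V) M rfl
      (Specialization.natCast_ne_zero_residue hV hpM)
  have hlev : (h.up X).bigLevel = N₀ * ℓ := h.bigLevel_up X
  have hd : (h.up X).bigLevel ∣ M * ℓ :=
    hlev ▸ Nat.mul_dvd_mul_right (dvd_mul_right N₀ 2) ℓ
  obtain ⟨Φ₀, hinj₀, hsmul₀, hhecke₀, hker⟩ := h.exists_descend X e
  let Φ : (h.up X).Mod e →+ Hpar (Gamma0 (M * ℓ)) (h.up X).Coef := (Push.resLow hd).comp Φ₀
  have hinj : Function.Injective Φ :=
    (Push.resLow_injective hd (h.up X).coef_eq_zero_of_nsmul).comp hinj₀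
  have hnd : ∀ r : (h.up X).TrPrime, ¬ r.1.1 ∣ M * ℓ := fun r hr => by
    rcases r.1.2.1.dvd_mul.1 hr with h1 | h1
    · rcases r.1.2.1.dvd_mul.1 h1 with h2 | h2
      · refine r.2 (dvd_trans ?_ (dvd_of_eq (h.level_up X).symm))
        rcases r.1.2.1.dvd_mul.1 h2 with h3 | h3
        · exact h3.trans (dvd_mul_right _ _)
        · exact (h3.trans (twProd_dvd X)).trans (dvd_mul_right _ _)
      · exact r.1.2.2 ((congrArg (· ∈ S'.bad)
          ((Nat.prime_dvd_prime_iff_eq r.1.2.1 Nat.prime_two).1 h2)).mpr S'.two_mem)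
    · exact r.1.2.2 ((congrArg (· ∈ S'.bad)
        ((Nat.prime_dvd_prime_iff_eq r.1.2.1 Fact.out).1 h1)).mpr S'.p_mem)
  have hsmul : ∀ (a : (h.up X).Coef) y,
      Φ (a • y) = mapHpar (DistribSMul.toAddMonoidHom (h.up X).Coef a) (Φ y) := fun a y =>
    (congrArg (Push.resLow hd) (hsmul₀ a y)).trans (Push.resLow_mapHpar hd _ _)
  have hhecke : ∀ (r : (h.up X).TrPrime) [Fact r.1.1.Prime], ∀ y,
      (heckeFam (M * ℓ) r.1.1).heckePar (Φ y) = Φ ((h.up X).actTR e ((h.up X).trace r) y) :=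
    fun r _ y => by
      show _ = Push.resLow hd (Φ₀ _)
      rw [← hhecke₀ r (fun hb => hnd r (hb.trans hd)) y, Push.resLow_hecke hd (hnd r)]
      rfl
  have hvan : ∀ t, Push.Vanish M ℓ (Φ ((h.up X).actTR e t y)) := fun t =>
    Push.vanish_resLow hpM (dvd_mul_right N₀ 2) hlev (hker _ (by
      rw [h.modDown_act, hy]
      funext b
      exact map_zero _))
  obtain ⟨ζ, hζ⟩ := DetCyclo.exists_primitive_root_pow ℓ 1
  rw [pow_one] at hζ
  have hv' : ∀ σ ∈ V.inertiaSubgroupIn ℚ, ∀ w, ∃ a : ResidueField O,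
      (S'.rb σ : M2 (ResidueField O)).mulVec w = w + a • v := by
    rw [h.rb_eq]
    exact hv
  obtain ⟨σ₀, hσ₀, c, hc, hcyc, hd1, hunit, -⟩ := (h.up X).exists_inertia_data hV hv'
  refine (h.up X).eq_zero_of_funOf hinj _ fun n => ?_
  rcases n with _ | a
  · refine AddMonoidHom.ext fun f => ?_
    haveI : Subsingleton (ZMod (ℓ ^ 0)) :=
      (ZMod.subsingleton_iff).2 (pow_zero ℓ)
    rw [show f = 0 from AddMonoidHom.ext fun _ => Subsingleton.elim _ _, map_zero]
    rfl
  haveI : NeZero (ℓ ^ (a + 1)) := ⟨pow_ne_zero _ (NeZero.ne ℓ)⟩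
  obtain ⟨Θ, hΘ, ht⟩ := (h.up X).exists_funOf_matrix hnd Φ hsmul hhecke (a + 1)
  let K : AddSubgroup (JZero (M * ℓ)) :=
    (pushPic M ℓ (heckeAlphaBar QA M ℓ)).ker ⊓ (pushPic M ℓ (heckeBetaBar QA M ℓ)).ker
  have hK : ∀ σ : GG, ∀ x ∈ K, σ • x ∈ K := fun σ x hx => by
    obtain ⟨h1, h2⟩ := AddSubgroup.mem_inf.1 hx
    rw [AddMonoidHom.mem_ker] at h1 h2
    refine AddSubgroup.mem_inf.2 ⟨?_, ?_⟩
    · rw [AddMonoidHom.mem_ker, Ordinary.pushPic_gal (alpha_compat M ℓ), h1, smul_zero]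
    · rw [AddMonoidHom.mem_ker, Ordinary.pushPic_gal (beta_compat M ℓ), h2, smul_zero]
  have hpk : Push.PushKilled (pushPic M ℓ (heckeAlphaBar QA M ℓ))
      (pushPic M ℓ (heckeBetaBar QA M ℓ)) Θ ((h.up X).pieceAt Φ (a + 1) y) := fun g f => by
    have hm := (h.up X).translate_mem hΘ ht K hK (y := y) (fun t f =>
      AddSubgroup.mem_inf.2 (Push.pushPic_vec_eq_zero hpM (ℓ ^ (a + 1)) (hvan t) f)) g f
    exact AddSubgroup.mem_inf.1 hm
  have hzero := Push.root_sq_eq_one (p := ℓ) (π₁ := pushPic M ℓ (heckeAlphaBar QA M ℓ))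
    (π₂ := pushPic M ℓ (heckeBetaBar QA M ℓ)) hΘ
    (fun f => AddMonoidHom.ext fun x => by
      rw [AddMonoidHom.smul_apply, nsmul_eq_mul, ZMod.natCast_self, zero_mul]
      rfl)
    (fun n => Ordinary.deepAt hV hpM n) (I₀ := V.inertiaSubgroupIn ℚ)
    (fun σ hσ u hu => Ordinary.inertia_sub_mem_deepAt hV hpM hσ hu)
    (fun u hu hpu => Ordinary.mem_deepAt_prime hV hpM hu hpu) hσ₀
    (fun u hu h1 h2 => Ordinary.inertia_smul_eq_of_deep hV hpM
      ((inRange_twice N₀ S).smooth hpM hV _) hζ hu h1 h2 hσ₀ hc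
      (hcyc ζ (by rw [pow_one]; exact hζ.pow_eq_one)))
    hunit (φ := φ)
    (fun u hu h1 h2 => Push.frobenius_sq_sub_mem_deep hV hpM hφ hu h1 h2) hd1
    (hz.2 σ₀ hσ₀) hpk
  rw [ht] at hzero
  exact congrArg Subtype.val hzero

/-- The root is a sign on the new part. -/
theorem degen_at_p (hℓp : ℓ = p) {V : ValuationSubring QA} (hV : V.LiesOverPrime p)
    {v : Fin 2 → ResidueField O}
    (hv : ∀ σ ∈ V.inertiaSubgroupIn ℚ, ∀ w, ∃ a : ResidueField O,
      (S.rb σ : M2 (ResidueField O)).mulVec w = w + a • v)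
    {φ : GG} (hφ : V.IsFrobeniusAt φ p) {z z' : (h.up X).TR}
    (hz : IsQuotientRoot ((h.up X).levelData (h.up X).geometry).ρ V φ z z') (e : Bool)
    (hecke : h.modT X e = X.actTR e (h.resTr X (z + (p : (h.up X).TR) * z'))) :
    ∃ n : ℕ, ∀ y, ((h.up X).actTR e (z ^ 2 - 1) ^ n) y ∈ LinearMap.range ((h.degen X).up e) := by
  set F : (h.up X).TR := z ^ 2 - 1 with hF
  set u : (h.up X).TR := 1 - (p : (h.up X).TR) ^ 2 * z' ^ 2 with hu
  haveI : CharP (ResidueField O) p := Aux.charP_residue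
  obtain ⟨w, hw⟩ : IsUnit u := (h.up X).isUnit_of_redTR (by
    rw [hu, map_sub, map_mul, map_one, map_pow, map_natCast, CharP.cast_eq_zero,
      zero_pow two_ne_zero, zero_mul, sub_zero]
    exact one_ne_zero)
  set s : (h.up X).TR := z + (p : (h.up X).TR) * z' with hs
  have hFu : s ^ 2 - ((p : (h.up X).TR) + 1) ^ 2 = F * u := by
    rw [hs, hF, hu]
    have h1 : z * z' = (1 : (h.up X).TR) := hz.1
    linear_combination (2 * (p : (h.up X).TR) + (p : (h.up X).TR) ^ 2 * (z * z' + 1)) * h1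
  have hres : h.resTr X (F * u) = h.resTr X s ^ 2 - ((p : X.TR) + 1) ^ 2 := by
    rw [← hFu, map_sub, map_pow, map_pow, map_add ((h.resTr X)) (p : (h.up X).TR), map_natCast, map_one]
  refine ⟨2, fun y => ?_⟩
  show ((h.up X).actTR e F ^ 2) y ∈ LinearMap.range (h.modUp X e)
  set vd := h.modDown X e y with hvd
  set T₀ := h.modT X e
  let c : X.Coef := (p : X.Coef) + 1
  let q : Fin 2 → X.Mod e := ![c • vd 0 - T₀ (vd 1), c • vd 1 - T₀ (vd 0)]
  set t := (h.up X).actTR e (F * u) y + h.modUp X e q with htdef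
  have ht : h.modDown X e t = 0 := by
    have hcc : ∀ m, c • c • m = X.actTR e (((p : X.TR) + 1) ^ 2) m := fun m => by
      rw [show ((p : X.TR) + 1) ^ 2 = (((p + 1) * (p + 1) : ℕ) : X.TR) by push_cast; ring,
        map_natCast, Module.End.natCast_apply, smul_smul,
        show c * c = (((p + 1) * (p + 1) : ℕ) : X.Coef) by simp [c], Nat.cast_smul_eq_nsmul]
    have hTT : ∀ m, T₀ (T₀ m) = X.actTR e (h.resTr X s ^ 2) m := fun m => by
      rw [map_pow, ← hecke, sq]
      rfl
    have hcast : (ℓ : X.Coef) = (p : X.Coef) := congrArg (fun m : ℕ => (m : X.Coef)) hℓp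
    rw [htdef, map_add, h.modDown_act, h.modDown_modUp, hcast]
    funext b
    fin_cases b <;>
      simp [q, hres, ← hvd, hcc, hTT, c, map_sub, smul_sub, map_smul, T₀]
  have h2 := h.root_sq_ker X hℓp hV hv hφ hz e t ht
  rw [htdef, map_add, ← Module.End.mul_apply, ← map_mul, ← hF] at h2
  refine ⟨fun b => X.actTR e (h.resTr X (↑w⁻¹ : (h.up X).TR)) (-(X.actTR e (h.resTr X F) (q b))), ?_⟩
  have h3 : (h.up X).actTR e (F * (F * u)) y = h.modUp X e (fun b => -(X.actTR e (h.resTr X F) (q b))) := by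
    rw [eq_neg_of_add_eq_zero_left h2, ← h.modUp_act, ← map_neg]
    rfl
  rw [h.modUp_act, ← h3, ← Module.End.mul_apply, ← map_mul, ← map_pow]
  congr 2
  rw [← hw, sq, ← mul_assoc, ← mul_assoc, mul_comm _ (w : (h.up X).TR), ← mul_assoc, ← mul_assoc,
    Units.mul_inv, one_mul]

end Raise

end FLTAgent.ModLift
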