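import Fermat.Agent.FlatModel.Modular
import Fermat.Agent.FlatModel.Separated
import Fermat.Agent.MazurPrinciple.Range
import Fermat.Agent.ModLift.Degen.Push.Connected.Coords
import Fermat.Agent.ModLift.Degen.Push.Connected.Points

/-!
# The kernel of the reduction has no quotient on which inertia is trivial

For `p ∤ N` in the range where the model of level `N` is smooth, a stable group of `p`-power torsion
classes which reduce to zero is its own smallest subgroup stable under inertia with trivial action
on the quotient.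
-/

set_option autoImplicit false
set_option linter.style.haveILetI false
set_option linter.unusedSectionVars false
set_option synthInstance.maxHeartbeats 400000
set_option maxHeartbeats 1000000

noncomputable section

open IsLocalRing

namespace FLTAgent.ModLift.Push

open AlgebraicCurve FLTAgent.Curves FLTAgent.Specialization FLTAgent.FlatModel ModularCurve

local notation "QA" => AlgebraicClosure ℚ
local notation "GG" => (AlgebraicClosure ℚ ≃ₐ[ℚ] AlgebraicClosure ℚ)

/-- A torsion subgroup of a fixed exponent is finite. -/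
theorem finite_of_nsmul {N p : ℕ} [NeZero N] [Fact p.Prime] {n : ℕ} (K : AddSubgroup (JZero N))
    (hn : ∀ x ∈ K, p ^ n • x = 0) : Finite K := by
  have hT : Finite (Submodule.torsionBy ℤ (JZero N) ((p : ℤ) ^ n)) := Nat.finite_of_card_ne_zero
    (by rw [card_torsion_pow N n]; exact pow_ne_zero _ (pow_ne_zero _ (Fact.out : p.Prime).ne_zero))
  refine Finite.of_injective (β := Submodule.torsionBy ℤ (JZero N) ((p : ℤ) ^ n))
    (fun x => ⟨(x : JZero N), (Submodule.mem_torsionBy_iff _ _).2 ?_⟩) fun x y h =>
      Subtype.ext (congrArg Subtype.val h :)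
  rw [← Nat.cast_pow, natCast_zsmul]
  exact hn x x.2

/-- **The kernel of the reduction is connected.** -/
theorem le_of_reduction_eq_zero {N p : ℕ} [NeZero N] [Fact p.Prime] (hp3 : 3 ≤ p) (hpN : ¬ p ∣ N)
    (hrange : MazurPrinciple.InRange p N)
    {A : ValuationSubring QA} (hA : A.LiesOverPrime p) {n : ℕ} {K L : AddSubgroup (JZero N)}
    (hn : ∀ x ∈ K, p ^ n • x = 0) (hK : ∀ (σ : GG), ∀ x ∈ K, σ • x ∈ K)
    (hred : ∀ x ∈ K, ModularCurve.reductionModL A N x = 0) (_hLK : L ≤ K)
    (hL : ∀ σ ∈ A.inertiaSubgroupIn ℚ, ∀ x ∈ L, σ • x ∈ L)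
    (hfix : ∀ σ ∈ A.inertiaSubgroupIn ℚ, ∀ x ∈ K, σ • x - x ∈ L) : K ≤ L := by
  haveI : IsAlgClosed (ResidueField A) := FrobTrace.isAlgClosed_residueField A
  haveI : CharP (ResidueField A) p := FrobTrace.charP_residueField hA
  have hk : (N : ResidueField A) ≠ 0 := natCast_ne_zero_residue hA hpN
  haveI := isFunctionField_full (ResidueField A) N rfl hk
  have hM := hrange.smooth hpN hA hk
  letI := stableSub K hK
  haveI : Finite K := finite_of_nsmul K hn
  obtain ⟨CS, hfin, hval, hcongr, heq, hsep, hcomul⟩ := exists_coords_zero hA hM isArith_galois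
    (smul_jq hk) (exists_eqCoords hk) K.subtype K.subtype_injective (fun σ x => rfl)
    fun x => by rw [redHom_eq_reductionModL hA N hpN hk hM]; exact hred x x.2
  obtain ⟨F⟩ := exists_frame CS hfin hval hcongr heq hsep hcomul
  have htop : L.addSubgroupOf K = ⊤ := F.eq_top hA hp3 (n := n)
    (fun x => Subtype.ext ((AddSubgroup.coe_nsmul K x _).trans (hn x x.2)))
    (fun σ hσ l hl => hL σ hσ _ hl) fun σ hσ x => hfix σ hσ _ x.2
  exact AddSubgroup.addSubgroupOf_eq_top.1 htop

end FLTAgent.ModLift.Push
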