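import Fermat.Agent.ModLift.Degen.Push.Embed

/-!
# The classes of the upper module on `Γ₀`

Twisted and descended, they are injective, commute with the operators, and those of elements killed
by the lower degeneracy map have vanishing coset sums, also after an Atkin–Lehner matrix.
-/

set_option autoImplicit false
set_option linter.unusedSectionVars false
set_option linter.style.haveILetI false

noncomputable section

set_option synthInstance.maxHeartbeats 400000
set_option maxHeartbeats 1000000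

open IsLocalRing CongruenceSubgroup FLTAgent.Lowering.Cocycle FLTAgent.PeriodHecke
  FLTAgent.DeligneSerre
open scoped MatrixGroups

namespace FLTAgent.ModLift

open FLTAgent.Lowering

local notation "SL2Z" => Matrix.SpecialLinearGroup (Fin 2) ℤ
local notation "M2" => Matrix (Fin 2) (Fin 2) ℤ

variable {p : ℕ} [Fact p.Prime] {O : Type} [CommRing O] [IsDomain O] [IsDiscreteValuationRing O]
  [Algebra ℤ_[p] O] [Module.Finite ℤ_[p] O] [CharZero O] {S S' : Setup p O} {ℓ : ℕ}
  [Fact ℓ.Prime]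

/-- A homomorphism on a subgroup, extended by zero. -/
def extFun {V : Type*} [AddCommGroup V] {Γ : Subgroup SL2Z} (φ : Additive Γ →+ V) (g : SL2Z) : V :=
  open scoped Classical in if h : g ∈ Γ then φ (Additive.ofMul ⟨g, h⟩) else 0

theorem extFun_coe {V : Type*} [AddCommGroup V] {Γ : Subgroup SL2Z} (φ : Additive Γ →+ V) (g : Γ) :
    extFun φ g = φ (Additive.ofMul g) := dif_pos g.2

theorem extFun_addOn {V : Type*} [AddCommGroup V] {Γ : Subgroup SL2Z} (φ : Additive Γ →+ V) :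
    Push.AddOn Γ (extFun φ) := fun a ha b hb => by
  rw [extFun_coe φ ⟨a, ha⟩, extFun_coe φ ⟨b, hb⟩, ← map_add]
  exact extFun_coe φ (⟨a, ha⟩ * ⟨b, hb⟩)

namespace Raise

variable (h : Raise S S' ℓ) (X : Aux S) (e : Bool)

/-- The product of the twisted primes. -/
def twProd (X : Aux S) : ℕ := ∏ r ∈ S.T ∪ X.Q, r

theorem bigLevel_up : (h.up X).bigLevel = X.level * twProd X * ℓ := by
  show (h.up X).level * ∏ r ∈ S'.T ∪ X.Q, r = _
  rw [h.level_up X, h.T_eq, twProd]
  ring

theorem twProd_dvd : twProd X ∣ X.level :=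
  Finset.prod_primes_dvd _ (fun _ hr => (X.prime_of_mem_union hr).prime)
    fun _ hr => X.dvd_level_of_mem_union hr

theorem twProd_ne_zero : twProd X ≠ 0 :=
  Finset.prod_ne_zero_iff.2 fun _ hr => (X.prime_of_mem_union hr).ne_zero

include h in
theorem not_dvd_bigLevel : ¬ ℓ ∣ X.level * twProd X := fun hd =>
  h.not_dvd_level X (((Fact.out : ℓ.Prime).dvd_mul.1 hd).elim id
    fun hd => hd.trans (twProd_dvd X))

/-- **The classes on `Γ₀`.** -/
theorem exists_descend :
    ∃ Φ : (h.up X).Mod e →+ Hpar (Gamma0 (h.up X).bigLevel) X.Coef,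
      Function.Injective Φ ∧
      (∀ (a : X.Coef) y, Φ (a • y) = mapHpar (DistribSMul.toAddMonoidHom X.Coef a) (Φ y)) ∧
      (∀ (r : (h.up X).TrPrime) [Fact r.1.1.Prime], ¬ r.1.1 ∣ (h.up X).bigLevel →
        ∀ y, (heckeFam (h.up X).bigLevel r.1.1).heckePar (Φ y) =
          Φ ((h.up X).actTR e ((h.up X).trace r) y)) ∧
      ∀ y, h.modDown X e y = 0 → ∀ x b z t : ℤ,
        (ℓ : ℤ) * x * t - ((X.level * twProd X : ℕ) : ℤ) * b * z = 1 →
        Push.Tr0 ℓ (Gamma0 (X.level * twProd X)) (extFun (Φ y).1) ∧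
        Push.Tr0 ℓ (Gamma0 (X.level * twProd X))
          (extFun (Φ y).1 ∘ Push.conjMx (Push.wMx ℓ (X.level * twProd X : ℕ) x b z t)) := by
  classical
  set Y := h.up X with hY
  haveI := X.finite_coef
  haveI := Y.finite_coef
  haveI : IsNoetherianRing X.Coef := IsNoetherianRing.of_finite ℤ_[p] X.Coef
  have htf : ∀ (m : ℕ) (v : Y.Coef), m ≠ 0 → m • v = 0 → v = 0 := Y.coef_eq_zero_of_nsmul
  have hodd : Odd (p ^ (Nat.card Y.Units' + 1)) :=
    (((Fact.out : p.Prime).eq_two_or_odd').resolve_left S.p_ne).pow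
  obtain ⟨Tw, hTw, hTws, hTwh, ι, _, w, k, hTwk⟩ := exists_twist_span (V := Y.Coef) (Y.etaFac e)
    htf hodd (fun r d => Y.etaFac_pow e r d) (S'.T ∪ Y.Q) (fun r hr => Y.prime_of_mem_union hr)
    Y.level (fun r hr => ⟨Y.dvd_level_of_mem_union hr, Y.sq_not_dvd_level (Y.prime_of_mem_union hr)⟩)
    Y.bigLevel rfl
  let emb : Y.Mod e →+ Hpar (Gamma1 Y.level) Y.Coef := h.upEmb X e
  have hemb : ∀ y, IsEig (Y.etaFac e) Y.level (S'.T ∪ Y.Q) (emb y) := by
    intro y γ x
    have hm : emb y ∈ eigenPar Y.Coef (Y.chi e) (h.upAnchor X).dvd := h.upEmb_mem X e y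
    rw [(mem_eigenPar _ _).mp hm γ]
    show psi (Y.chi e) (sub0 (h.upAnchor X).dvd γ) • (emb y).1 x = _
    congr 1
    rw [psi_apply, mat_sub0]
    obtain ⟨u, hu⟩ : IsUnit ((mat γ 1 1 : ℤ) : ZMod Y.level) :=
      (Group.isUnit γ).map (Gamma0Map Y.level)
    rw [← hu, show Y.chi e (u : ZMod Y.level) = (Y.chiU e u : Y.Coef) from
      MulChar.ofUnitHom_coe (Y.chiU e) u, Y.chiU_eq_prod, Units.coe_prod,
      ← Finset.prod_coe_sort (S'.T ∪ Y.Q)]
    refine Finset.prod_congr rfl fun r _ => ?_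
    rw [Y.wt_cast e dvd_rfl _ u hu.symm r, ← Units.val_mul, Y.etaFac_sq]
  have hex : ∀ y, ∃ Φ : Hpar (Gamma0 Y.bigLevel) Y.Coef,
      resPar Φ = diaIndex Y.bigLevel • Tw (emb y) := fun y => exists_resPar htf _ fun γ x => by
    rw [(hTw _ (hemb y)).1 γ x, Finset.prod_empty, one_smul]
  choose Φ hΦ using hex
  have hinj := resPar_injective (M := Y.bigLevel) htf
  have hadd : ∀ a b, Φ (a + b) = Φ a + Φ b := fun a b => hinj (by
    rw [map_add, hΦ, hΦ, hΦ, map_add, map_add, smul_add])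
  refine ⟨AddMonoidHom.mk' Φ hadd, (injective_iff_map_eq_zero _).2 fun y hy => ?_, fun a y => ?_,
    fun r _ hr y => ?_, fun y hy x b z t hdet => ?_⟩
  · have h1 : diaIndex Y.bigLevel • Tw (emb y) = 0 := by
      rw [← hΦ, show Φ y = 0 from hy, map_zero]
    have h2 : Tw (emb y) = 0 := Subtype.ext (AddMonoidHom.ext fun g =>
      htf _ _ (diaIndex_ne_zero (M := Y.bigLevel)) (by
        have h3 := DFunLike.congr_fun (congrArg Subtype.val h1) g
        rwa [AddSubgroup.coe_nsmul, AddMonoidHom.smul_apply] at h3))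
    exact h.upEmb_injective X e (((hTw _ (hemb y)).2 h2).trans (map_zero (h.upEmb X e)).symm)
  · refine hinj ?_
    let a' : Y.Coef := a
    show resPar (Φ (a • y)) = resPar (mapHpar (DistribSMul.toAddMonoidHom Y.Coef a') (Φ y))
    rw [show resPar (mapHpar (DistribSMul.toAddMonoidHom Y.Coef a') (Φ y)) =
      mapHpar (DistribSMul.toAddMonoidHom Y.Coef a') (resPar (Φ y)) from rfl, hΦ, hΦ, map_nsmul,
      ← hTws]
    exact congrArg (fun v => diaIndex Y.bigLevel • Tw v) (h.upEmb_smul X e a y)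
  · refine hinj ?_
    show resPar ((heckeFam Y.bigLevel r.1.1).heckePar (Φ y)) = resPar (Φ (Y.actTR e (Y.trace r) y))
    rw [resPar_hecke hr, hΦ, hΦ, map_nsmul, Y.actTR_trace]
    congr 1
    set c := Y.half e (Y.unitOf r)
    have hc : (c : Y.Coef) * ∏ q ∈ S'.T ∪ Y.Q, wt (Y.etaFac e) q (r.1.1 : ℤ) = 1 := by
      have hprod : ∏ q ∈ S'.T ∪ Y.Q, wt (Y.etaFac e) q (r.1.1 : ℤ) =
          ((Y.chiU e (Y.unitOf r) ^ Y.halfExp : Y.Coefˣ) : Y.Coef) := by
        rw [Y.chiU_eq_prod, ← Finset.prod_pow, Units.coe_prod,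
          ← Finset.prod_coe_sort (S'.T ∪ Y.Q)]
        refine Finset.prod_congr rfl fun q _ => ?_
        exact Y.wt_cast e dvd_rfl _ (Y.unitOf r) (by simp [Aux.unitOf]) q
      rw [hprod, ← Units.val_mul, show c = (Y.chiU e (Y.unitOf r) ^ Y.halfExp)⁻¹ from rfl,
        inv_mul_cancel, Units.val_one]
    rw [hTwh r.1.1 r.2 hr _ hc, ← hTws]
    refine congrArg Tw ?_
    refine Eq.trans ?_ (h.upEmb_smul X e (c : Y.Coef) (Y.opMod e (MvPolynomial.X r.1) y)).symm
    exact congrArg (fun φ => mapHpar (DistribSMul.toAddMonoidHom Y.Coef (c : Y.Coef)) φ)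
      (h.upEmb_opMod X e r.1 r.2 y).symm
  · obtain ⟨c, hc, hct, hcw⟩ := h.exists_upEmb_cocycle X e y
    let f : SL2Z → Y.Coef := fun g =>
      if hg : g ∈ Gamma0 Y.level then (c : Gamma0 Y.level → X.Coef) ⟨g, hg⟩ else 0
    have hf : ∀ g : Gamma0 Y.level, f g = (c : Gamma0 Y.level → X.Coef) g := fun g => dif_pos g.2
    have hP := twProd_dvd X
    haveI : NeZero (twProd X) := ⟨twProd_ne_zero X⟩
    have hℓ := h.not_dvd_bigLevel X
    have h0 := (h.ops X e).tau_zero X.Coef c f hf (hct (congrFun hy 0))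
    have hW := (h.ops X e).tau_W_zero X.Coef c f hf (hcw (congrFun hy 1)) x b
      ((twProd X : ℤ) * z) t (by rw [← hdet]; push_cast; ring)
      (Push.conjMx (Push.wMx ℓ (X.level * twProd X : ℕ) x b z t)) fun g hg => by
        obtain ⟨δ, hδ, -, -⟩ := Push.exists_conj_w (dvd_mul_right X.level (twProd X)) hdet
          (g := g) (Subgroup.mem_inf.2 ⟨Gamma1_in_Gamma0 _ (Subgroup.mem_inf.1 hg).1,
            (Subgroup.mem_inf.1 hg).2⟩)
        have e : !![(ℓ : ℤ) * x, b; (X.level : ℤ) * ℓ * ((twProd X : ℤ) * z), (ℓ : ℤ) * t] =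
            Push.wMx ℓ ((X.level * twProd X : ℕ) : ℤ) x b z t := by
          rw [Push.wMx]
          push_cast
          ring_nf
        rw [e]
        exact Push.conjMx_spec ⟨δ, hδ⟩
    refine Push.tr0_descend (V := Y.Coef) (A := Y.Coef) hP hℓ hdet (h.bigLevel_up X) (h.level_up X)
      htf w k f h0 hW _ (extFun_addOn _) (diaIndex Y.bigLevel) fun g δ hδ => ?_
    show extFun (Φ y).1 ((⟨g, Gamma1_in_Gamma0 _ g.2⟩ : Gamma0 Y.bigLevel) : SL2Z) = _
    rw [extFun_coe]
    have h1 := DFunLike.congr_fun (congrArg Subtype.val (hΦ y)) (Additive.ofMul g)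
    rw [AddSubgroup.coe_nsmul, AddMonoidHom.smul_apply] at h1
    refine (resPar_apply (Φ y) g).symm.trans (h1.trans ?_)
    have hprod : ∏ r ∈ S'.T ∪ Y.Q, r = twProd X := by
      show ∏ r ∈ S'.T ∪ X.Q, r = _
      rw [h.T_eq, twProd]
    rw [hTwk (emb y) g δ fun i => hprod ▸ hδ i]
    refine congrArg (_ • ·) (Finset.sum_congr rfl fun i _ => ?_)
    exact congrArg (fun v : Y.Coef => w i • v) ((hc (δ i)).trans (hf _).symm)

end Raise

end FLTAgent.ModLift
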