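import Fermat.Agent.ModLift.Degen.Frob
import Fermat.Agent.ModLift.Degen.Push.Descend

/-!
# The classes of the lower module on `Γ₀`

Twisted and descended, they are injective and commute with the operators, also with the one at the
added prime.
-/

set_option autoImplicit false
set_option linter.unusedSectionVars false
set_option linter.style.haveILetI false

noncomputable section

set_option synthInstance.maxHeartbeats 400000
set_option maxHeartbeats 400000

open IsLocalRing CongruenceSubgroup FLTAgent.Lowering.Cocycle FLTAgent.PeriodHecke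
  FLTAgent.DeligneSerre
open scoped MatrixGroups

namespace FLTAgent.ModLift

open FLTAgent.Lowering

variable {p : ℕ} [Fact p.Prime] {O : Type} [CommRing O] [IsDomain O] [IsDiscreteValuationRing O]
  [Algebra ℤ_[p] O] [Module.Finite ℤ_[p] O] [CharZero O] {S S' : Setup p O} {ℓ : ℕ}
  [Fact ℓ.Prime]

namespace Aux

variable (X : Aux S) (e : Bool)

/-- The half power undoes the weights of the twist. -/
theorem half_mul_prod_wt (l : ℕ) (u : (ZMod X.level)ˣ)
    (hu : ((l : ℤ) : ZMod X.level) = (u : ZMod X.level)) :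
    (X.half e u : X.Coef) * ∏ q ∈ S.T ∪ X.Q, wt (X.etaFac e) q (l : ℤ) = 1 := by
  have hprod : ∏ q ∈ S.T ∪ X.Q, wt (X.etaFac e) q (l : ℤ) =
      ((X.chiU e u ^ X.halfExp : X.Coefˣ) : X.Coef) := by
    rw [X.chiU_eq_prod, ← Finset.prod_pow, Units.coe_prod, ← Finset.prod_coe_sort (S.T ∪ X.Q)]
    exact Finset.prod_congr rfl fun q _ => X.wt_cast e dvd_rfl _ u hu q
  rw [hprod, ← Units.val_mul, show X.half e u = (X.chiU e u ^ X.halfExp)⁻¹ from rfl,
    inv_mul_cancel, Units.val_one]

end Aux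

/-- An operator at a further prime and a scalar, after a polynomial in the good operators. -/
theorem Anchor.parFun_poly_at {N : ℕ} {A : Type} [CommRing A] [Algebra O A] {χ : ZMod N →* A}
    {bad : Finset ℕ} {k : Type} [Field k] {θ : Poly O bad →+* k} {L r : ℕ} [NeZero L]
    [Fact r.Prime] (an : Anchor (N := N) θ L) {W : Type} [AddCommGroup W] [Module A W]
    (hr : r ∈ bad) (hrL : ¬ r ∣ L) (P : Poly O bad) (a : A) (y : H1 (psi χ) W) :
    an.parFun (P • toCoh O χ bad W (a • heckeH1 (N := W) (stdWeight (p := r) χ) y)) =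
      scal a ((heckeFam1 hrL).heckePar (an.parFun (P • toCoh O χ bad W y))) := by
  rw [(toCoh O χ bad W).map_smul, smul_comm P a (toCoh O χ bad W (heckeH1 (N := W) (stdWeight (p := r) χ) y)),
    Anchor.parFun_smul, poly_smul, poly_smul]
  have hc := (commOps_heckeH1 χ hr W).polyHom P y
  rw [polyMap_refl] at hc
  rw [← hc, Anchor.parFun_at an hr hrL]

namespace Raise

variable (h : Raise S S' ℓ) (X : Aux S) (e : Bool)

/-- The anchor at the lower level. -/
def lowAnchor : Anchor (N := X.level) X.sys X.level := X.exists_anchor_level.some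

/-- The classes of the lower module on `Γ₁`. -/
def lowEmb : X.Mod e →+ Hpar (Gamma1 X.level) X.Coef :=
  haveI := X.finite_coef
  haveI : IsNoetherianRing X.Coef := IsNoetherianRing.of_finite ℤ_[p] X.Coef
  AddMonoidHom.mk' (fun x => (lowAnchor X).embed (surj_low X e X.Coef) (X.modL e x))
    fun a b => by rw [map_add, map_add]

theorem lowEmb_apply (x : X.Mod e) :
    haveI := X.finite_coef
    haveI : IsNoetherianRing X.Coef := IsNoetherianRing.of_finite ℤ_[p] X.Coef
    lowEmb X e x = (lowAnchor X).embed (surj_low X e X.Coef) (X.modL e x) := rfl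

theorem lowEmb_injective : Function.Injective (lowEmb X e) := fun a b hab => by
  haveI := X.finite_coef
  haveI : IsNoetherianRing X.Coef := IsNoetherianRing.of_finite ℤ_[p] X.Coef
  rw [lowEmb_apply, lowEmb_apply] at hab
  exact (X.modL e).injective ((lowAnchor X).embed_injective (surj_low X e X.Coef) hab)

theorem lowEmb_mem (x : X.Mod e) :
    lowEmb X e x ∈ eigenPar X.Coef (X.chi e) (lowAnchor X).dvd := by
  haveI := X.finite_coef
  haveI : IsNoetherianRing X.Coef := IsNoetherianRing.of_finite ℤ_[p] X.Coef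
  rw [lowEmb_apply]
  exact (lowAnchor X).embed_mem (surj_low X e X.Coef) _

theorem lowEmb_smul (a : X.Coef) (x : X.Mod e) :
    lowEmb X e (a • x) = scal a (lowEmb X e x) := by
  rw [lowEmb_apply, lowEmb_apply, (X.modL e).map_smul, Anchor.embed_smul]

theorem lowEmb_opMod (l : GoodPrime S.bad) (hl : ¬ l.1 ∣ X.level) (x : X.Mod e) :
    lowEmb X e (X.opMod e (MvPolynomial.X l) x) = (heckeFam1 hl).heckePar (lowEmb X e x) := by
  rw [lowEmb_apply, lowEmb_apply, ← Anchor.embed_X]
  rfl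

theorem lowEmb_modT (hℓL : ¬ ℓ ∣ X.level) (x : X.Mod e) :
    lowEmb X e (h.modT X e x) = scal (h.eta X e) ((heckeFam1 hℓL).heckePar (lowEmb X e x)) := by
  haveI := X.finite_coef
  haveI : IsNoetherianRing X.Coef := IsNoetherianRing.of_finite ℤ_[p] X.Coef
  have h1 : X.modL e (h.modT X e x) = h.locT X e X.Coef (X.modL e x) := rfl
  rw [lowEmb_apply, lowEmb_apply, h1]
  obtain ⟨y, hy⟩ := surj_low X e X.Coef (X.modL e x)
  obtain ⟨y, rfl⟩ := (toCoh O (X.chi e) S.bad X.Coef).surjective y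
  rw [← hy, locT_toLoc, Anchor.embed_toLoc, Anchor.embed_toLoc]
  exact (lowAnchor X).parFun_poly_at h.mem_bad hℓL _ (h.eta X e) y

/-- **The lower classes on `Γ₀`.** -/
theorem exists_descend_low :
    ∃ Φ : X.Mod e →+ Hpar (Gamma0 X.bigLevel) X.Coef,
      Function.Injective Φ ∧
      (∀ (a : X.Coef) x, Φ (a • x) = mapHpar (DistribSMul.toAddMonoidHom X.Coef a) (Φ x)) ∧
      (∀ (r : X.TrPrime) [Fact r.1.1.Prime], ¬ r.1.1 ∣ X.bigLevel →
        ∀ x, (heckeFam X.bigLevel r.1.1).heckePar (Φ x) = Φ (X.actTR e (X.trace r) x)) ∧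
      ∀ x, (heckeFam X.bigLevel ℓ).heckePar (Φ x) = Φ (h.modT X e x) := by
  classical
  haveI := X.finite_coef
  haveI : IsNoetherianRing X.Coef := IsNoetherianRing.of_finite ℤ_[p] X.Coef
  have hwt : h.eta X e * ∏ q ∈ S.T ∪ X.Q, wt (X.etaFac e) q (ℓ : ℤ) = 1 := by
    rw [Raise.eta]
    exact X.half_mul_prod_wt e ℓ _ (by rw [Int.cast_natCast, ZMod.coe_unitOfCoprime])
  have htf : ∀ (m : ℕ) (v : X.Coef), m ≠ 0 → m • v = 0 → v = 0 := X.coef_eq_zero_of_nsmul
  have hodd : Odd (p ^ (Nat.card X.Units' + 1)) :=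
    (((Fact.out : p.Prime).eq_two_or_odd').resolve_left S.p_ne).pow
  obtain ⟨Tw, hTw, hTws, hTwh, -⟩ := exists_twist_span (V := X.Coef) (X.etaFac e)
    htf hodd (fun r d => X.etaFac_pow e r d) (S.T ∪ X.Q) (fun r hr => X.prime_of_mem_union hr)
    X.level (fun r hr => ⟨X.dvd_level_of_mem_union hr, X.sq_not_dvd_level (X.prime_of_mem_union hr)⟩)
    X.bigLevel rfl
  let emb : X.Mod e →+ Hpar (Gamma1 X.level) X.Coef := lowEmb X e
  have hemb : ∀ x, IsEig (X.etaFac e) X.level (S.T ∪ X.Q) (emb x) := by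
    intro x γ z
    have hm : emb x ∈ eigenPar X.Coef (X.chi e) (lowAnchor X).dvd := lowEmb_mem X e x
    rw [(mem_eigenPar _ _).mp hm γ]
    show psi (X.chi e) (sub0 (lowAnchor X).dvd γ) • (emb x).1 z = _
    congr 1
    rw [psi_apply, mat_sub0]
    obtain ⟨u, hu⟩ : IsUnit ((mat γ 1 1 : ℤ) : ZMod X.level) :=
      (Group.isUnit γ).map (Gamma0Map X.level)
    rw [← hu, show X.chi e (u : ZMod X.level) = (X.chiU e u : X.Coef) from
      MulChar.ofUnitHom_coe (X.chiU e) u, X.chiU_eq_prod, Units.coe_prod,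
      ← Finset.prod_coe_sort (S.T ∪ X.Q)]
    refine Finset.prod_congr rfl fun r _ => ?_
    rw [X.wt_cast e dvd_rfl _ u hu.symm r, ← Units.val_mul, X.etaFac_sq]
  have hℓL : ¬ ℓ ∣ X.level := h.not_dvd_level X
  have hex : ∀ x, ∃ Φ : Hpar (Gamma0 X.bigLevel) X.Coef,
      resPar Φ = diaIndex X.bigLevel • Tw (emb x) := fun x => exists_resPar htf _ fun γ z => by
    rw [(hTw _ (hemb x)).1 γ z, Finset.prod_empty, one_smul]
  choose Φ hΦ using hex
  have hinj := resPar_injective (M := X.bigLevel) htf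
  have hadd : ∀ a b, Φ (a + b) = Φ a + Φ b := fun a b => hinj (by
    rw [map_add, hΦ, hΦ, hΦ, map_add, map_add, smul_add])
  refine ⟨AddMonoidHom.mk' Φ hadd, (injective_iff_map_eq_zero _).2 fun x hx => ?_, fun a x => ?_,
    fun r _ hr x => ?_, fun x => ?_⟩
  · have h1 : diaIndex X.bigLevel • Tw (emb x) = 0 := by
      rw [← hΦ, show Φ x = 0 from hx, map_zero]
    have h2 : Tw (emb x) = 0 := Subtype.ext (AddMonoidHom.ext fun g =>
      htf _ _ (diaIndex_ne_zero (M := X.bigLevel)) (by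
        have h3 := DFunLike.congr_fun (congrArg Subtype.val h1) g
        rwa [AddSubgroup.coe_nsmul, AddMonoidHom.smul_apply] at h3))
    exact lowEmb_injective X e (((hTw _ (hemb x)).2 h2).trans (map_zero (lowEmb X e)).symm)
  · refine hinj ?_
    show resPar (Φ (a • x)) = resPar (mapHpar (DistribSMul.toAddMonoidHom X.Coef a) (Φ x))
    rw [show resPar (mapHpar (DistribSMul.toAddMonoidHom X.Coef a) (Φ x)) =
      mapHpar (DistribSMul.toAddMonoidHom X.Coef a) (resPar (Φ x)) from rfl, hΦ, hΦ, map_nsmul,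
      ← hTws]
    exact congrArg (fun v => diaIndex X.bigLevel • Tw v) (lowEmb_smul X e a x)
  · refine hinj ?_
    show resPar ((heckeFam X.bigLevel r.1.1).heckePar (Φ x)) =
      resPar (Φ (X.actTR e (X.trace r) x))
    rw [resPar_hecke hr, hΦ, hΦ, map_nsmul, X.actTR_trace]
    congr 1
    rw [hTwh r.1.1 r.2 hr _ (X.half_mul_prod_wt e r.1.1 (X.unitOf r) (by simp [Aux.unitOf])),
      ← hTws]
    refine congrArg Tw ?_
    refine Eq.trans ?_ (lowEmb_smul X e (X.half e (X.unitOf r) : X.Coef)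
      (X.opMod e (MvPolynomial.X r.1) x)).symm
    exact congrArg (fun φ => mapHpar (DistribSMul.toAddMonoidHom X.Coef
      (X.half e (X.unitOf r) : X.Coef)) φ) (lowEmb_opMod X e r.1 r.2 x).symm
  · refine hinj ?_
    have hℓB : ¬ ℓ ∣ X.bigLevel := h.not_dvd_bigLevel X
    show resPar ((heckeFam X.bigLevel ℓ).heckePar (Φ x)) = resPar (Φ (h.modT X e x))
    rw [resPar_hecke hℓB, hΦ, hΦ, map_nsmul]
    congr 1
    rw [hTwh ℓ hℓL hℓB (h.eta X e) hwt, ← hTws]
    exact congrArg Tw (h.lowEmb_modT X e hℓL x).symm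

end Raise

end FLTAgent.ModLift
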