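import Fermat.Agent.ModLift.Degen.Push.AtP
import Fermat.Agent.ModLift.Degen.Push.DescendLow
import Fermat.Agent.ModLift.Degen.Push.Connected

/-!
# The operator of the lower level at `p`

Modulo the kernel of the reduction the root acts as Frobenius on the values of the descended
classes, so by the congruence of Kronecker the operator at `p` differs from the root plus `p` times
its inverse by an element all of whose values reduce to zero; as that kernel is connected and
residual inertia moves only along a line, this element vanishes.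
-/

set_option autoImplicit false
set_option linter.unusedSectionVars false
set_option linter.style.haveILetI false

noncomputable section

set_option synthInstance.maxHeartbeats 400000
set_option maxHeartbeats 1000000

open IsLocalRing CongruenceSubgroup FLTAgent.PeriodHecke
open scoped MatrixGroups

namespace FLTAgent.ModLift.Push

variable {R : Type} [CommRing R] {G : Type*} [Group G] {J : Type*} [AddCommGroup J]
  [DistribMulAction G J] {F : Type*} [AddCommGroup F] {P : AddSubgroup (F →+ J)}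
  {Θ : Matrix (Fin 2) (Fin 2) R →+* AddMonoid.End P} {r : G →* GL (Fin 2) R}

/-- **The congruence of Kronecker on a piece.** An operator congruent to the Frobenius plus `ℓ`
times its inverse agrees after reduction with the root plus `ℓ` times its inverse. -/
theorem kronecker_piece (hΘ : Equivariant Θ r) {W : Type*} [AddCommGroup W] (red : J →+ W)
    (T : J → J) (act act' : W → W) (hinv : ∀ w, act' (act w) = w) {φ σ₀ : G}
    (hF : ∀ v, red (φ • v) = act (red v)) (hI : ∀ v, red (σ₀ • v) = red v) {ℓ : ℕ}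
    (hK : ∀ v, red (T v) = act (red v) + ℓ • act' (red v)) {z₀ z₁ : R} (hzz : z₀ * z₁ = 1)
    {Z : Matrix (Fin 2) (Fin 2) R}
    (hZ : (r φ : Matrix (Fin 2) (Fin 2) R) - z₀ • 1 = ((r σ₀ : Matrix (Fin 2) (Fin 2) R) - 1) * Z)
    (x : P) (g : F) :
    red (T (x.1 g)) = red ((Θ ((z₀ + (ℓ : R) * z₁) • 1) x).1 g) := by
  have key : ∀ x : P, act (red (x.1 g)) = red ((Θ (z₀ • 1) x).1 g) := fun x => by
    have e1 : (Θ ((r φ : Matrix (Fin 2) (Fin 2) R) - z₀ • 1) x).1 g =
        σ₀ • (Θ Z x).1 g - (Θ Z x).1 g := by rw [hZ, hΘ.sub_one]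
    rw [piece_sub, AddSubgroup.coe_sub, AddMonoidHom.sub_apply, hΘ, sub_eq_iff_eq_add] at e1
    rw [← hF, e1, map_add, map_sub, hI, sub_self, zero_add]
  have key' : red ((Θ (z₁ • 1) x).1 g) = act' (red (x.1 g)) := by
    have h1 := key (Θ (z₁ • 1) x)
    rw [← piece_mul, Matrix.smul_mul, one_mul, smul_smul, hzz, one_smul, piece_one] at h1
    rw [← h1, hinv]
  rw [hK, key x, ← key', add_smul, ← smul_smul, piece_add, piece_natCast, AddSubgroup.coe_add,
    AddMonoidHom.add_apply, AddSubgroup.coe_nsmul, AddMonoidHom.smul_apply, map_add, map_nsmul]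

/-- Scalars commute with the Galois action on a piece. -/
theorem smul_scalar_apply (hΘ : Equivariant Θ r) (σ : G) (t : R) (x : P) (g : F) :
    σ • (Θ (t • 1) x).1 g = (Θ (t • 1) (Θ (r σ : Matrix (Fin 2) (Fin 2) R) x)).1 g := by
  rw [← piece_mul, Matrix.smul_mul, one_mul,
    show t • (r σ : Matrix (Fin 2) (Fin 2) R) = (r σ : Matrix (Fin 2) (Fin 2) R) * (t • 1) by
      rw [Matrix.mul_smul, mul_one], piece_mul, hΘ]

variable (Θ) in
/-- The translates of an element span a stable group. -/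
theorem mem_closure_translates (x₀ : P) (g : Matrix (Fin 2) (Fin 2) R) {x : P}
    (hx : x ∈ AddSubgroup.closure (Set.range fun a => Θ a x₀)) :
    Θ g x ∈ AddSubgroup.closure (Set.range fun a => Θ a x₀) := by
  induction hx using AddSubgroup.closure_induction with
  | mem x hx =>
    obtain ⟨a, rfl⟩ := hx
    rw [← piece_mul]
    exact AddSubgroup.subset_closure ⟨g * a, rfl⟩
  | zero => rw [map_zero]; exact zero_mem _
  | add a b _ _ iha ihb => rw [map_add]; exact add_mem iha ihb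
  | neg a _ iha => rw [map_neg]; exact neg_mem iha

/-- A map killing the values of the generators kills the values of the group they span. -/
theorem values_eq_zero_of_closure {W : Type*} [AddCommGroup W] (red : J →+ W) {s : Set P}
    (hs : ∀ x ∈ s, ∀ g, red (x.1 g) = 0) {x : P} (hx : x ∈ AddSubgroup.closure s) (g : F) :
    red (x.1 g) = 0 := by
  induction hx using AddSubgroup.closure_induction with
  | mem x hx => exact hs x hx g
  | zero => exact map_zero _
  | add a b _ _ iha ihb =>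
    rw [AddSubgroup.coe_add, AddMonoidHom.add_apply, map_add, iha, ihb, add_zero]
  | neg a _ iha =>
    rw [AddSubgroup.coe_neg, AddMonoidHom.neg_apply, map_neg, iha, neg_zero]

end FLTAgent.ModLift.Push

namespace FLTAgent.ModLift.Raise

open FLTAgent.Lowering
open ModularCurve (JZero heckeOperatorBar reductionModL)

local notation "QA" => AlgebraicClosure ℚ
local notation "GG" => (AlgebraicClosure ℚ ≃ₐ[ℚ] AlgebraicClosure ℚ)
local notation "M2" => Matrix (Fin 2) (Fin 2)

variable {p : ℕ} [Fact p.Prime] {O : Type} [CommRing O] [IsDomain O] [IsDiscreteValuationRing O]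
  [Algebra ℤ_[p] O] [Module.Finite ℤ_[p] O] [CharZero O] {S S' : Setup p O} {ℓ : ℕ}
  [Fact ℓ.Prime] (h : Raise S S' ℓ) (X : Aux S)

/-- The operator at `p`, given descended classes of the lower module. -/
theorem hecke_p_of_descend (hℓp : ℓ = p) {V : ValuationSubring QA} (hV : V.LiesOverPrime p)
    {v : Fin 2 → ResidueField O}
    (hv : ∀ σ ∈ V.inertiaSubgroupIn ℚ, ∀ w, ∃ a : ResidueField O,
      (S.rb σ : M2 (ResidueField O)).mulVec w = w + a • v)
    {φ : GG} (hφ : V.IsFrobeniusAt φ p) {z z' : (h.up X).TR}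
    (hz : IsQuotientRoot ((h.up X).levelData (h.up X).geometry).ρ V φ z z') (e : Bool)
    (Φ₀ : X.Mod e →+ Hpar (Gamma0 X.bigLevel) X.Coef) (hinj₀ : Function.Injective Φ₀)
    (hsmul₀ : ∀ (a : X.Coef) x,
      Φ₀ (a • x) = mapHpar (DistribSMul.toAddMonoidHom X.Coef a) (Φ₀ x))
    (hhecke₀ : ∀ (r : X.TrPrime) [Fact r.1.1.Prime], ¬ r.1.1 ∣ X.bigLevel → ∀ x,
      (heckeFam X.bigLevel r.1.1).heckePar (Φ₀ x) = Φ₀ (X.actTR e (X.trace r) x))
    (hT₀ : ∀ x, (heckeFam X.bigLevel ℓ).heckePar (Φ₀ x) = Φ₀ (h.modT X e x)) :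
    h.modT X e = X.actTR e (h.resTr X (z + (p : (h.up X).TR) * z')) := by
  classical
  subst hℓp
  haveI := X.isLocalRing_TR
  haveI := FrobTrace.charP_residueField hV
  haveI : NeZero ℓ := ⟨(Fact.out : ℓ.Prime).ne_zero⟩
  set N := X.bigLevel * 2 with hN
  haveI : NeZero N := ⟨Nat.mul_ne_zero (NeZero.ne X.bigLevel) two_ne_zero⟩
  have hpN : ¬ ℓ ∣ N := fun hd => ((Fact.out : ℓ.Prime).dvd_mul.1 hd).elim (h.not_dvd_bigLevel X)
    fun h2 => S.p_ne ((Nat.prime_dvd_prime_iff_eq Fact.out Nat.prime_two).1 h2)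
  have hp3 : 3 ≤ ℓ := by
    have := (Fact.out : ℓ.Prime).two_le
    have := S.p_ne
    omega
  have hd : X.bigLevel ∣ N := dvd_mul_right _ 2
  -- the classes at level `N`
  let Φ : X.Mod e →+ Hpar (Gamma0 N) X.Coef := (Push.resLow hd).comp Φ₀
  have hinj : Function.Injective Φ :=
    (Push.resLow_injective hd X.coef_eq_zero_of_nsmul).comp hinj₀
  have hnd : ∀ r : X.TrPrime, ¬ r.1.1 ∣ N := fun r hr => by
    rcases r.1.2.1.dvd_mul.1 hr with h1 | h1
    · rcases r.1.2.1.dvd_mul.1 h1 with h2 | h2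
      · exact r.2 h2
      · exact r.2 (h2.trans (twProd_dvd X))
    · exact r.1.2.2 ((congrArg (· ∈ S.bad)
        ((Nat.prime_dvd_prime_iff_eq r.1.2.1 Nat.prime_two).1 h1)).mpr S.two_mem)
  have hsmul : ∀ (a : X.Coef) y,
      Φ (a • y) = mapHpar (DistribSMul.toAddMonoidHom X.Coef a) (Φ y) := fun a y =>
    (congrArg (Push.resLow hd) (hsmul₀ a y)).trans (Push.resLow_mapHpar hd _ _)
  have hhecke : ∀ (r : X.TrPrime) [Fact r.1.1.Prime], ∀ y,
      (heckeFam N r.1.1).heckePar (Φ y) = Φ (X.actTR e (X.trace r) y) := fun r _ y => by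
    show _ = Push.resLow hd (Φ₀ _)
    rw [← hhecke₀ r (fun hb => hnd r (hb.trans hd)) y, Push.resLow_hecke hd (hnd r)]
    rfl
  have hT : ∀ y, (heckeFam N ℓ).heckePar (Φ y) = Φ (h.modT X e y) := fun y => by
    show _ = Push.resLow hd (Φ₀ _)
    rw [← hT₀ y, Push.resLow_hecke hd hpN]
    rfl
  -- the root at the lower level
  obtain ⟨σ₀, hσ₀, c, -, -, hd1, hunit, hB⟩ := X.exists_inertia_data hV hv
  set f : (h.up X).TR →+* X.TR := (h.resTr X).toRingHom
  set z₀ : X.TR := f z
  set z₁ : X.TR := f z'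
  have hzz : z₀ * z₁ = 1 := (map_mul f z z').symm.trans ((congrArg f hz.1).trans (map_one f))
  have hroot : ((X.repY σ₀ : M2 X.TR) - (X.repY σ₀ : M2 X.TR).det • 1) *
      ((X.repY φ : M2 X.TR) - z₀ • 1) = 0 := by
    have h1 := Push.root_map (h.up X).repY X.repY f (fun g => (h.degen X).resT_tr g) X.repY_span
      (d := ((h.up X).repY σ₀ : M2 (h.up X).TR).det) (z := z) (hz.2 σ₀ hσ₀)
    have hdet : f ((h.up X).repY σ₀ : M2 (h.up X).TR).det = (X.repY σ₀ : M2 X.TR).det := by
      show f (detGL (((h.up X).pseudo_spec (h.up X).geometry).rep σ₀)) =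
        detGL ((X.pseudo_spec X.geometry).rep σ₀)
      rw [((h.up X).pseudo_spec (h.up X).geometry).det_rep, (X.pseudo_spec X.geometry).det_rep,
        ((h.up X).pseudo_spec (h.up X).geometry).det_eq, (X.pseudo_spec X.geometry).det_eq]
      show h.resTr X (algebraMap ℤ_[ℓ] (h.up X).TR (cycZ ℓ σ₀)) =
        algebraMap ℤ_[ℓ] X.TR (cycZ ℓ σ₀)
      rw [IsScalarTower.algebraMap_apply ℤ_[ℓ] O (h.up X).TR, AlgHom.commutes,
        ← IsScalarTower.algebraMap_apply ℤ_[ℓ] O X.TR]
    rwa [hdet] at h1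
  obtain ⟨Z, hZ⟩ := Push.exists_sub_one_mul hd1 hroot
  set s : X.TR := z₀ + (ℓ : X.TR) * z₁ with hs
  have hres : h.resTr X (z + (ℓ : (h.up X).TR) * z') = s := by
    show f (z + (ℓ : (h.up X).TR) * z') = _
    rw [map_add, map_mul, map_natCast]
  rw [hres]
  refine LinearMap.ext fun y => sub_eq_zero.1 (X.eq_zero_of_funOf hinj _ fun n => ?_)
  set y' := h.modT X e y - X.actTR e s y with hy'
  haveI : NeZero (ℓ ^ n) := ⟨pow_ne_zero _ (NeZero.ne ℓ)⟩
  obtain ⟨Θ, hΘ, ht⟩ := X.exists_funOf_matrix hnd Φ hsmul hhecke n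
  -- reduction of the values
  obtain ⟨hin, -⟩ := Kronecker.goodReductionAt N ℓ Fact.out hpN V hV
  let red := reductionModL V N
  let fr := Kronecker.residueAut V ⟨φ, hφ.mem_decompositionSubgroup⟩
  have hfr : ∀ a, fr a = a ^ ℓ := fun a => hφ.smul_residue_eq a
  let F := Kronecker.specialAut N fr
  have kron : ∀ (x : X.pieceOf (X.funOf Φ n)) g,
      red (heckeOperatorBar N ⟨ℓ, Fact.out⟩ (x.1 g)) = red ((Θ (s • 1) x).1 g) :=
    Push.kronecker_piece hΘ red (fun v => heckeOperatorBar N ⟨ℓ, Fact.out⟩ v)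
      (fun w => F • w) (fun w => F⁻¹ • w) (fun w => inv_smul_smul F w)
      (Kronecker.reductionModL_smul_of_frobenius hin hφ fr hfr)
      (Kronecker.reductionModL_smul_of_mem_inertia σ₀ hσ₀)
      (Kronecker.reductionModL_hecke hpN hin fr hfr) hzz hZ
  let K : AddSubgroup (JZero N) :=
    { carrier := {u | ∀ σ : GG, red (σ • u) = 0}
      zero_mem' := fun σ => by rw [smul_zero, map_zero]
      add_mem' := fun {a b} ha hb σ => by rw [smul_add, map_add, ha σ, hb σ, add_zero]
      neg_mem' := fun {a} ha σ => by rw [smul_neg, map_neg, ha σ, neg_zero] }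
  have hK : ∀ σ : GG, ∀ u ∈ K, σ • u ∈ K := fun σ u hu τ => by
    rw [← mul_smul]
    exact hu (τ * σ)
  have hmemK : ∀ t g, X.funOf Φ n (X.actTR e t y') g ∈ K := fun t g σ => by
    have hc : X.actTR e t y' = h.modT X e (X.actTR e t y) - X.actTR e s (X.actTR e t y) := by
      rw [hy', map_sub, ← X.actTR_mul_apply, mul_comm t s, X.actTR_mul_apply]
      exact congrArg (· - _) (LinearMap.congr_fun (h.modT_comm X e t).eq y).symm
    rw [hc, map_sub (X.funOf Φ n), AddMonoidHom.sub_apply, smul_sub, map_sub, sub_eq_zero]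
    have h1 : X.funOf Φ n (h.modT X e (X.actTR e t y)) g =
        heckeOperatorBar N ⟨ℓ, Fact.out⟩ (X.funOf Φ n (X.actTR e t y) g) := by
      haveI : Fact ((⟨ℓ, Fact.out⟩ : Nat.Primes) : ℕ).Prime := ⟨Fact.out⟩
      show Push.vec N (ℓ ^ n) (Φ _) g = _
      rw [← hT]
      exact Push.vec_hecke N (ℓ ^ n) ⟨ℓ, Fact.out⟩ _ g
    have h2 : σ • heckeOperatorBar N ⟨ℓ, Fact.out⟩ (X.funOf Φ n (X.actTR e t y) g) =
        heckeOperatorBar N ⟨ℓ, Fact.out⟩ (σ • X.funOf Φ n (X.actTR e t y) g) := by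
      exact EigenLattice.smul_heckeOperatorAlong N ℓ σ (X.funOf Φ n (X.actTR e t y) g)
    set x := X.pieceAt Φ n (X.actTR e t y) with hx
    have h3 : σ • X.funOf Φ n (X.actTR e t y) g = (Θ (X.repY σ : M2 X.TR) x).1 g := (hΘ σ x g).symm
    rw [h1, h2, h3, kron, ← Push.smul_scalar_apply hΘ σ s x g, hx, ht]
    rfl
  let Q : AddSubgroup (X.pieceOf (X.funOf Φ n)) :=
    AddSubgroup.closure (Set.range fun g : M2 X.TR => Θ g (X.pieceAt Φ n y'))
  have hQ : ∀ g, ∀ x ∈ Q, Θ g x ∈ Q := fun g x hx => Push.mem_closure_translates Θ _ g hx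
  have hgen : ∀ x ∈ Set.range (fun g : M2 X.TR => Θ g (X.pieceAt Φ n y')), ∀ g,
      red (x.1 g) = 0 := by
    rintro _ ⟨a, rfl⟩ g
    have hm := X.translate_mem hΘ ht K hK hmemK a g
    exact (congrArg red (one_smul GG _).symm).trans (hm 1)
  have hred : ∀ x ∈ Q, ∀ g, red (x.1 g) = 0 := fun x hx g =>
    Push.values_eq_zero_of_closure red hgen hx g
  have hzero := Push.eq_zero_of_reduction (p := ℓ) (m := n) hΘ X.repY_span
    (I₀ := V.inertiaSubgroupIn ℚ) red
    (fun g => AddMonoidHom.ext fun a => by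
      rw [AddMonoidHom.smul_apply, nsmul_eq_mul, ZMod.natCast_self, zero_mul]
      rfl)
    (fun K L h1 h2 h3 h4 h5 h6 => Push.le_of_reduction_eq_zero hp3 hpN
      (inRange_twice X.bigLevel S) hV h1 h2 h3 h4 h5 h6)
    (X.exists_maximal_pow_le n) σ₀ c hB hunit hQ hred
    (AddSubgroup.subset_closure ⟨1, Push.piece_one Θ _⟩ : X.pieceAt Φ n y' ∈ Q)
  exact congrArg Subtype.val hzero

/-- **The operator of the lower level at `p`** through the root at the upper level. -/
theorem degen_hecke_p (hℓp : ℓ = p) (V : ValuationSubring QA) (hV : V.LiesOverPrime p)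
    (hv : ∃ v : Fin 2 → ResidueField O, ∀ σ ∈ V.inertiaSubgroupIn ℚ, ∀ w, ∃ a : ResidueField O,
      (S.rb σ : M2 (ResidueField O)).mulVec w = w + a • v)
    (φ : GG) (hφ : V.IsFrobeniusAt φ p) (z z' : (h.up X).TR)
    (hz : IsQuotientRoot ((h.up X).levelData (h.up X).geometry).ρ V φ z z') (e : Bool) :
    h.modT X e = X.actTR e (h.resTr X (z + (p : (h.up X).TR) * z')) := by
  obtain ⟨v, hv⟩ := hv
  obtain ⟨Φ₀, hinj₀, hsmul₀, hhecke₀, hT₀⟩ := exists_descend_low h X e
  exact hecke_p_of_descend h X hℓp hV hv hφ hz e Φ₀ hinj₀ hsmul₀ hhecke₀ hT₀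

end FLTAgent.ModLift.Raise
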