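import Fermat.Agent.ModLift.Degen.Push.Span
import Fermat.Agent.ModLift.Degen.Push.Start

/-!
# Twisting and descending classes with vanishing coset sums

Vanishing coset sums at the level of the twisted classes pass to the descended class of the larger
level, also after conjugation by an Atkin–Lehner matrix of the larger level.
-/

set_option autoImplicit false
set_option linter.unusedSectionVars false
set_option linter.style.haveILetI false

noncomputable section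

open CongruenceSubgroup
open scoped MatrixGroups

namespace FLTAgent.ModLift.Push

open FLTAgent.PeriodHecke FLTAgent.DeligneSerre

local notation "SL2Z" => Matrix.SpecialLinearGroup (Fin 2) ℤ
local notation "M2" => Matrix (Fin 2) (Fin 2) ℤ

/-- Conjugation by a matrix, where it preserves integrality. -/
def conjMx (T : M2) (g : SL2Z) : SL2Z :=
  open scoped Classical in
  if h : ∃ δ : SL2Z, T * (g : M2) = (δ : M2) * T then h.choose else 1

theorem conjMx_eq {T : M2} (hT : T.det ≠ 0) {g δ : SL2Z} (h : T * (g : M2) = (δ : M2) * T) :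
    conjMx T g = δ := by
  have h' : ∃ δ : SL2Z, T * (g : M2) = (δ : M2) * T := ⟨δ, h⟩
  rw [conjMx, dif_pos h']
  refine Subtype.ext ?_
  exact LevelRaise.mul_right_cancel_det hT (h'.choose_spec.symm.trans h)

theorem conjMx_spec {T : M2} {g : SL2Z} (h : ∃ δ : SL2Z, T * (g : M2) = (δ : M2) * T) :
    T * (g : M2) = (conjMx T g : M2) * T := by
  rw [conjMx, dif_pos h]
  exact h.choose_spec

theorem conjMx_mul {T : M2} (hT : T.det ≠ 0) {g g' : SL2Z}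
    (h : ∃ δ : SL2Z, T * (g : M2) = (δ : M2) * T) (h' : ∃ δ : SL2Z, T * (g' : M2) = (δ : M2) * T) :
    conjMx T (g * g') = conjMx T g * conjMx T g' := by
  refine conjMx_eq hT ?_
  rw [Matrix.SpecialLinearGroup.coe_mul, Matrix.SpecialLinearGroup.coe_mul, ← mul_assoc,
    conjMx_spec h, mul_assoc, conjMx_spec h', mul_assoc]

/-- The Atkin–Lehner matrices. -/
def wMx (ℓ : ℕ) (M : ℤ) (x y z t : ℤ) : M2 := !![(ℓ : ℤ) * x, y; M * ℓ * z, (ℓ : ℤ) * t]

theorem det_wMx {ℓ : ℕ} {M x y z t : ℤ} (h : (ℓ : ℤ) * x * t - M * y * z = 1) :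
    (wMx ℓ M x y z t).det = ℓ := by
  rw [wMx, Matrix.det_fin_two_of]
  linear_combination (ℓ : ℤ) * h

variable {ℓ : ℕ} [Fact ℓ.Prime]

/-- Conjugation by an Atkin–Lehner matrix on the groups `Γ₀(N) ∩ Γ₀(ℓ)`. -/
theorem exists_conj_w {M N : ℕ} (hN : N ∣ M) {x y z t : ℤ}
    (h : (ℓ : ℤ) * x * t - (M : ℤ) * y * z = 1) {g : SL2Z} (hg : g ∈ low ℓ (Gamma0 N)) :
    ∃ δ : SL2Z, wMx ℓ M x y z t * (g : M2) = (δ : M2) * wMx ℓ M x y z t ∧
      δ ∈ low ℓ (Gamma0 N) ∧ (g ∈ Gamma1 N → δ ∈ Gamma1 N) := by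
  obtain ⟨hg0, hgl⟩ := Subgroup.mem_inf.1 hg
  rw [Gamma0_mem, ZMod.intCast_zmod_eq_zero_iff_dvd] at hg0 hgl
  obtain ⟨c₁, hc₁⟩ := hgl
  have hdet : (g : M2) 0 0 * (g : M2) 1 1 - (g : M2) 0 1 * (g : M2) 1 0 = 1 := by
    rw [← Matrix.det_fin_two]; exact g.2
  set a := (g : M2) 0 0
  set b := (g : M2) 0 1
  set c := (g : M2) 1 0
  set d := (g : M2) 1 1
  let D : M2 := !![((ℓ : ℤ) * x * a + y * c) * t - ((ℓ : ℤ) * x * b + y * d) * (M * z),
    -(x * a * y) - y * y * c₁ + ℓ * x * x * b + x * y * d;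
    (ℓ : ℤ) * (((M : ℤ) * z * a + t * c) * t - ((M : ℤ) * z * b + t * d) * (M * z)),
    -(((M : ℤ) * z * a + t * c) * y) + ℓ * x * ((M : ℤ) * z * b + t * d)]
  have hrel : wMx ℓ M x y z t * (g : M2) = D * wMx ℓ M x y z t := by
    conv_lhs => rw [Matrix.eta_fin_two (g : M2)]
    ext i j
    fin_cases i <;> fin_cases j <;> simp [wMx, D, Matrix.mul_apply, Fin.sum_univ_two]
    · linear_combination (-((ℓ : ℤ) * x * a + y * c)) * h + ((M : ℤ) * z * y * y) * (-hc₁)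
    · linear_combination (-((ℓ : ℤ) * x * b + y * d)) * h + (y * y * t) * (-hc₁)
    · linear_combination (-((ℓ : ℤ) * ((M : ℤ) * z * a + t * c))) * h
    · linear_combination (-((ℓ : ℤ) * ((M : ℤ) * z * b + t * d))) * h
  have hD : D.det = 1 := by
    have e := congrArg Matrix.det hrel
    rw [Matrix.det_mul, Matrix.det_mul, g.2, mul_one, det_wMx h] at e
    exact (mul_eq_right₀ (Int.natCast_ne_zero.2 (Fact.out : ℓ.Prime).ne_zero)).1 e.symm
  have hM : ((M : ℤ) : ZMod N) = 0 := (ZMod.intCast_zmod_eq_zero_iff_dvd _ _).2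
    (Int.natCast_dvd_natCast.2 hN)
  have hc : ((c : ℤ) : ZMod N) = 0 := (ZMod.intCast_zmod_eq_zero_iff_dvd _ _).2 hg0
  have hxt : ((ℓ : ℤ) : ZMod N) * (x : ZMod N) * (t : ZMod N) = 1 := by
    have e := congrArg (fun z : ℤ => (z : ZMod N)) h
    simp only [Int.cast_sub, Int.cast_mul, hM, Int.cast_one] at e
    simpa using e
  refine ⟨(⟨D, hD⟩ : SL2Z), hrel, Subgroup.mem_inf.2 ⟨Gamma0_mem.2 ?_, Gamma0_mem.2 ?_⟩,
    fun h1 => ?_⟩
  · show ((D 1 0 : ℤ) : ZMod N) = 0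
    simp only [D, Matrix.of_apply, Matrix.cons_val', Matrix.cons_val_zero, Matrix.cons_val_one,
      Matrix.empty_val', Matrix.cons_val_fin_one, Int.cast_mul, Int.cast_sub, Int.cast_add, hM, hc]
    ring
  · show ((D 1 0 : ℤ) : ZMod ℓ) = 0
    simp [D]
  · obtain ⟨h00, h11, -⟩ := (Gamma1_mem N g).1 h1
    have h00' : ((a : ℤ) : ZMod N) = 1 := h00
    have h11' : ((d : ℤ) : ZMod N) = 1 := h11
    refine (Gamma1_mem N _).2 ⟨?_, ?_, ?_⟩
    · show ((D 0 0 : ℤ) : ZMod N) = 1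
      simp only [D, Matrix.of_apply, Matrix.cons_val', Matrix.cons_val_zero, Matrix.cons_val_one,
        Matrix.empty_val', Matrix.cons_val_fin_one, Int.cast_mul, Int.cast_sub, Int.cast_add, hM,
        hc, h00']
      linear_combination hxt
    · show ((D 1 1 : ℤ) : ZMod N) = 1
      simp only [D, Matrix.of_apply, Matrix.cons_val', Matrix.cons_val_zero, Matrix.cons_val_one,
        Matrix.empty_val', Matrix.cons_val_fin_one, Int.cast_mul, Int.cast_neg, Int.cast_add, hM,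
        hc, h11']
      linear_combination hxt
    · show ((D 1 0 : ℤ) : ZMod N) = 0
      simp only [D, Matrix.of_apply, Matrix.cons_val', Matrix.cons_val_zero, Matrix.cons_val_one,
        Matrix.empty_val', Matrix.cons_val_fin_one, Int.cast_mul, Int.cast_sub, Int.cast_add, hM,
        hc]
      ring

theorem det_shiftMx_ne {P : ℕ} [NeZero P] (k : ℤ) : (shiftMx P k).det ≠ 0 := by
  rw [det_shiftMx]
  exact mul_ne_zero (NeZero.ne (P : ℤ)) (NeZero.ne (P : ℤ))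

theorem exists_conj_shift {L P : ℕ} (hP : P ∣ L) (k : ℤ) {g : SL2Z} (hg : g ∈ Gamma1 (L * P)) :
    ∃ δ : SL2Z, δ ∈ Gamma1 L ∧ shiftMx P k * (g : M2) = (δ : M2) * shiftMx P k :=
  let ⟨δ, hδ⟩ := exists_shift_gamma1 hP k ⟨g, hg⟩
  ⟨δ, δ.2, hδ⟩

theorem mem_gamma0_shift {P : ℕ} [NeZero P] {k : ℤ} {g δ : SL2Z}
    (h : shiftMx P k * (g : M2) = (δ : M2) * shiftMx P k) (n : ℕ) :
    δ ∈ Gamma0 n ↔ g ∈ Gamma0 n := by
  have h10 := congrFun (congrFun h 1) 0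
  simp [shiftMx, Matrix.mul_apply, Fin.sum_univ_two] at h10
  have e : (g : M2) 1 0 = (δ : M2) 1 0 :=
    mul_left_cancel₀ (NeZero.ne (P : ℤ)) (h10.trans (mul_comm _ _))
  rw [Gamma0_mem, Gamma0_mem]
  exact iff_of_eq (congrArg (fun z : ℤ => (z : ZMod n) = 0) e.symm)

variable {V : Type*} [AddCommGroup V]

theorem AddOn.eq_of_pow {H : Subgroup SL2Z} {f g : SL2Z → V} (hf : AddOn H f) (hg : AddOn H g)
    (htf : ∀ (m : ℕ) (v : V), m ≠ 0 → m • v = 0 → v = 0) {a : SL2Z} (ha : a ∈ H) {m : ℕ}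
    (hm : m ≠ 0) (h : f (a ^ m) = g (a ^ m)) : f a = g a := by
  have e : ∀ (F : SL2Z → V), AddOn H F → ∀ k : ℕ, F (a ^ k) = k • F a := fun F hF k => by
    induction k with
    | zero => rw [pow_zero, zero_smul, hF.one]
    | succ k ih => rw [pow_succ, hF _ (pow_mem ha k) _ ha, ih, succ_nsmul]
  refine sub_eq_zero.1 (htf m _ hm ?_)
  rw [smul_sub, ← e f hf, ← e g hg, h, sub_self]

theorem exists_pow_mem_gamma1 (n : ℕ) [NeZero n] (g : SL2Z) :
    ∃ m : ℕ, m ≠ 0 ∧ g ^ m ∈ Gamma1 n := by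
  obtain ⟨m, hm, -, h⟩ := (Gamma1 n).exists_pow_mem_of_index_ne_zero
    (Subgroup.FiniteIndex.index_ne_zero) g
  exact ⟨m, Nat.pos_iff_ne_zero.1 hm, h⟩

theorem gamma1_mono {a b : ℕ} (h : a ∣ b) : Gamma1 b ≤ Gamma1 a := fun g hg => by
  obtain ⟨h00, h11, h10⟩ := (Gamma1_mem b g).1 hg
  refine (Gamma1_mem a g).2 ⟨?_, ?_, ?_⟩
  · have e := congrArg (ZMod.castHom h (ZMod a)) h00
    rwa [map_intCast, map_one] at e
  · have e := congrArg (ZMod.castHom h (ZMod a)) h11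
    rwa [map_intCast, map_one] at e
  · have e := congrArg (ZMod.castHom h (ZMod a)) h10
    rwa [map_intCast, map_zero] at e

variable {L P : ℕ} [NeZero L] [NeZero P] {A : Type*} [CommRing A] [Module A V]
  (hP : P ∣ L) (hℓ : ¬ ℓ ∣ L * P) {x y z t : ℤ}
  (hdet : (ℓ : ℤ) * x * t - ((L * P : ℕ) : ℤ) * y * z = 1)

include hP hℓ in
/-- A translate. -/
theorem tr0_shift {f : SL2Z → V} (hf : Tr0 ℓ (Gamma1 L) f) (k : ℤ) :
    Tr0 ℓ (Gamma1 (L * P)) (f ∘ conjMx (shiftMx P k)) := by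
  have hex : ∀ g ∈ Gamma1 (L * P), ∃ δ : SL2Z, shiftMx P k * (g : M2) = (δ : M2) * shiftMx P k :=
    fun g hg => let ⟨δ, _, h⟩ := exists_conj_shift hP k hg; ⟨δ, h⟩
  refine hf.comap (full_gamma1 hℓ) _ (fun g hg => ?_) (fun g hg g' hg' => ?_) fun g hg => ?_
  · obtain ⟨δ, hδ, h⟩ := exists_conj_shift hP k hg
    rwa [conjMx_eq (det_shiftMx_ne k) h]
  · exact conjMx_mul (det_shiftMx_ne k) (hex g hg) (hex g' hg')
  · exact mem_gamma0_shift (conjMx_spec (hex g hg)) ℓ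

include hP hℓ hdet in
/-- A translate after an Atkin–Lehner matrix of the larger level. -/
theorem tr0_shift_w {f : SL2Z → V} (hf : Tr0 ℓ (Gamma1 L) (f ∘ conjMx (wMx ℓ (L * P : ℕ) x y z t)))
    (k : ℤ) : Tr0 ℓ (Gamma1 (L * P))
      ((f ∘ conjMx (shiftMx P k)) ∘ conjMx (wMx ℓ (L * P : ℕ) x y z t)) := by
  set W := wMx ℓ (L * P : ℕ) x y z t
  set k' := k * ℓ * t * t
  obtain ⟨m, hm⟩ := hP
  refine (tr0_shift ⟨m, hm⟩ hℓ hf k').congr fun g hg => ?_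
  obtain ⟨hg1, hgl⟩ := Subgroup.mem_inf.1 hg
  have hg0 : g ∈ low ℓ (Gamma0 (L * P)) :=
    Subgroup.mem_inf.2 ⟨Gamma1_in_Gamma0 _ hg1, hgl⟩
  have hWdet : W.det ≠ 0 := by
    rw [det_wMx hdet]; exact Int.natCast_ne_zero.2 (Fact.out : ℓ.Prime).ne_zero
  -- the element carrying one translation to the other
  have hLP : ((L * P : ℕ) : ℤ) = P * P * m := by rw [hm]; push_cast; ring
  let K : M2 := !![1 + k * ℓ * t * z * (P * m), -(k' * k * ℓ * t * z * m);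
    -(k * ℓ * z * z * ((L * P : ℕ) : ℤ) * (P * m)),
    1 - k * ℓ * t * z * (P * m) + k' * k * ℓ * z * z * m * (P * P * m)]
  have hK : K.det = 1 := by
    rw [Matrix.det_fin_two_of, hLP]
    simp only [k']
    ring
  obtain ⟨κ, hκ⟩ : ∃ κ : SL2Z, (κ : M2) = K := ⟨⟨K, hK⟩, rfl⟩
  have hKmem : κ ∈ low ℓ (Gamma1 L) := by
    have hL0 : (L : ZMod L) = 0 := ZMod.natCast_self L
    have hPm : (P : ZMod L) * (m : ZMod L) = 0 := by
      rw [← Nat.cast_mul, ← hm, hL0]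
    refine Subgroup.mem_inf.2 ⟨(Gamma1_mem L κ).2 ⟨?_, ?_, ?_⟩, ?_⟩
    · rw [hκ]
      simp [K]
      linear_combination ((k : ZMod L) * ℓ * t * z) * hPm
    · rw [hκ]
      simp [K]
      linear_combination ((k' : ZMod L) * k * ℓ * z * z * m * P - (k : ZMod L) * ℓ * t * z) * hPm
    · rw [hκ]
      simp [K, hL0]
    · rw [Gamma0_mem, hκ]
      simp [K]
  have hd' : (ℓ : ℤ) * x * t - (P * P * m : ℤ) * y * z = 1 := by rw [← hLP]; exact hdet
  have hAW : shiftMx P k * W = W * K * shiftMx P k' := by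
    ext i j
    fin_cases i <;> fin_cases j <;>
      simp [K, W, wMx, shiftMx, Matrix.mul_apply, Fin.sum_univ_two, k'] <;>
      rw [show ((L : ℤ) * P) = P * P * m by rw [hm]; push_cast; ring]
    · linear_combination (-(k * ℓ * z * P * P * m)) * hd'
    · linear_combination (-(k * ℓ * t)) * hd'
    · ring
    · ring
  obtain ⟨u, hu, hulow, -⟩ := exists_conj_w dvd_rfl hdet hg0
  obtain ⟨δ', hδ'1, hδ'⟩ := exists_conj_shift ⟨m, hm⟩ k' hg1
  have hδ'low : δ' ∈ low ℓ (Gamma1 L) :=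
    Subgroup.mem_inf.2 ⟨hδ'1, (mem_gamma0_shift hδ' ℓ).2 hgl⟩
  have hmemκ : κ * δ' * κ⁻¹ ∈ low ℓ (Gamma1 L) :=
    mul_mem (mul_mem hKmem hδ'low) (inv_mem hKmem)
  have hLd : L ∣ L * P := dvd_mul_right _ _
  obtain ⟨v, hv, -, -⟩ := exists_conj_w hLd hdet
    (show κ * δ' * κ⁻¹ ∈ low ℓ (Gamma0 L) from Subgroup.mem_inf.2
      ⟨Gamma1_in_Gamma0 _ (Subgroup.mem_inf.1 hmemκ).1, (Subgroup.mem_inf.1 hmemκ).2⟩)
  have h1 : shiftMx P k * (u : M2) = (v : M2) * shiftMx P k := by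
    refine LevelRaise.mul_right_cancel_det hWdet ?_
    rw [mul_assoc, ← hu, ← mul_assoc, hAW, mul_assoc, hδ', ← mul_assoc, mul_assoc (v : M2), hAW]
    have e : K * (δ' : M2) = ((κ * δ' * κ⁻¹ : SL2Z) : M2) * K := by
      have : κ * δ' = κ * δ' * κ⁻¹ * κ := by group
      rw [← hκ]; exact congrArg Subtype.val this
    rw [mul_assoc W, e, ← mul_assoc W, hv, mul_assoc (v : M2) W, mul_assoc (v : M2) (W * K)]
  show f (conjMx (shiftMx P k) (conjMx W g)) = (f ∘ conjMx W) (conjMx (shiftMx P k') g)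
  rw [conjMx_eq hWdet hu, conjMx_eq (det_shiftMx_ne k) h1, conjMx_eq (det_shiftMx_ne k') hδ',
    ← hf.addOn.conj hKmem hδ'low, Function.comp_apply, conjMx_eq hWdet hv]

variable {M₁ L' : ℕ} [NeZero M₁] (hM₁ : M₁ = L * P * ℓ) (hL' : L' = L * ℓ)
  (htf : ∀ (m : ℕ) (v : V), m ≠ 0 → m • v = 0 → v = 0)

include hP hℓ hM₁ hL' hdet htf in
/-- **The descended class has vanishing sums, plain and after the Atkin–Lehner matrix.** -/
theorem tr0_descend {ι : Type*} [Fintype ι] (w : ι → A) (k : ι → ℤ) (f : SL2Z → V)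
    (h0 : Tr0 ℓ (Gamma1 L) f) (hW : Tr0 ℓ (Gamma1 L) (f ∘ conjMx (wMx ℓ (L * P : ℕ) x y z t)))
    (Fn : SL2Z → V) (hadd : AddOn (Gamma0 M₁) Fn) (c : ℕ)
    (hFn : ∀ (g : Gamma1 M₁) (δ : ι → Gamma1 L'),
      (∀ i, shiftMx P (k i) * mat g = mat (δ i) * shiftMx P (k i)) →
        Fn g = c • ∑ i, w i • f (δ i)) :
    Tr0 ℓ (Gamma0 (L * P)) Fn ∧
      Tr0 ℓ (Gamma0 (L * P)) (Fn ∘ conjMx (wMx ℓ (L * P : ℕ) x y z t)) := by
  haveI : NeZero (L * P) := ⟨Nat.mul_ne_zero (NeZero.ne L) (NeZero.ne P)⟩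
  set W := wMx ℓ (L * P : ℕ) x y z t
  have hWdet : W.det ≠ 0 := by
    rw [det_wMx hdet]; exact Int.natCast_ne_zero.2 (Fact.out : ℓ.Prime).ne_zero
  set g1 : SL2Z → V := fun g => ∑ i, w i • f (conjMx (shiftMx P (k i)) g)
  have hG1 : Tr0 ℓ (Gamma1 (L * P)) g1 :=
    Tr0.smul_sum Finset.univ w fun i _ => tr0_shift hP hℓ h0 (k i)
  have hG1W : Tr0 ℓ (Gamma1 (L * P)) (g1 ∘ conjMx W) :=
    Tr0.smul_sum Finset.univ w fun i _ => tr0_shift_w hP hℓ hdet hW (k i)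
  have hlow0 : ∀ {a : SL2Z}, a ∈ low ℓ (Gamma0 (L * P)) → a ∈ Gamma0 M₁ := fun {a} ha => by
    subst hM₁
    obtain ⟨h1, h2⟩ := Subgroup.mem_inf.1 ha
    rw [Gamma0_mem, ZMod.intCast_zmod_eq_zero_iff_dvd] at h1 h2 ⊢
    push_cast at h1 ⊢
    exact IsCoprime.mul_dvd (by exact_mod_cast Nat.isCoprime_iff_coprime.2 (coprime_level hℓ)) h1 h2
  have hFn0 : AddOn (low ℓ (Gamma0 (L * P))) Fn := fun a ha b hb =>
    hadd a (hlow0 ha) b (hlow0 hb)
  have hle : low ℓ (Gamma1 (L * P)) ≤ low ℓ (Gamma0 (L * P)) := fun a ha =>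
    Subgroup.mem_inf.2 ⟨Gamma1_in_Gamma0 _ (Subgroup.mem_inf.1 ha).1, (Subgroup.mem_inf.1 ha).2⟩
  have heq : ∀ a ∈ low ℓ (Gamma1 (L * P)), Fn a = c • g1 a := by
    intro a ha
    obtain ⟨m, hm, hpow⟩ := exists_pow_mem_gamma1 M₁ a
    refine AddOn.eq_of_pow (H := low ℓ (Gamma1 (L * P))) (g := fun a => c • g1 a)
      (fun a ha b hb => hFn0 a (hle ha) b (hle hb))
      (fun a ha b hb => by simp only [hG1.addOn a ha b hb, smul_add]) htf ha hm ?_
    have hsub : ∀ i, ∃ δ : Gamma1 L',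
        shiftMx P (k i) * (↑(a ^ m) : M2) = mat δ * shiftMx P (k i) := fun i => by
      have hmem : (a ^ m : SL2Z) ∈ Gamma1 (L' * P) :=
        gamma1_mono (by rw [hL', hM₁]; exact dvd_of_eq (by ring)) hpow
      exact exists_shift_gamma1 (hL' ▸ hP.mul_right ℓ) (k i) ⟨_, hmem⟩
    choose δ hδ using hsub
    rw [hFn ⟨_, hpow⟩ δ hδ]
    refine congrArg (c • ·) (Finset.sum_congr rfl fun i _ => ?_)
    rw [conjMx_eq (det_shiftMx_ne (k i)) (hδ i)]
  have hmk : ∀ {F G : SL2Z → V}, AddOn (low ℓ (Gamma0 (L * P))) F → Tr0 ℓ (Gamma1 (L * P)) G →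
      (∀ a ∈ low ℓ (Gamma1 (L * P)), F a = c • G a) → Tr0 ℓ (Gamma0 (L * P)) F := by
    intro F G hF hG hFG
    obtain ⟨R⟩ := (full_gamma1 (M := L * P) hℓ).nonempty_sys
    have h1 : Tr0 ℓ (Gamma1 (L * P)) F := (hG.map (c • AddMonoidHom.id V)).congr fun a ha => hFG a ha
    let R0 : Sys ℓ (Gamma0 (L * P)) := ⟨R.r, fun x => Gamma1_in_Gamma0 _ (R.mem x), R.spec⟩
    refine .of_finite_index hF htf R0 (Gamma1 (L * P)) (fun γ _ => exists_pow_mem_gamma1 _ γ)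
      fun γ _ hγ => h1.zero R γ hγ
  refine ⟨hmk hFn0 hG1 heq, hmk (fun a ha b hb => ?_) hG1W fun a ha => ?_⟩
  · obtain ⟨u, hu, hu', -⟩ := exists_conj_w dvd_rfl hdet ha
    obtain ⟨v, hv, hv', -⟩ := exists_conj_w dvd_rfl hdet hb
    show Fn (conjMx W (a * b)) = Fn (conjMx W a) + Fn (conjMx W b)
    rw [conjMx_mul hWdet ⟨u, hu⟩ ⟨v, hv⟩, conjMx_eq hWdet hu, conjMx_eq hWdet hv]
    exact hFn0 u hu' v hv'
  · obtain ⟨u, hu, hu', h1⟩ := exists_conj_w dvd_rfl hdet (hle ha)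
    show Fn (conjMx W a) = c • g1 (conjMx W a)
    rw [conjMx_eq hWdet hu]
    exact heq u (Subgroup.mem_inf.2
      ⟨h1 (Subgroup.mem_inf.1 ha).1, (Subgroup.mem_inf.1 hu').2⟩)

end FLTAgent.ModLift.Push
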