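import Fermat.Agent.ModLift.Degen.Main
import Fermat.Agent.ModLift.Degen.Push.Tower

/-!
# The classes of the upper module, multiplied by the killer of the lower level

They are injective, commute with the operators and, for elements killed by the transfers, have
vanishing coset sums.
-/

set_option autoImplicit false
set_option linter.unusedSectionVars false
set_option linter.style.haveILetI false

noncomputable section

set_option synthInstance.maxHeartbeats 400000
set_option maxHeartbeats 1000000

open IsLocalRing CongruenceSubgroup FLTAgent.Lowering.Cocycle FLTAgent.PeriodHecke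
  FLTAgent.DeligneSerre
open scoped MatrixGroups

namespace FLTAgent.ModLift

open FLTAgent.Lowering

local notation "SL2Z" => Matrix.SpecialLinearGroup (Fin 2) ℤ
local notation "M2" => Matrix (Fin 2) (Fin 2) ℤ

variable {p : ℕ} [Fact p.Prime] {O : Type} [CommRing O] [IsDomain O] [IsDiscreteValuationRing O]
  [Algebra ℤ_[p] O] [Module.Finite ℤ_[p] O] [CharZero O] {S S' : Setup p O} {ℓ : ℕ}
  [Fact ℓ.Prime]

namespace Raise

variable (h : Raise S S' ℓ) (X : Aux S) (e : Bool)

/-- The anchor at the upper level. -/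
def upAnchor : Anchor (N := (h.up X).level) (h.up X).sys (h.up X).level :=
  (h.up X).exists_anchor_level.some

/-- The killer of the lower level, at the upper one. -/
def upKiller : Poly O S'.bad :=
  haveI := X.finite_coef
  haveI : IsNoetherianRing X.Coef := IsNoetherianRing.of_finite ℤ_[p] X.Coef
  polyMap O h.bad_eq (killer (X.chi e) X.sys X.Coef : Poly O S.bad)

theorem upKiller_mem : h.upKiller X e ∈ denom (h.up X).sys := by
  haveI := X.finite_coef
  haveI : IsNoetherianRing X.Coef := IsNoetherianRing.of_finite ℤ_[p] X.Coef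
  rw [mem_denom, upKiller]
  show ((h.up X).sys.comp (polyMap O h.bad_eq)) _ ≠ 0
  rw [show (h.up X).sys.comp (polyMap O h.bad_eq) = X.sys from h.sysEq X]
  exact (killer (X.chi e) X.sys X.Coef).2

/-- The classes. -/
def upEmb : (h.up X).Mod e →+ Hpar (Gamma1 (h.up X).level) X.Coef :=
  haveI := X.finite_coef
  haveI : IsNoetherianRing X.Coef := IsNoetherianRing.of_finite ℤ_[p] X.Coef
  AddMonoidHom.mk' (fun y => (h.upAnchor X).embed (h.surj_high X e X.Coef)
      (h.upKiller X e • h.upL X e y))
    fun a b => by rw [map_add, smul_add, map_add]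

theorem upEmb_apply (y : (h.up X).Mod e) :
    haveI := X.finite_coef
    haveI : IsNoetherianRing X.Coef := IsNoetherianRing.of_finite ℤ_[p] X.Coef
    h.upEmb X e y = (h.upAnchor X).embed (h.surj_high X e X.Coef)
      (h.upKiller X e • h.upL X e y) := rfl

theorem upEmb_smul (a : X.Coef) (y : (h.up X).Mod e) :
    h.upEmb X e (a • y) = scal a (h.upEmb X e y) := by
  rw [upEmb_apply, upEmb_apply, (h.upL X e).map_smul, smul_comm (h.upKiller X e) a,
    Anchor.embed_smul]

theorem upEmb_injective : Function.Injective (h.upEmb X e) := fun a b hab => by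
  haveI := X.finite_coef
  haveI : IsNoetherianRing X.Coef := IsNoetherianRing.of_finite ℤ_[p] X.Coef
  rw [upEmb_apply, upEmb_apply] at hab
  refine (h.upL X e).injective ?_
  exact ((Module.End.isUnit_iff _).1 (IsLocalizedModule.map_units
    (toLoc (h.chiUp X e) X.Coef (h.up X).sys) ⟨_, h.upKiller_mem X e⟩)).1
    ((h.upAnchor X).embed_injective (h.surj_high X e X.Coef) hab)

theorem upEmb_mem (y : (h.up X).Mod e) :
    h.upEmb X e y ∈ eigenPar X.Coef (h.chiUp X e) (h.upAnchor X).dvd := by
  haveI := X.finite_coef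
  haveI : IsNoetherianRing X.Coef := IsNoetherianRing.of_finite ℤ_[p] X.Coef
  rw [upEmb_apply]
  exact (h.upAnchor X).embed_mem (h.surj_high X e X.Coef) _

theorem upL_opMod (r : Poly O S'.bad) (y : (h.up X).Mod e) :
    h.upL X e ((h.up X).opMod e r y) = r • h.upL X e y := rfl

theorem upEmb_opMod (l : GoodPrime S'.bad) (hl : ¬ l.1 ∣ (h.up X).level) (y : (h.up X).Mod e) :
    h.upEmb X e ((h.up X).opMod e (MvPolynomial.X l) y) =
      (heckeFam1 hl).heckePar (h.upEmb X e y) := by
  rw [upEmb_apply, upEmb_apply, h.upL_opMod X e (MvPolynomial.X l) y,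
    smul_comm (h.upKiller X e) (MvPolynomial.X l : Poly O S'.bad), Anchor.embed_X]

/-- The classes come from cocycles, killed by the transfers with their arguments. -/
theorem exists_upEmb_cocycle (y : (h.up X).Mod e) :
    ∃ c : Z1 (psi (h.chiUp X e)) X.Coef,
      (∀ g : Gamma1 (h.up X).level, (h.upEmb X e y).1 (Additive.ofMul g) =
        (c : Gamma0 (h.up X).level → X.Coef) ⟨g, Gamma1_in_Gamma0 _ g.2⟩) ∧
      (h.modTau X e y = 0 → (h.ops X e).tau X.Coef (cls c) = 0) ∧
      (h.modTau X e (h.modW X e y) = 0 →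
        (h.ops X e).tau X.Coef ((h.ops X e).W X.Coef (cls c)) = 0) := by
  haveI := X.finite_coef
  haveI : IsNoetherianRing X.Coef := IsNoetherianRing.of_finite ℤ_[p] X.Coef
  obtain ⟨m, hm⟩ := h.surj_high X e X.Coef (h.upL X e y)
  obtain ⟨x, rfl⟩ := (toCoh O (h.chiUp X e) S'.bad X.Coef).surjective m
  set kl : Poly O S.bad := (killer (X.chi e) X.sys X.Coef : Poly O S.bad)
  set k' : Poly O S'.bad := (killer (h.chiUp X e) (h.up X).sys X.Coef : Poly O S'.bad)
  set op := (h.upAnchor X).op
  obtain ⟨c, hc⟩ := Submodule.Quotient.mk_surjective _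
    (polyHom O (h.chiUp X e) S'.bad X.Coef (op * (k' * h.upKiller X e)) x)
  have hkill : ∀ (Q : Poly O S.bad) (z : H1 (psi (X.chi e)) X.Coef),
      toLoc (X.chi e) X.Coef X.sys (toCoh O (X.chi e) S.bad X.Coef z) = 0 →
        polyHom O (X.chi e) S.bad X.Coef (Q * kl) z = 0 := fun Q z hz => by
    have h1 : kl • toCoh O (X.chi e) S.bad X.Coef z = 0 := by
      rw [killer_smul_eq (χ := X.chi e) (θ := X.sys) (y := toCoh O (X.chi e) S.bad X.Coef z)
        (y' := 0) (hz.trans (map_zero _).symm), smul_zero]
    rw [poly_smul] at h1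
    rw [map_mul, Module.End.mul_apply,
      (LinearEquiv.map_eq_zero_iff _).1 h1, map_zero]
  have hmap : polyMap O h.bad_eq.symm (h.upKiller X e) = kl := polyMap_symm h.bad_eq.symm kl
  have hmul : polyMap O h.bad_eq.symm (op * (k' * h.upKiller X e)) =
      polyMap O h.bad_eq.symm op * polyMap O h.bad_eq.symm k' * kl := by
    rw [map_mul, map_mul, hmap, mul_assoc]
  refine ⟨c, fun g => ?_, fun hy => ?_, fun hy => ?_⟩
  · rw [upEmb_apply, ← hm, ← map_smul, Anchor.embed_toLoc]
    show resGamma1 (h.chiUp X e) (h.upAnchor X).dvd ((toCoh O (h.chiUp X e) S'.bad X.Coef).symm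
      (op • k' • h.upKiller X e • toCoh O (h.chiUp X e) S'.bad X.Coef x)) (Additive.ofMul g) = _
    rw [← mul_smul, ← mul_smul, poly_smul, LinearEquiv.symm_apply_apply,
      show (op * k' * h.upKiller X e) = op * (k' * h.upKiller X e) from mul_assoc _ _ _, ← hc]
    rfl
  · show (h.ops X e).tau X.Coef (Submodule.Quotient.mk c) = 0
    rw [hc, ((h.ops X e).tau_comm X.Coef).polyHom, hmul]
    refine hkill _ _ ?_
    rw [← h.locTau_toLoc, show toLoc _ X.Coef _ (toCoh O (h.chiUp X e) S'.bad X.Coef x) =
      h.upL X e y from hm]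
    exact (LinearEquiv.map_eq_zero_iff (X.modL e).symm).1 hy
  · show (h.ops X e).tau X.Coef ((h.ops X e).W X.Coef (Submodule.Quotient.mk c)) = 0
    rw [hc, ((h.ops X e).W_comm X.Coef).polyHom, polyMap_refl,
      ((h.ops X e).tau_comm X.Coef).polyHom, hmul]
    refine hkill _ _ ?_
    rw [← h.locTau_toLoc, ← h.locW_toLoc, show toLoc _ X.Coef _
      (toCoh O (h.chiUp X e) S'.bad X.Coef x) = h.upL X e y from hm]
    exact (LinearEquiv.map_eq_zero_iff (X.modL e).symm).1 hy

end Raise

end FLTAgent.ModLift
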