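import Fermat.Agent.ModLift.Modules.Geometry
import Fermat.Agent.ModLift.Modules.Spans
import Fermat.Agent.EigenReps.Level
import Fermat.Agent.Lowering.P6.Tangent.Morita

/-!
# A piece of the Jacobian spanned by the translates of a module

Maps of a module of twisted traces into torsion valued functionals, compatible with the Hecke
operators at the good primes, span under Galois a group on which all matrices over the trace
algebra act, the representation acting as Galois does.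
-/

set_option autoImplicit false
set_option linter.unusedSectionVars false
set_option linter.style.haveILetI false

noncomputable section

set_option synthInstance.maxHeartbeats 400000
set_option maxHeartbeats 1000000

open IsLocalRing FLTAgent.EigenReps ModularCurve FLTAgent.Deformation

namespace FLTAgent.ModLift

open FLTAgent.Lowering

local notation "LL" => AlgebraicClosure ℚ
local notation "GG" => (AlgebraicClosure ℚ ≃ₐ[ℚ] AlgebraicClosure ℚ)
local notation "M2" => Matrix (Fin 2) (Fin 2)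

/-- A commutator of trace different from two gives a nonzero discriminant. -/
theorem disc_ne_zero_of_commutator {k : Type} [Field k] {G : Type} [Group G]
    (r : G →* GL (Fin 2) k) (g h : G) (hgh : trGL (r (g * h * g⁻¹ * h⁻¹)) ≠ 2) :
    trGL (r (g * h)) * trGL (r (g * h)) - trGL (r (g * h * (h * g))) - 2 * detGL (r (g * h)) ≠ 0 := by
  intro h0
  have hsq := (P6.Tangent.quad_matrix r).comm_sq g h
  rw [h0, zero_smul] at hsq
  set C := ((Units.coeHom (M2 k)).comp r) g * ((Units.coeHom (M2 k)).comp r) h -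
    ((Units.coeHom (M2 k)).comp r) h * ((Units.coeHom (M2 k)).comp r) g with hC
  have hC0 : C.det = 0 := by
    have := congrArg Matrix.det hsq
    rw [Matrix.det_mul, Matrix.det_zero] at this
    exact mul_self_eq_zero.1 this
  set K : M2 k := (r (g * h * g⁻¹ * h⁻¹) : M2 k)
  have hfac : C = (K - 1) * (r (h * g) : M2 k) := by
    rw [sub_mul, one_mul, ← Units.val_mul, ← map_mul,
      show g * h * g⁻¹ * h⁻¹ * (h * g) = g * h by group, hC]
    simp [map_mul]
  rw [hfac, Matrix.det_mul, mul_eq_zero] at hC0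
  have hne : (r (h * g) : M2 k).det ≠ 0 :=
    (Matrix.isUnit_iff_isUnit_det _).1 (r (h * g)).isUnit |>.ne_zero
  have hK : K.det = 1 := by
    show ((Matrix.GeneralLinearGroup.det.comp r) (g * h * g⁻¹ * h⁻¹) : kˣ).1 = 1
    rw [map_mul, map_mul, map_mul, map_inv, map_inv,
      mul_comm (_ : kˣ) ((Matrix.GeneralLinearGroup.det.comp r) h),
      mul_inv_cancel_right, mul_inv_cancel, Units.val_one]
  have h1 := hC0.resolve_right hne
  rw [Matrix.det_fin_two] at h1 hK
  simp only [Matrix.sub_apply, Matrix.one_apply_eq,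
    Matrix.one_apply_ne (show (0 : Fin 2) ≠ 1 by decide),
    Matrix.one_apply_ne (show (1 : Fin 2) ≠ 0 by decide), sub_zero] at h1
  refine hgh ?_
  show K.trace = 2
  rw [Matrix.trace_fin_two]
  linear_combination -h1 + hK

namespace Aux

variable {p : ℕ} [Fact p.Prime] {O : Type} [CommRing O] [IsDomain O] [IsDiscreteValuationRing O]
  [Algebra ℤ_[p] O] [Module.Finite ℤ_[p] O] [CharZero O] {S : Setup p O} (Y : Aux S) {e : Bool}

local instance neZero_pow_piece (n : ℕ) : NeZero (p ^ n) :=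
  ⟨pow_ne_zero _ (Fact.out : p.Prime).ne_zero⟩

variable {N n : ℕ}

variable (N n) in
/-- Functionals valued in the Jacobian. -/
abbrev FunJ : Type := (Y.Coef →+ ZMod (p ^ n)) →+ JZero N

/-- Galois on functionals valued in the Jacobian. -/
def funU : GG →* AddMonoid.End (Y.FunJ N n) where
  toFun g := AddMonoidHom.compHom (DistribSMul.toAddMonoidHom (JZero N) g)
  map_one' := AddMonoidHom.ext fun x => AddMonoidHom.ext fun f => one_smul GG (x f)
  map_mul' g h := AddMonoidHom.ext fun x => AddMonoidHom.ext fun f => mul_smul g h (x f)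

theorem funU_apply (g : GG) (x : (Y.FunJ N n)) (f : Y.Coef →+ ZMod (p ^ n)) : Y.funU g x f = g • x f := rfl

/-- The coefficients on functionals valued in the Jacobian. -/
def funPre : Y.Coef →+* AddMonoid.End (Y.FunJ N n) where
  toFun a := AddMonoidHom.mk' (fun x => x.comp (AddMonoidHom.mk'
      (fun f : Y.Coef →+ ZMod (p ^ n) => f.comp (DistribSMul.toAddMonoidHom Y.Coef a))
      fun _ _ => rfl)) fun _ _ => rfl
  map_one' := AddMonoidHom.ext fun x => AddMonoidHom.ext fun f =>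
    congrArg x (AddMonoidHom.ext fun b => congrArg f (one_smul Y.Coef b))
  map_mul' a b := AddMonoidHom.ext fun x => AddMonoidHom.ext fun f =>
    congrArg x (AddMonoidHom.ext fun c => congrArg f (mul_smul a b c))
  map_zero' := AddMonoidHom.ext fun x => AddMonoidHom.ext fun f =>
    (congrArg x (AddMonoidHom.ext fun b => (congrArg f (zero_smul Y.Coef b)).trans (map_zero f))).trans
      (map_zero x)
  map_add' a b := AddMonoidHom.ext fun x => AddMonoidHom.ext fun f =>
    (congrArg x (AddMonoidHom.ext fun c =>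
      (congrArg f (add_smul a b c)).trans (map_add f _ _))).trans (map_add x _ _)

theorem funPre_apply (a : Y.Coef) (x : (Y.FunJ N n)) (f : Y.Coef →+ ZMod (p ^ n)) :
    Y.funPre a x f = x (f.comp (DistribSMul.toAddMonoidHom Y.Coef a)) := rfl

/-- The cyclotomic character on functionals. -/
def funC : GG →* AddMonoid.End (Y.FunJ N n) := (Y.funPre (N := N) (n := n)).toMonoidHom.comp Y.cycC

theorem commute_funU_funPre (g : GG) (a : Y.Coef) :
    Commute (Y.funU (N := N) (n := n) g) (Y.funPre a) := rfl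

theorem pow_nsmul_fun (x : (Y.FunJ N n)) : p ^ n • x = 0 := AddMonoidHom.ext fun f => by
  have h : p ^ n • f = 0 := AddMonoidHom.ext fun a => by
    rw [AddMonoidHom.nsmul_apply, nsmul_eq_mul, ZMod.natCast_self, zero_mul, AddMonoidHom.zero_apply]
  rw [AddMonoidHom.nsmul_apply, ← map_nsmul, h, map_zero, AddMonoidHom.zero_apply]

theorem funPre_eq_zero {a : Y.Coef} (ha : a ∈ Ideal.span {(p : Y.Coef) ^ n}) :
    Y.funPre (N := N) (n := n) a = 0 := by
  obtain ⟨z, rfl⟩ := Ideal.mem_span_singleton'.mp ha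
  refine AddMonoidHom.ext fun x => ?_
  rw [map_mul, ← Nat.cast_pow, map_natCast]
  show Y.funPre z ((p ^ n : ℕ) • x) = 0
  rw [pow_nsmul_fun, map_zero]

section Frob

variable [NeZero N]

theorem shape_frobenius_apply (r : Y.TrPrime) (hN : ¬ r.1.1 ∣ N) {V : ValuationSubring LL}
    (hV : V.LiesOverPrime r.1.1) {τ : GG} (hτ : V.IsFrobeniusAt τ r.1.1) (x : (Y.FunJ N n))
    (f : Y.Coef →+ ZMod (p ^ n)) :
    shape Y.funU Y.funC τ x f = heckeOperatorBar N ⟨r.1.1, r.1.2.1⟩ (x f) := by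
  have hl : r.1.1 ≠ p := fun h => r.1.2.2 (by rw [h]; exact S.p_mem)
  have hc : Y.funC (N := N) (n := n) τ = (r.1.1 : AddMonoid.End (Y.FunJ N n)) := by
    show Y.funPre (algebraMap ℤ_[p] Y.Coef (cycZ p τ)) = _
    rw [cycZ_frobenius p r.1.2.1 hl hV hτ, map_natCast, map_natCast]
  have hx : p ^ n • x f = 0 := DFunLike.congr_fun (Y.pow_nsmul_fun x) f
  rw [heckeOperatorBar_frobenius N ⟨r.1.1, r.1.2.1⟩ hN
    (Aux.not_dvd_pow (S := S) n (l := r.1)) hV hτ hx, shape, hc]
  rfl

theorem commute_shape_frobenius (r : Y.TrPrime) (hN : ¬ r.1.1 ∣ N) {V : ValuationSubring LL}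
    (hV : V.LiesOverPrime r.1.1) {τ : GG} (hτ : V.IsFrobeniusAt τ r.1.1) (g : GG) :
    Commute (Y.funU (N := N) (n := n) g) (shape Y.funU Y.funC τ) :=
  AddMonoidHom.ext fun x => AddMonoidHom.ext fun f => by
    show g • shape Y.funU Y.funC τ x f = shape Y.funU Y.funC τ (Y.funU g x) f
    have hx : p ^ n • x f = 0 := DFunLike.congr_fun (Y.pow_nsmul_fun x) f
    have hgx : p ^ n • (g • x f) = 0 := by rw [nsmul_galois_smul, hx, galois_smul_zero]
    rw [Y.shape_frobenius_apply r hN hV hτ, Y.shape_frobenius_apply r hN hV hτ, funU_apply,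
      heckeOperatorBar_frobenius N ⟨r.1.1, r.1.2.1⟩ hN (Aux.not_dvd_pow (S := S) n (l := r.1)) hV hτ hx,
      heckeOperatorBar_frobenius N ⟨r.1.1, r.1.2.1⟩ hN (Aux.not_dvd_pow (S := S) n (l := r.1))
        (Frobenius.liesOverPrime_smul V hV) (Frobenius.isFrobeniusAt_conj V hτ (γ := g)) hgx,
      smul_add, ← nsmul_galois_smul N r.1.1 g, mul_smul, mul_smul, inv_smul_smul, mul_inv_rev,
      mul_inv_rev, inv_inv, mul_smul, mul_smul, inv_smul_smul]

end Frob

/-- The translates of a family of functionals. -/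
def pieceOf (w : Y.Mod e →+ (Y.FunJ N n)) : AddSubgroup (Y.FunJ N n) :=
  AddSubgroup.closure (Set.range fun gy : GG × Y.Mod e =>
    (DistribSMul.toAddMonoidHom (JZero N) gy.1).comp (w gy.2))

section Piece

variable (w : Y.Mod e →+ (Y.FunJ N n))

theorem funU_mem_pieceOf (g : GG) (y : Y.Mod e) : Y.funU g (w y) ∈ Y.pieceOf w :=
  AddSubgroup.subset_closure ⟨(g, y), rfl⟩

/-- A translate in the piece. -/
def pieceOfGen (g : GG) (y : Y.Mod e) : Y.pieceOf w :=
  ⟨Y.funU g (w y), Y.funU_mem_pieceOf w g y⟩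

theorem pieceOf_ext {A : Type*} [AddCommGroup A] {f f' : Y.pieceOf w →+ A}
    (h : ∀ g y, f (Y.pieceOfGen w g y) = f' (Y.pieceOfGen w g y)) : f = f' := by
  refine AddMonoidHom.ext fun x => ?_
  obtain ⟨v, hv⟩ := x
  induction hv using AddSubgroup.closure_induction with
  | mem v hv => obtain ⟨⟨g, y⟩, rfl⟩ := hv; exact h g y
  | zero => exact (map_zero f).trans (map_zero f').symm
  | add a b ha hb iha ihb =>
    exact (map_add f ⟨a, ha⟩ ⟨b, hb⟩).trans ((congrArg₂ (· + ·) iha ihb).trans (map_add f' _ _).symm)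
  | neg a ha iha =>
    exact (map_neg f ⟨a, ha⟩).trans ((congrArg Neg.neg iha).trans (map_neg f' _).symm)

theorem funU_stable (σ : GG) : Y.pieceOf w ≤ (Y.pieceOf w).comap (Y.funU σ) :=
  (AddSubgroup.closure_le _).mpr fun _ ⟨⟨g, y⟩, h⟩ => AddSubgroup.mem_comap.mpr (by
    rw [← h]
    show Y.funU σ (Y.funU g (w y)) ∈ _
    rw [← endMul_apply (Y.funU σ), ← map_mul]
    exact Y.funU_mem_pieceOf w _ y)

/-- Galois on the piece. -/
def pieceOfU : GG →* AddMonoid.End (Y.pieceOf w) where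
  toFun σ := AddMonoidHom.codRestrict ((Y.funU σ).comp (Y.pieceOf w).subtype) (Y.pieceOf w)
    fun x => Y.funU_stable w σ x.2
  map_one' := AddMonoidHom.ext fun x => Subtype.ext
    (DFunLike.congr_fun (map_one (Y.funU (N := N) (n := n))) x.1)
  map_mul' σ τ := AddMonoidHom.ext fun x => Subtype.ext
    (DFunLike.congr_fun (map_mul (Y.funU (N := N) (n := n)) σ τ) x.1)

theorem pieceOfU_gen (σ g : GG) (y : Y.Mod e) :
    Y.pieceOfU w σ (Y.pieceOfGen w g y) = Y.pieceOfGen w (σ * g) y :=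
  Subtype.ext (DFunLike.congr_fun (map_mul (Y.funU (N := N) (n := n)) σ g) (w y)).symm

variable (hsmul : ∀ (a : Y.Coef) y f,
  w (a • y) f = w y (f.comp (DistribSMul.toAddMonoidHom Y.Coef a)))

include hsmul

theorem w_smul (a : Y.Coef) (y : Y.Mod e) : w (a • y) = Y.funPre a (w y) :=
  AddMonoidHom.ext fun f => hsmul a y f

theorem w_algebraMap (c : O) (y : Y.Mod e) :
    w (Y.actTR e (algebraMap O Y.TR c) y) = Y.funPre (algebraMap O Y.Coef c) (w y) := by
  rw [Y.actTR_algebraMap, Y.mod_smul, Y.w_smul w hsmul]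

theorem w_cycT (σ : GG) (y : Y.Mod e) :
    w (Y.actTR e (Y.cycT σ) y) = Y.funC σ (w y) := by
  show w (Y.actTR e (algebraMap ℤ_[p] Y.TR (cycZ p σ)) y) =
    Y.funPre (algebraMap ℤ_[p] Y.Coef (cycZ p σ)) (w y)
  rw [IsScalarTower.algebraMap_apply ℤ_[p] O Y.TR, Y.w_algebraMap w hsmul,
    ← IsScalarTower.algebraMap_apply ℤ_[p] O Y.Coef]

variable [NeZero N] (hN : ∀ r : Y.TrPrime, ¬ r.1.1 ∣ N)
  (hhecke : ∀ (r : Y.TrPrime) (q : Nat.Primes), (q : ℕ) = r.1.1 → ∀ y f,
    heckeOperatorBar N q (w y f) = w (Y.actTR e (Y.trace r) y) f)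

include hN hhecke

theorem shape_frobenius_w (r : Y.TrPrime) {V : ValuationSubring LL} (hV : V.LiesOverPrime r.1.1)
    {τ : GG} (hτ : V.IsFrobeniusAt τ r.1.1) (y : Y.Mod e) :
    shape Y.funU Y.funC τ (w y) = w (Y.actTR e (Y.trace r) y) :=
  AddMonoidHom.ext fun f =>
    (Y.shape_frobenius_apply r (hN r) hV hτ (w y) f).trans (hhecke r ⟨r.1.1, r.1.2.1⟩ rfl y f)

variable {P : PseudoChar GG Y.TR} (hP : Y.IsTracePseudo P)

include hP

theorem shape_pow_w (r : Y.TrPrime) {V : ValuationSubring LL} (hV : V.LiesOverPrime r.1.1)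
    {τ : GG} (hτ : V.IsFrobeniusAt τ r.1.1) (j : ℕ) :
    (∀ g, Commute (Y.funU (N := N) (n := n) g) (shape Y.funU Y.funC (τ ^ j))) ∧
      ∀ y, shape Y.funU Y.funC (τ ^ j) (w y) = w (Y.actTR e (P.tr (τ ^ j)) y) := by
  have h1 : (∀ g, Commute (Y.funU (N := N) (n := n) g) (shape Y.funU Y.funC τ)) ∧
      ∀ y, shape Y.funU Y.funC τ (w y) = w (Y.actTR e (P.tr τ) y) := by
    rw [hP.frob r V hV τ hτ]
    exact ⟨Y.commute_shape_frobenius r (hN r) hV hτ, Y.shape_frobenius_w w hsmul hN hhecke r hV hτ⟩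
  have hUC : ∀ g h, Commute (Y.funU (N := N) (n := n) g) (Y.funC h) := fun g h =>
    Y.commute_funU_funPre g _
  have hCC : ∀ g h, Commute (Y.funC (N := N) (n := n) g) (Y.funC h) := fun g h =>
    (Commute.all (Y.cycC g) (Y.cycC h)).map Y.funPre.toMonoidHom
  induction j using Nat.twoStepInduction with
  | zero =>
    rw [pow_zero, shape_one, P.tr_one, ← one_add_one_eq_two, ← one_add_one_eq_two]
    refine ⟨fun g => (Commute.one_right _).add_right (Commute.one_right _), fun y => ?_⟩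
    rw [map_add, map_one, LinearMap.add_apply, Module.End.one_apply, map_add]
    rfl
  | one => rw [pow_one]; exact h1
  | more j ih0 ih1 =>
    rw [shape_pow_step Y.funU Y.funC hUC hCC h1.1]
    refine ⟨fun g => ((ih1.1 g).mul_right (h1.1 g)).sub_right ((hUC g τ).mul_right (ih0.1 g)),
      fun y => ?_⟩
    rw [EigenLattice.tr_pow_two_step, hP.det_eq, map_sub, LinearMap.sub_apply, map_sub,
      Y.actTR_mul_apply, Y.actTR_mul_apply, Y.w_cycT w hsmul]
    show shape (Y.funU (N := N) (n := n)) Y.funC (τ ^ (j + 1)) (shape Y.funU Y.funC τ (w y)) -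
      Y.funC τ (shape Y.funU Y.funC (τ ^ j) (w y)) = _
    rw [h1.2, ih1.2, ih0.2]

theorem shape_w (σ : GG) :
    (∀ g, Commute (Y.funU (N := N) (n := n) g) (shape Y.funU Y.funC σ)) ∧
      ∀ y, shape Y.funU Y.funC σ (w y) = w (Y.actTR e (P.tr σ) y) := by
  obtain ⟨L1, hL1, h1⟩ := exists_torsion_level N (p ^ n)
  obtain ⟨L2, hL2, h2⟩ := exists_expo_level (p ^ n)
  obtain ⟨L3, hL3, h3⟩ := hP.level n
  obtain ⟨r, V, τ, j, hV, hτ, hj⟩ := Y.exists_good_frobenius (L1 ⊔ L2 ⊔ L3) σ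
  set d := (τ ^ j)⁻¹ * σ
  have hd : ∀ a ∈ L1 ⊔ L2 ⊔ L3, d a = a := fun a ha => by
    rw [AlgEquiv.mul_apply, hj a ha]
    exact (τ ^ j).symm_apply_apply a
  have hσ : σ = τ ^ j * d := (mul_inv_cancel_left _ _).symm
  have hU : Y.funU (N := N) (n := n) d = 1 := AddMonoidHom.ext fun x => AddMonoidHom.ext fun f =>
    h1 d (fun a ha => hd a ((le_sup_left.trans le_sup_left : L1 ≤ L1 ⊔ L2 ⊔ L3) ha)) (x f)
      (DFunLike.congr_fun (Y.pow_nsmul_fun x) f)
  have hC : Y.funC (N := N) (n := n) (τ ^ j * d) = Y.funC (τ ^ j) := by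
    have he : expo (p ^ n) (τ ^ j * d) = expo (p ^ n) (τ ^ j) := by
      rw [map_mul, h2 d (fun a ha => hd a ((le_sup_right.trans le_sup_left : L2 ≤ L1 ⊔ L2 ⊔ L3) ha)),
        mul_one]
    refine sub_eq_zero.mp ?_
    show Y.funPre (Y.cycC _) - Y.funPre (Y.cycC _) = 0
    rw [← map_sub]
    refine Y.funPre_eq_zero ?_
    obtain ⟨z, hz⟩ := Ideal.mem_span_singleton'.mp (cycZ_sub_mem_of_expo p he)
    show algebraMap ℤ_[p] Y.Coef (cycZ p _) - algebraMap ℤ_[p] Y.Coef (cycZ p _) ∈ _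
    rw [← map_sub, ← hz, map_mul, map_pow, map_natCast]
    exact Ideal.mem_span_singleton'.mpr ⟨_, rfl⟩
  obtain ⟨hc, hw⟩ := Y.shape_pow_w w hsmul hN hhecke hP r hV hτ j
  have hs := shape_mul_eq Y.funU Y.funC hU hC
  rw [← hσ] at hs
  refine ⟨fun g => hs ▸ hc g, fun y => ?_⟩
  rw [hs, hw]
  have hm := h3 d (fun a ha => hd a ((le_sup_right : L3 ≤ L1 ⊔ L2 ⊔ L3) ha)) (τ ^ j)
  rw [← hσ, Ideal.span_singleton_pow, Ideal.mem_span_singleton'] at hm
  obtain ⟨z, hz⟩ := hm
  rw [eq_add_of_sub_eq hz.symm, map_add, LinearMap.add_apply, map_add]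
  have h0 : w (Y.actTR e (z * (p : Y.TR) ^ n) y) = 0 := by
    rw [map_mul, ← Nat.cast_pow, map_natCast, Module.End.mul_apply, Module.End.natCast_apply,
      map_nsmul, map_nsmul, Y.pow_nsmul_fun]
  exact ((congrArg (· + w (Y.actTR e (P.tr (τ ^ j)) y)) h0).trans
    (AddMonoidHom.ext fun f => zero_add _)).symm

theorem exists_funOp (t : Y.TR) : ∃ Φ : AddMonoid.End (Y.FunJ N n),
    (∀ g, Commute (Y.funU g) Φ) ∧ ∀ y, Φ (w y) = w (Y.actTR e t y) := by
  induction t using Y.TR_induction with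
  | hC c => exact ⟨Y.funPre (algebraMap O Y.Coef c), fun g => Y.commute_funU_funPre g _,
      fun y => (Y.w_algebraMap w hsmul c y).symm⟩
  | hX r =>
    obtain ⟨V, hV⟩ := Frobenius.exists_liesOverPrime r.1.1 r.1.2.1
    obtain ⟨τ, hτ⟩ := Frobenius.exists_isFrobeniusAt V r.1.1 r.1.2.1 hV
    exact ⟨shape Y.funU Y.funC τ, Y.commute_shape_frobenius r (hN r) hV hτ,
      Y.shape_frobenius_w w hsmul hN hhecke r hV hτ⟩
  | hadd a b ha hb =>
    obtain ⟨F, hF, hF'⟩ := ha
    obtain ⟨G, hG, hG'⟩ := hb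
    exact ⟨F + G, fun g => (hF g).add_right (hG g), fun y => (endAdd_apply F G _).trans
      ((congrArg₂ (· + ·) (hF' y) (hG' y)).trans
        (by rw [map_add (Y.actTR e), LinearMap.add_apply, map_add]))⟩
  | hmul a b ha hb =>
    obtain ⟨F, hF, hF'⟩ := ha
    obtain ⟨G, hG, hG'⟩ := hb
    exact ⟨F * G, fun g => (hF g).mul_right (hG g), fun y => (endMul_apply F G _).trans
      ((congrArg F (hG' y)).trans ((hF' _).trans (congrArg w (Y.actTR_mul_apply e a b y).symm)))⟩

theorem exists_pieceOfRing : ∃ R : Y.TR →+* AddMonoid.End (Y.pieceOf w),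
    ∀ t g y, R t (Y.pieceOfGen w g y) = Y.pieceOfGen w g (Y.actTR e t y) := by
  have h : ∀ t : Y.TR, ∃ f : AddMonoid.End (Y.pieceOf w),
      ∀ g y, f (Y.pieceOfGen w g y) = Y.pieceOfGen w g (Y.actTR e t y) := fun t => by
    obtain ⟨Φ, hΦ, hΦ'⟩ := Y.exists_funOp w hsmul hN hhecke hP t
    have hgen : ∀ g y, Φ (Y.funU g (w y)) = Y.funU g (w (Y.actTR e t y)) := fun g y =>
      (DFunLike.congr_fun (hΦ g).eq (w y)).symm.trans (congrArg (Y.funU g) (hΦ' y))
    have hstab : Y.pieceOf w ≤ (Y.pieceOf w).comap Φ :=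
      (AddSubgroup.closure_le _).mpr fun _ ⟨⟨g, y⟩, h⟩ => AddSubgroup.mem_comap.mpr (by
        rw [← h]
        show Φ (Y.funU g (w y)) ∈ _
        rw [hgen]
        exact Y.funU_mem_pieceOf w g _)
    exact ⟨AddMonoidHom.codRestrict (Φ.comp (Y.pieceOf w).subtype) (Y.pieceOf w)
      fun x => hstab x.2, fun g y => Subtype.ext (hgen g y)⟩
  choose f hf using h
  have hgen0 : ∀ g, Y.pieceOfGen w g 0 = 0 := fun g => Subtype.ext (by
    show Y.funU g (w 0) = 0
    rw [map_zero, map_zero])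
  have hgenA : ∀ g y z, Y.pieceOfGen w g (y + z) = Y.pieceOfGen w g y + Y.pieceOfGen w g z :=
    fun g y z => Subtype.ext (by
      show Y.funU g (w (y + z)) = Y.funU g (w y) + Y.funU g (w z)
      rw [map_add, map_add])
  exact ⟨{
    toFun := f
    map_one' := Y.pieceOf_ext w fun g y => (hf 1 g y).trans
      (congrArg (Y.pieceOfGen w g) (LinearMap.congr_fun (map_one (Y.actTR e)) y))
    map_mul' := fun a b => Y.pieceOf_ext w fun g y => (hf (a * b) g y).trans
      ((congrArg (Y.pieceOfGen w g) (Y.actTR_mul_apply e a b y)).trans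
        ((hf a g _).symm.trans
          ((congrArg (f a) (hf b g y).symm).trans (endMul_apply _ _ _).symm)))
    map_zero' := Y.pieceOf_ext w fun g y => (hf 0 g y).trans
      ((congrArg (Y.pieceOfGen w g) (LinearMap.congr_fun (map_zero (Y.actTR e)) y)).trans (hgen0 g))
    map_add' := fun a b => Y.pieceOf_ext w fun g y => (hf (a + b) g y).trans
      ((congrArg (Y.pieceOfGen w g) (LinearMap.congr_fun (map_add (Y.actTR e) a b) y)).trans
        ((hgenA g _ _).trans ((congrArg₂ (· + ·) (hf a g y) (hf b g y)).symm.trans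
          (endAdd_apply _ _ _).symm))) }, hf⟩

theorem pieceOf_quadratic (R : Y.TR →+* AddMonoid.End (Y.pieceOf w))
    (hR : ∀ t g y, R t (Y.pieceOfGen w g y) = Y.pieceOfGen w g (Y.actTR e t y)) (σ : GG) :
    Y.pieceOfU w σ * Y.pieceOfU w σ + R (P.det σ) = R (P.tr σ) * Y.pieceOfU w σ := by
  refine Y.pieceOf_ext w fun g y => ?_
  refine (congrArg₂ (· + ·) ((congrArg (Y.pieceOfU w σ) (Y.pieceOfU_gen w σ g y)).trans
      (Y.pieceOfU_gen w σ (σ * g) y)) (hR (P.det σ) g y)).trans (Eq.trans ?_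
    ((congrArg (R (P.tr σ)) (Y.pieceOfU_gen w σ g y)).trans (hR (P.tr σ) (σ * g) y)).symm)
  rw [hP.det_eq]
  refine Subtype.ext ?_
  show Y.funU (σ * (σ * g)) (w y) + Y.funU g (w (Y.actTR e (Y.cycT σ) y)) =
    Y.funU (σ * g) (w (Y.actTR e (P.tr σ) y))
  obtain ⟨hc, hw⟩ := Y.shape_w w hsmul hN hhecke hP σ
  rw [Y.w_cycT w hsmul, ← hw]
  exact quadratic_of_central Y.funU Y.funC σ g (hc _) (Y.commute_funU_funPre g _) _

theorem exists_pieceOf_matrix_hom : ∃ Θ : M2 Y.TR →+* AddMonoid.End (Y.pieceOf w),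
    (∀ σ (x : Y.pieceOf w) f, (Θ (hP.rep σ : M2 Y.TR) x).1 f = σ • x.1 f) ∧
      ∀ (t : Y.TR) y (hy : w y ∈ Y.pieceOf w),
        (Θ (t • 1) ⟨w y, hy⟩).1 = w (Y.actTR e t y) := by
  haveI := Y.isLocalRing_TR
  obtain ⟨R, hR⟩ := Y.exists_pieceOfRing w hsmul hN hhecke hP
  letI : Module Y.TR (Y.pieceOf w) := Module.compHom _ R
  have hcomm : ∀ σ t (x : Y.pieceOf w), Y.pieceOfU w σ (t • x) = t • Y.pieceOfU w σ x :=
    fun σ t x => DFunLike.congr_fun (Y.pieceOf_ext w (f := (Y.pieceOfU w σ).comp (R t))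
      (f' := (R t).comp (Y.pieceOfU w σ)) fun g y => by
        show Y.pieceOfU w σ (R t (Y.pieceOfGen w g y)) = R t (Y.pieceOfU w σ (Y.pieceOfGen w g y))
        rw [hR, pieceOfU_gen, pieceOfU_gen, hR]) x
  let B : GG →* Module.End Y.TR (Y.pieceOf w) :=
    { toFun := fun σ =>
        { toFun := Y.pieceOfU w σ
          map_add' := map_add _
          map_smul' := hcomm σ }
      map_one' := LinearMap.ext fun x => DFunLike.congr_fun (map_one (Y.pieceOfU w)) x
      map_mul' := fun σ τ => LinearMap.ext fun x => DFunLike.congr_fun (map_mul (Y.pieceOfU w) σ τ) x }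
  let r : GG →* M2 Y.TR := (Units.coeHom (M2 Y.TR)).comp hP.rep
  have hQ : P6.Tangent.Quad B (fun g => trGL (hP.rep g)) fun g => detGL (hP.rep g) := by
    refine ⟨fun g => LinearMap.ext fun x => ?_, (P6.Tangent.quad_matrix hP.rep).det_mul,
      (P6.Tangent.quad_matrix hP.rep).tr_comm⟩
    simp only [hP.det_rep, hP.tr_rep]
    exact DFunLike.congr_fun (Y.pieceOf_quadratic w hsmul hN hhecke hP R hR g) x
  obtain ⟨g₀, h₀, hgh⟩ := S.rb_big
  have hdet : ∀ σ, Y.redTR (detGL (hP.rep σ)) = detGL (S.rb σ) := fun σ => by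
    rw [hP.det_rep, hP.det_eq, Y.redTR_cycT]
  have htr : ∀ σ, Y.redTR (trGL (hP.rep σ)) = trGL (S.rb σ) := fun σ => by
    rw [hP.tr_rep, hP.residual]
  have hu : IsUnit (trGL (hP.rep (g₀ * h₀)) * trGL (hP.rep (g₀ * h₀)) -
      trGL (hP.rep (g₀ * h₀ * (h₀ * g₀))) - 2 * detGL (hP.rep (g₀ * h₀))) := by
    refine Y.isUnit_of_redTR ?_
    rw [map_sub, map_sub, map_mul Y.redTR, map_mul Y.redTR, map_ofNat, htr, htr, hdet]
    exact disc_ne_zero_of_commutator S.rb g₀ h₀ hgh
  let Lr : (GG →₀ Y.TR) →ₗ[Y.TR] M2 Y.TR := Finsupp.linearCombination Y.TR r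
  let LB : (GG →₀ Y.TR) →ₗ[Y.TR] Module.End Y.TR (Y.pieceOf w) :=
    Finsupp.linearCombination Y.TR B
  have hker : LinearMap.ker Lr ≤ LinearMap.ker LB := fun c hc =>
    hQ.comb_eq_zero r (Matrix.traceLinearMap (Fin 2) Y.TR Y.TR) (fun g => rfl) Y.isUnit_two_TR
      ⟨g₀, h₀, hu⟩ c hc
  have hspan : Submodule.span Y.TR (Set.range r) = ⊤ :=
    Deformation.span_range_eq_top (exists_residual_conj Y.redTR
      ((Units.coeHom _).comp S.rb) (span_of_commutator S.rb S.rb_big) r htr).1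
  have hsurj : Function.Surjective Lr := by
    rw [← LinearMap.range_eq_top, Finsupp.range_linearCombination]
    exact hspan
  let Ψ : M2 Y.TR →ₗ[Y.TR] Module.End Y.TR (Y.pieceOf w) :=
    ((LinearMap.ker Lr).liftQ LB hker).comp (Lr.quotKerEquivOfSurjective hsurj).symm.toLinearMap
  have hΨ : ∀ g, Ψ (r g) = B g := fun g => by
    have h1 : (Lr.quotKerEquivOfSurjective hsurj).symm (r g) =
        Submodule.Quotient.mk (Finsupp.single g 1) := by
      rw [LinearEquiv.symm_apply_eq]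
      show r g = Lr (Finsupp.single g 1)
      simp [Lr]
    simp only [Ψ, LinearMap.comp_apply, LinearEquiv.coe_coe, h1]
    show LB (Finsupp.single g 1) = _
    simp [LB]
  clear_value Ψ
  have hone : Ψ 1 = 1 := by simpa using hΨ 1
  have hmul : ∀ a b, Ψ (a * b) = Ψ a * Ψ b := fun a b => by
    have ha : a ∈ Submodule.span Y.TR (Set.range r) := hspan ▸ Submodule.mem_top
    induction ha using Submodule.span_induction with
    | mem _ ha =>
      obtain ⟨g, rfl⟩ := ha
      have hb : b ∈ Submodule.span Y.TR (Set.range r) := hspan ▸ Submodule.mem_top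
      induction hb using Submodule.span_induction with
      | mem _ hb => obtain ⟨h, rfl⟩ := hb; rw [← map_mul, hΨ, hΨ, hΨ, map_mul]
      | zero => simp
      | add u v _ _ hu hv => simp [mul_add, hu, hv]
      | smul a u _ hu =>
        exact (congrArg Ψ (mul_smul_comm a (r g) u)).trans ((map_smul Ψ a _).trans
          ((congrArg (a • ·) hu).trans (((LinearMap.comp_smul (Ψ (r g)) a (Ψ u))).symm.trans
            (congrArg (Ψ (r g) * ·) (map_smul Ψ a u).symm))))
    | zero => simp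
    | add u v _ _ hu hv => simp [add_mul, hu, hv]
    | smul a u _ hu =>
      exact (congrArg Ψ (smul_mul_assoc a u b)).trans ((map_smul Ψ a _).trans
        ((congrArg (a • ·) hu).trans (((LinearMap.smul_comp a (Ψ u) (Ψ b))).symm.trans
          (congrArg (· * Ψ b) (map_smul Ψ a u).symm))))
  refine ⟨{
    toFun := fun A => (Ψ A).toAddMonoidHom
    map_one' := AddMonoidHom.ext fun x => LinearMap.congr_fun hone x
    map_mul' := fun a b => AddMonoidHom.ext fun x => LinearMap.congr_fun (hmul a b) x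
    map_zero' := AddMonoidHom.ext fun x => LinearMap.congr_fun (map_zero Ψ) x
    map_add' := fun a b => AddMonoidHom.ext fun x => LinearMap.congr_fun (map_add Ψ a b) x },
    fun σ x f => ?_, fun t y hy => ?_⟩
  · show (Ψ (r σ) x).1 f = _
    rw [hΨ]
    rfl
  · show (Ψ (t • 1) ⟨w y, hy⟩).1 = _
    rw [map_smul, hone, LinearMap.smul_apply, Module.End.one_apply]
    have h1 : (⟨w y, hy⟩ : Y.pieceOf w) = Y.pieceOfGen w 1 y :=
      Subtype.ext (DFunLike.congr_fun (map_one (Y.funU (N := N) (n := n))) (w y)).symm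
    show (R t ⟨w y, hy⟩).1 = _
    rw [h1, hR]
    exact DFunLike.congr_fun (map_one (Y.funU (N := N) (n := n))) (w (Y.actTR e t y))

end Piece

/-- **The matrix action on the piece.** -/
theorem exists_piece_matrix (N n : ℕ) [NeZero N] (w : Y.Mod e →+ (Y.FunJ N n))
    (hN : ∀ r : Y.TrPrime, ¬ r.1.1 ∣ N)
    (hsmul : ∀ (a : Y.Coef) y f,
      w (a • y) f = w y (f.comp (DistribSMul.toAddMonoidHom Y.Coef a)))
    (hhecke : ∀ (r : Y.TrPrime) (q : Nat.Primes), (q : ℕ) = r.1.1 → ∀ y f,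
      heckeOperatorBar N q (w y f) = w (Y.actTR e (Y.trace r) y) f) :
    ∃ Θ : M2 Y.TR →+* AddMonoid.End (Y.pieceOf w),
      (∀ σ (x : Y.pieceOf w) f,
        (Θ (Units.val (α := M2 Y.TR) ((Y.levelData Y.geometry).ρ σ)) x).1 f = σ • x.1 f) ∧
      ∀ (t : Y.TR) y (hy : w y ∈ Y.pieceOf w),
        (Θ (t • 1) ⟨w y, hy⟩).1 = w (Y.actTR e t y) :=
  Y.exists_pieceOf_matrix_hom w hsmul hN hhecke (Y.pseudo_spec Y.geometry)

end Aux

end FLTAgent.ModLift
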