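import Fermat.Agent.ModLift.Modules.TwistAll

/-!
# The twists at several primes as sums over translations

`exists_twist_all`, recording also that the twist at the primes of `s` is a linear combination of
the composites with conjugation by translations by multiples of `1 / ∏ s`.
-/

set_option autoImplicit false
set_option linter.unusedSectionVars false
set_option linter.style.haveILetI false
set_option maxHeartbeats 800000
set_option synthInstance.maxHeartbeats 400000

noncomputable section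

open CongruenceSubgroup
open scoped MatrixGroups

namespace FLTAgent.ModLift

open FLTAgent.PeriodHecke FLTAgent.DeligneSerre

local notation "M2" => Matrix (Fin 2) (Fin 2) ℤ

theorem exists_shift_gamma1 {N P : ℕ} (hP : P ∣ N) (k : ℤ) (γ : Gamma1 (N * P)) :
    ∃ δ : Gamma1 N, shiftMx P k * mat γ = mat δ * shiftMx P k := by
  obtain ⟨n, hn⟩ := hP
  obtain ⟨e, he⟩ := dvd_lower_left (N * P) (⟨γ, Gamma1_in_Gamma0 _ γ.2⟩ : Gamma0 (N * P))
  obtain ⟨g00, g11, -⟩ := (Gamma1_mem (N * P) _).mp γ.2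
  have g00' : ((mat γ 0 0 : ℤ) : ZMod (N * P)) = 1 := g00
  have g11' : ((mat γ 1 1 : ℤ) : ZMod (N * P)) = 1 := g11
  have hd0 : ((mat γ 1 1 - mat γ 0 0 : ℤ) : ZMod (N * P)) = 0 := by
    rw [Int.cast_sub, g11', g00', sub_self]
  obtain ⟨m, hm⟩ := (ZMod.intCast_zmod_eq_zero_iff_dvd _ _).1 hd0
  change mat γ 1 0 = _ at he
  push_cast at he hm
  have hn' : (N : ℤ) = P * n := by exact_mod_cast hn
  have hdet := mat_det γ
  rw [Matrix.det_fin_two] at hdet
  let D : M2 := !![mat γ 0 0 + k * N * e, mat γ 0 1 + k * N * m - k * k * n * e;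
    mat γ 1 0, mat γ 1 1 - k * N * e]
  have hD : D.det = 1 := by
    rw [Matrix.det_fin_two_of]
    linear_combination hdet + (k * N * e) * hm + (k * k * n * e - k * N * m) * he -
      k * k * N * e * e * hn'
  have hNP : ∀ z : ℤ, ((z : ℤ) : ZMod (N * P)) = 1 → ((z : ℤ) : ZMod N) = 1 := fun z hz => by
    have e := congrArg (ZMod.castHom (dvd_mul_right N P) (ZMod N)) hz
    rwa [map_intCast, map_one] at e
  refine ⟨⟨⟨D, hD⟩, (Gamma1_mem N _).mpr ⟨?_, ?_, ?_⟩⟩, ?_⟩
  · show ((mat γ 0 0 + k * N * e : ℤ) : ZMod N) = 1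
    push_cast
    rw [hNP _ g00', ZMod.natCast_self]
    ring
  · show ((mat γ 1 1 - k * N * e : ℤ) : ZMod N) = 1
    push_cast
    rw [hNP _ g11', ZMod.natCast_self]
    ring
  · show ((mat γ 1 0 : ℤ) : ZMod N) = 0
    rw [he]
    push_cast
    rw [ZMod.natCast_self]
    ring
  · show shiftMx P k * mat γ = D * shiftMx P k
    conv_lhs => rw [Matrix.eta_fin_two (mat γ)]
    ext i j
    fin_cases i <;> fin_cases j <;> simp [D, shiftMx, Matrix.mul_apply, Fin.sum_univ_two]
    · linear_combination k * he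
    · linear_combination k * hm - (k * k * e) * hn'
    · ring
    · linear_combination -k * he

theorem shiftMx_mul (r P : ℕ) (a k : ℤ) :
    shiftMx r a * shiftMx P k = shiftMx (r * P) (a * P + k * r) := by
  ext i j
  fin_cases i <;> fin_cases j <;> simp [shiftMx, Matrix.mul_apply, Fin.sum_univ_two]
  ring

variable {V : Type*} [AddCommGroup V] {A : Type*} [CommRing A] [Module A V]
  (η : ∀ r : ℕ, (ZMod r)ˣ →* Aˣ)
  (htf : ∀ (m : ℕ) (v : V), m ≠ 0 → m • v = 0 → v = 0) {n : ℕ} (hn : Odd n)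
  (hη : ∀ r d, η r d ^ n = 1)

include htf hn hη in
/-- **The twists at several primes, as sums over translations.** -/
theorem exists_twist_span : ∀ (s : Finset ℕ), (∀ r ∈ s, r.Prime) → ∀ (N : ℕ) [NeZero N],
    (∀ r ∈ s, r ∣ N ∧ ¬ r ^ 2 ∣ N) → ∀ (M : ℕ) [NeZero M], M = N * ∏ r ∈ s, r →
    ∃ Tw : Hpar (Gamma1 N) V →+ Hpar (Gamma1 M) V,
      (∀ φ, IsEig η N s φ → IsEig η M ∅ (Tw φ) ∧ (Tw φ = 0 → φ = 0)) ∧
      (∀ (c : A) φ, Tw (mapHpar (DistribSMul.toAddMonoidHom V c) φ) =
        mapHpar (DistribSMul.toAddMonoidHom V c) (Tw φ)) ∧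
      (∀ (l : ℕ) [Fact l.Prime] (hlN : ¬ l ∣ N) (hlM : ¬ l ∣ M) (c : A),
        c * ∏ r ∈ s, wt η r (l : ℤ) = 1 → ∀ φ,
          (heckeFam1 hlM).heckePar (Tw φ) =
            mapHpar (DistribSMul.toAddMonoidHom V c) (Tw ((heckeFam1 hlN).heckePar φ))) ∧
      ∃ (ι : Type) (_ : Fintype ι) (w : ι → A) (k : ι → ℤ),
        ∀ φ (γ : Gamma1 M) (δ : ι → Gamma1 N),
          (∀ i, shiftMx (∏ r ∈ s, r) (k i) * mat γ = mat (δ i) * shiftMx (∏ r ∈ s, r) (k i)) →
            (Tw φ).1 (Additive.ofMul γ) = ∑ i, w i • φ.1 (Additive.ofMul (δ i)) := by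
  classical
  intro s
  induction s using Finset.induction with
  | empty =>
    intro _ N _ _ M _ hM
    rw [Finset.prod_empty, mul_one] at hM
    subst hM
    refine ⟨AddMonoidHom.id _, fun φ h => ⟨h, id⟩, fun c φ => rfl, fun l _ hlN hlM c hc φ => ?_,
      Unit, inferInstance, fun _ => 1, fun _ => 0, fun φ γ δ hδ => ?_⟩
    · rw [Finset.prod_empty, mul_one] at hc
      subst hc
      exact Subtype.ext (AddMonoidHom.ext fun x => (one_smul A _).symm)
    · rw [Fintype.sum_unique, one_smul]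
      have h := hδ default
      rw [Finset.prod_empty, show shiftMx 1 0 = (1 : M2) by simp [shiftMx, Matrix.one_fin_two],
        one_mul, mul_one] at h
      rw [show δ default = γ from (mat_injective h).symm]
      rfl
  | insert r s hr ih =>
    intro hp N _ hN M _ hM
    haveI : Fact r.Prime := ⟨hp r (Finset.mem_insert_self r s)⟩
    haveI : NeZero r := ⟨(Fact.out : r.Prime).ne_zero⟩
    obtain ⟨hrN, hr2⟩ := hN r (Finset.mem_insert_self r s)
    have hs : ∀ r' ∈ s, r'.Prime := fun r' h => hp r' (Finset.mem_insert_of_mem h)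
    have hne : ∀ r' ∈ s, r' ≠ r := fun r' h e => hr (e ▸ h)
    haveI : NeZero (N * r) := ⟨Nat.mul_ne_zero (NeZero.ne N) (Fact.out : r.Prime).ne_zero⟩
    have hNr : ∀ r' ∈ s, r' ∣ N * r ∧ ¬ r' ^ 2 ∣ N * r := fun r' h => by
      obtain ⟨h1, h2⟩ := hN r' (Finset.mem_insert_of_mem h)
      refine ⟨h1.mul_right r, fun h3 => h2 ?_⟩
      refine Nat.Coprime.dvd_of_dvd_mul_right (Nat.Coprime.pow_left 2 ?_) h3
      exact (Nat.coprime_primes (hs r' h) Fact.out).mpr (hne r' h)
    have hM' : M = N * r * ∏ r' ∈ s, r' := by rw [hM, Finset.prod_insert hr, mul_assoc]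
    obtain ⟨Tw, hT, hTs, hTh, ι, _, w, k, hTk⟩ := ih hs (N * r) hNr M hM'
    refine ⟨Tw.comp (twist hrN (η r)), fun φ hφ => ?_, fun c φ => ?_,
      fun l _ hlN hlM c hc φ => ?_, ι × (ZMod r)ˣ, inferInstance, fun x => w x.1 * (η r x.2 : A),
      fun x => ((x.2 : ZMod r).val : ℤ) * (∏ r' ∈ s, r' : ℕ) + k x.1 * r, fun φ γ δ hδ => ?_⟩
    · have heig : IsEig η (N * r) s (twist hrN (η r) φ) := by
        intro γ x
        obtain ⟨d, hd⟩ : IsUnit (((mat γ 1 1 : ℤ)) : ZMod r) := by
          have h := ((Group.isUnit γ).map (Gamma0Map (N * r))).map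
            (ZMod.castHom (dvd_mul_left r N) (ZMod r))
          change IsUnit (ZMod.castHom (dvd_mul_left r N) (ZMod r)
            ((mat γ 1 1 : ℤ) : ZMod (N * r))) at h
          rwa [map_intCast] at h
        rw [twist_diamond hrN (η r) φ γ d hd.symm
          (∏ r' ∈ insert r s, wt η r' (mat γ 1 1) * wt η r' (mat γ 1 1)) ?_ x]
        · congr 1
          rw [Finset.prod_insert hr, wt_of_eq η hd.symm]
          have hdd : ((η r d⁻¹ : Aˣ) : A) * (η r d : A) = 1 := by
            rw [← Units.val_mul, ← map_mul, inv_mul_cancel, map_one, Units.val_one]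
          linear_combination (∏ r' ∈ s, wt η r' (mat γ 1 1) * wt η r' (mat γ 1 1)) *
            (((η r d⁻¹ : Aˣ) : A) * (η r d : A) + 1) * hdd
        · intro γ' hγ' y
          rw [hφ γ' y]
          congr 1
          refine Finset.prod_congr rfl fun r' hr' => ?_
          have h : wt η r' (mat γ' 1 1) = wt η r' (mat γ 1 1) := by
            refine wt_congr η ?_
            have := congrArg (ZMod.castHom (hN r' hr').1 (ZMod r')) hγ'
            rwa [map_intCast, map_intCast] at this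
          rw [h]
      refine ⟨(hT _ heig).1, fun h0 => ?_⟩
      refine twist_injective hrN (η r) htf hr2 hn (hη r) φ (fun γ d h1 hd x => ?_) ((hT _ heig).2 h0)
      rw [hφ γ x, Finset.prod_insert hr, wt_of_eq η hd, Finset.prod_eq_one, mul_one]
      intro r' hr'
      have hd' : r' ∣ N / r := by
        obtain ⟨N₀, hN₀⟩ := hrN
        rw [hN₀, Nat.mul_div_cancel_left _ (Fact.out : r.Prime).pos]
        exact ((hs r' hr').dvd_mul.mp (hN₀ ▸ (hN r' (Finset.mem_insert_of_mem hr')).1)).resolve_left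
          fun h => hne r' hr' ((Nat.prime_dvd_prime_iff_eq (hs r' hr') Fact.out).mp h)
      have h1' : ((mat γ 1 1 : ℤ) : ZMod r') = ((1 : (ZMod r')ˣ) : ZMod r') := by
        have := congrArg (ZMod.castHom hd' (ZMod r')) h1
        rw [map_intCast, map_one] at this
        rw [this, Units.val_one]
      rw [wt_of_eq η h1', map_one, Units.val_one, one_mul]
    · rw [AddMonoidHom.comp_apply, twist_smul, hTs]
      rfl
    · rw [AddMonoidHom.comp_apply, AddMonoidHom.comp_apply]
      have hlr : ¬ l ∣ N * r := fun h => hlM (hM' ▸ h.mul_right _)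
      obtain ⟨lu, hlu⟩ : IsUnit (l : ZMod r) := by
        rw [isUnit_iff_ne_zero, Ne, ZMod.natCast_eq_zero_iff]
        exact fun h => hlN (((Nat.prime_dvd_prime_iff_eq Fact.out Fact.out).mp h) ▸ hrN)
      rw [Finset.prod_insert hr, wt_of_eq η (z := (l : ℤ)) (d := lu)
        (by rw [Int.cast_natCast, hlu])] at hc
      have hc' : c * (η r lu : A) * ∏ r' ∈ s, wt η r' (l : ℤ) = 1 := by rw [mul_assoc]; exact hc
      rw [hTh l hlr hlM _ hc', twist_hecke hrN (η r) hlN hlr φ lu hlu, hTs]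
      refine Subtype.ext (AddMonoidHom.ext fun x => ?_)
      show (c * (η r lu : A)) • ((η r lu⁻¹ : Aˣ) : A) •
          ((Tw (twist hrN (η r) ((heckeFam1 hlN).heckePar φ))).1 x : V) =
        c • ((Tw (twist hrN (η r) ((heckeFam1 hlN).heckePar φ))).1 x : V)
      rw [smul_smul, mul_assoc, ← Units.val_mul, ← map_mul, mul_inv_cancel, map_one, Units.val_one,
        mul_one]
    · have hP : (∏ r' ∈ s, r') ∣ N * r :=
        Finset.prod_primes_dvd _ (fun r' h => (hs r' h).prime) fun r' h => (hNr r' h).1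
      have hex : ∀ i, ∃ ε : Gamma1 (N * r),
          shiftMx (∏ r' ∈ s, r') (k i) * mat γ = mat ε * shiftMx (∏ r' ∈ s, r') (k i) := fun i => by
        subst hM'
        exact exists_shift_gamma1 hP (k i) γ
      choose ε hε using hex
      haveI : NeZero (∏ r' ∈ s, r') :=
        ⟨Finset.prod_ne_zero_iff.2 fun r' h => (hs r' h).ne_zero⟩
      haveI : NeZero (r * ∏ r' ∈ s, r') :=
        ⟨Nat.mul_ne_zero (NeZero.ne r) (NeZero.ne _)⟩
      rw [AddMonoidHom.comp_apply, hTk _ γ ε hε, Fintype.sum_prod_type]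
      refine Finset.sum_congr rfl fun i _ => ?_
      rw [twist_apply, Finset.smul_sum]
      refine Finset.sum_congr rfl fun a _ => ?_
      rw [smul_smul]
      refine congrArg (fun g => _ • φ.1 (Additive.ofMul g)) (mat_injective ?_)
      have h := hδ (i, a)
      rw [Finset.prod_insert hr, ← shiftMx_mul] at h
      refine mul_shiftMx_cancel (q := r) (a := ((a : ZMod r).val : ℤ)) ?_
      rw [← conjShift_rel]
      refine mul_shiftMx_cancel (q := ∏ r' ∈ s, r') (a := k i) ?_
      rw [mul_assoc, ← hε i, ← mul_assoc, h, mul_assoc]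

end FLTAgent.ModLift
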